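import Fermat.Agent.S34x.C0two.Count
import Fermat.Agent.S19x.Geo.LatticeFixed

/-!
# P-S33, W-STRUCTURE (W1): fixed lifts and fixed orthonormal frames of `V ∩ O` over a small ring

Port of `S19x/Geo/LatticeFixed.lean` from a reduction set-up `C0.RedSetup A O k κ` (one valuation
ring `O`, residue FIELD `κ`) to `S34x.C0two.RedSetup2 A Sr k κ`: `Sr = (O, I)` a small ring of `F`
(for us: `O = O_∞ ∩ O_0`, the functions of sup-norm `≤ 1` for the two Gauss valuations, `I` the
functions of sup-norm `< 1`), with a residue RING `κ` (e.g. `κ_∞ × κ_0`).  The proofs of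
`LatticeFixed` use the valuation of `O` only through `res x = 0` and `scal`, so they go through
verbatim.

`S` is a set of semilinear automorphisms of `F/K` (for us: the inertia group acting coefficientwise);
`IsFixed`, `IsFixedK`, the descent `span_fixed_of_stable` are those of `S19x/Geo/LatticeFixed`.

Hypotheses on `S` (`FixData2`): the residue field of `A^S` is `k`; `A^S` has a uniformiser `ϖ`;
a fixed `f ≠ 0` can be scaled into `O \ I` by a FIXED scalar.

Results, for a finite-dimensional `K`-subspace `V ⊆ F` (think `V = L(a C_0 + b C_∞)`) whose lattice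
`V ∩ O` is finitely generated over `A` and which is spanned by its fixed elements:

* `exists_fixedFrame2` : `V` has a `FixedFrame2` indexed by `Fin (finrank K V)`: a `K`-basis of
  fixed elements of `V ∩ O` whose reductions are linearly independent over `k`; it is an `A`-basis
  of `V ∩ O` (`FixedFrame2.exists_coeff`) and an `A^S`-basis of `(V ∩ O)^S`
  (`FixedFrame2.exists_fixed_coeff`), its reductions form a `k`-basis of `R.redLat V`
  (`FixedFrame2.span_res_eq`, `FixedFrame2.finrank_redLat`);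
* `exists_fixed_lift2` : every element of the reduction `R.redLat V` of `V ∩ O` has a fixed lift;
* `FixData2.exists_eq_unif_smul_mem` : a fixed element of `V ∩ O` with zero reduction is `ϖ` times a
  fixed element of `V ∩ O`.
-/

set_option autoImplicit false
set_option linter.unusedSectionVars false

noncomputable section

namespace Fermat.Agent.S33x.W.LatticeFixed2

open AlgebraicCurve IsLocalRing Module
open Fermat.Agent.S34x.C0two
open Fermat.Agent.S19x.Geo.LatticeFixed (IsFixed IsFixedK smul_sum_fixed span_fixed_of_stable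
  exists_bound_of_fg inv_mem_maximalIdeal_of_notMem coe_smul_eq)

variable {K : Type*} [Field K] {A : ValuationSubring K} {F : Type*} [Field F] [Algebra K F]
  {Sr : SmallRing F} {k κ : Type*} [Field k] [CommRing κ] [Algebra k κ]

/-! ### Orthonormal families: coefficients are integral -/

section Ortho

variable (R : RedSetup2 A Sr k κ)
include R

theorem ksmul_mem_O (a : A) {x : F} (hx : x ∈ Sr.O) : (a : K) • x ∈ Sr.O := R.smul_mem_O a hx

theorem sum_ksmul_mem_O {ι : Type*} (t : Finset ι) (a : ι → A) {f : ι → F} (hf : ∀ i, f i ∈ Sr.O) :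
    ∑ i ∈ t, (a i : K) • f i ∈ Sr.O :=
  sum_mem fun i _ => ksmul_mem_O R (a i) (hf i)

/-- reduction of an integral linear combination. -/
theorem res_sum_ksmul {ι : Type*} (t : Finset ι) (a : ι → A) {f : ι → F} (hf : ∀ i, f i ∈ Sr.O) :
    R.res ⟨∑ i ∈ t, (a i : K) • f i, sum_ksmul_mem_O R t a hf⟩
      = ∑ i ∈ t, R.π (a i) • R.res ⟨f i, hf i⟩ := by
  rw [R.res_sum t (fun i => (a i : K) • f i) (fun i => ksmul_mem_O R (a i) (hf i))]
  exact Finset.sum_congr rfl fun i _ => R.res_smul (a i) (hf i)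

/-- an element of the maximal ideal times an integral element has zero reduction. -/
theorem res_ksmul_eq_zero_of_mem {a : A} (ha : a ∈ maximalIdeal A) {x : F} (hx : x ∈ Sr.O) :
    R.res ⟨(a : K) • x, ksmul_mem_O R a hx⟩ = 0 := by
  have h := R.res_smul a hx
  rw [(R.π_eq_zero_iff a).2 ha, zero_smul] at h
  exact h

/-- **Normalisation**: a non-trivial `K`-combination of integral elements with `k`-independent
reductions can be scaled (by the inverse of a coefficient of maximal absolute value) to an integral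
combination with non-zero reduction. -/
theorem exists_normalize {ι : Type*} [Fintype ι] {f : ι → F} (hf : ∀ i, f i ∈ Sr.O)
    (hli : LinearIndependent k fun i => R.res ⟨f i, hf i⟩) (c : ι → K) {i₀ : ι} (hi₀ : c i₀ ≠ 0) :
    ∃ j, c j ≠ 0 ∧ (∀ i, c i / c j ∈ A) ∧
      ∀ h : (c j)⁻¹ • ∑ i, c i • f i ∈ Sr.O, R.res ⟨(c j)⁻¹ • ∑ i, c i • f i, h⟩ ≠ 0 := by
  classical
  obtain ⟨j, -, hj⟩ := Finset.exists_max_image Finset.univ (fun i => A.valuation (c i))
    ⟨i₀, Finset.mem_univ _⟩
  have hcj : c j ≠ 0 := by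
    intro h0
    have h1 := hj i₀ (Finset.mem_univ _)
    rw [h0, map_zero] at h1
    exact hi₀ ((map_eq_zero _).1 (le_antisymm h1 zero_le))
  have hvj : 0 < A.valuation (c j) := by
    rw [pos_iff_ne_zero]
    exact fun h => hcj ((map_eq_zero _).1 h)
  have hd : ∀ i, c i / c j ∈ A := by
    intro i
    rw [← A.valuation_le_one_iff, map_div₀]
    exact (div_le_one₀ hvj).2 (hj i (Finset.mem_univ _))
  refine ⟨j, hcj, hd, ?_⟩
  intro h hres
  have hsum : (c j)⁻¹ • ∑ i, c i • f i = ∑ i, ((⟨c i / c j, hd i⟩ : A) : K) • f i := by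
    rw [Finset.smul_sum]
    refine Finset.sum_congr rfl fun i _ => ?_
    rw [smul_smul, inv_mul_eq_div]
  have hres' : R.res ⟨∑ i, ((⟨c i / c j, hd i⟩ : A) : K) • f i,
      sum_ksmul_mem_O R _ _ hf⟩ = 0 := by
    rw [← hres]
    congr 1
    exact Subtype.ext hsum.symm
  rw [res_sum_ksmul R Finset.univ _ hf] at hres'
  have h1 := (Fintype.linearIndependent_iff.1 hli) _ hres' j
  have h2 : (⟨c j / c j, hd j⟩ : A) = 1 := Subtype.ext (div_self hcj)
  rw [h2, map_one] at h1
  exact one_ne_zero h1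

/-- **Lemma O**: if the `f i` are integral with `k`-independent reductions and `∑ c i • f i` is
integral, then all `c i` are integral. -/
theorem coeff_mem_of_res_indep {ι : Type*} [Fintype ι] {f : ι → F} (hf : ∀ i, f i ∈ Sr.O)
    (hli : LinearIndependent k fun i => R.res ⟨f i, hf i⟩) (c : ι → K)
    (hsum : ∑ i, c i • f i ∈ Sr.O) (i : ι) : c i ∈ A := by
  by_cases hi : c i = 0
  · rw [hi]; exact A.zero_mem
  obtain ⟨j, hcj, hd, hne⟩ := exists_normalize R hf hli c hi
  have hjA : c j ∈ A := by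
    by_contra hjA
    obtain ⟨a, ha, hac⟩ := inv_mem_maximalIdeal_of_notMem hjA
    have h1 := res_ksmul_eq_zero_of_mem R ha hsum
    have hmem : (c j)⁻¹ • ∑ i, c i • f i ∈ Sr.O := hac ▸ ksmul_mem_O R a hsum
    apply hne hmem
    have heq : (⟨(c j)⁻¹ • ∑ i, c i • f i, hmem⟩ : Sr.O)
        = ⟨(a : K) • ∑ i, c i • f i, ksmul_mem_O R a hsum⟩ := by
      apply Subtype.ext
      show (c j)⁻¹ • ∑ i, c i • f i = (a : K) • ∑ i, c i • f i
      rw [hac]
    rw [heq]
    exact h1
  have : c i = (c i / c j) * c j := by field_simp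
  rw [this]
  exact A.mul_mem _ _ (hd i) hjA

/-- **Lemma O'**: integral elements with `k`-independent reductions are `K`-independent. -/
theorem linearIndependent_of_res_indep {ι : Type*} [Fintype ι] {f : ι → F} (hf : ∀ i, f i ∈ Sr.O)
    (hli : LinearIndependent k fun i => R.res ⟨f i, hf i⟩) : LinearIndependent K f := by
  rw [Fintype.linearIndependent_iff]
  intro c hsum i
  by_contra hi
  obtain ⟨j, -, -, hne⟩ := exists_normalize R hf hli c hi
  have h0 : (c j)⁻¹ • ∑ i, c i • f i = 0 := by rw [hsum, smul_zero]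
  have hmem : (c j)⁻¹ • ∑ i, c i • f i ∈ Sr.O := h0 ▸ Sr.O.zero_mem
  apply hne hmem
  have : (⟨(c j)⁻¹ • ∑ i, c i • f i, hmem⟩ : Sr.O) = 0 := Subtype.ext h0
  rw [this, map_zero]

end Ortho

/-! ### The hypotheses on `S` and the fixed frame -/

section Main

variable (R : RedSetup2 A Sr k κ) (S : Set (SemilinearAut K F))

/-- Hypotheses on the set `S` of semilinear automorphisms: the residue field of `A^S` is all of
`k`; `A^S` has a uniformiser; the Gauss valuation is unramified on `F^S` over `K^S`. -/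
structure FixData2 : Prop where
  residue_surj : ∀ a : A, ∃ a₀ : A, IsFixedK S (a₀ : K) ∧ R.π a₀ = R.π a
  unif : ∃ ϖ : A, ϖ ∈ maximalIdeal A ∧ ϖ ≠ 0 ∧ IsFixedK S (ϖ : K) ∧
    ∀ c : A, IsFixedK S (c : K) → c ∈ maximalIdeal A → ϖ ∣ c
  scal_fixed : ∀ f : F, f ≠ 0 → IsFixed S f →
    ∃ c : K, c ≠ 0 ∧ IsFixedK S c ∧ c • f ∈ Sr.O ∧ ¬ Small Sr (c • f)

/-- A **fixed orthonormal frame** of `V`: a family of fixed elements of `V ∩ O` spanning `V` over
`K` whose reductions are linearly independent over `k`. -/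
structure FixedFrame2 (V : Submodule K F) {ι : Type*} (b : ι → F) : Prop where
  mem_V : ∀ i, b i ∈ V
  mem_O : ∀ i, b i ∈ Sr.O
  fixed : ∀ i, IsFixed S (b i)
  res_indep : LinearIndependent k fun i => R.res ⟨b i, mem_O i⟩
  span_eq : Submodule.span K (Set.range b) = V

variable {R S}

theorem FixData2.exists_fixed_coeff (hD : FixData2 R S) (cbar : k) :
    ∃ a : A, IsFixedK S (a : K) ∧ R.π a = cbar := by
  obtain ⟨a, rfl⟩ := R.π_surj cbar
  exact hD.residue_surj a

/-- A fixed integral element with zero reduction is `ϖ` times a fixed integral element. -/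
theorem FixData2.exists_eq_unif_smul (hD : FixData2 R S) {ϖ : A} (hϖfix : IsFixedK S (ϖ : K))
    (hϖ0 : ϖ ≠ 0) (hϖ : ∀ c : A, IsFixedK S (c : K) → c ∈ maximalIdeal A → ϖ ∣ c)
    {f : F} (hfO : f ∈ Sr.O) (hfix : IsFixed S f) (hres : R.res ⟨f, hfO⟩ = 0) :
    ∃ g : F, g ∈ Sr.O ∧ IsFixed S g ∧ f = (ϖ : K) • g := by
  by_cases hf0 : f = 0
  · exact ⟨0, Sr.O.zero_mem, IsFixed.zero, by rw [hf0, smul_zero]⟩
  obtain ⟨c, hc0, hcfix, hcfO, hns⟩ := hD.scal_fixed f hf0 hfix
  have hcA : c ∉ A := by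
    intro hcA
    apply hns
    rw [R.small_iff hcfO]
    have h1 := R.res_smul (⟨c, hcA⟩ : A) hfO
    rw [hres, smul_zero] at h1
    exact h1
  obtain ⟨a, ha, hac⟩ := inv_mem_maximalIdeal_of_notMem hcA
  have hafix : IsFixedK S (a : K) := hac ▸ hcfix.inv
  obtain ⟨b, hb⟩ := hϖ a hafix ha
  have hϖK : (ϖ : K) ≠ 0 := fun h => hϖ0 (Subtype.ext h)
  have habK : (a : K) = (ϖ : K) * (b : K) := by rw [hb]; rfl
  have hbK : (b : K) = (a : K) / (ϖ : K) := by
    rw [habK, mul_div_cancel_left₀ _ hϖK]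
  have hbfix : IsFixedK S (b : K) := hbK ▸ hafix.div hϖfix
  refine ⟨(b : K) • (c • f), ksmul_mem_O R b hcfO,
    IsFixed.smul hbfix (IsFixed.smul hcfix hfix), ?_⟩
  rw [smul_smul, smul_smul]
  have h1 : (ϖ : K) * (b : K) * c = 1 := by
    rw [← habK, hac, inv_mul_cancel₀ hc0]
  rw [h1, one_smul]

/-- The reductions of the fixed elements of `V ∩ O`: a `k`-subspace of `κ`. -/
def fixedRed (hD : FixData2 R S) (V : Submodule K F) : Submodule k κ where
  carrier := {y | ∃ (x : F) (hx : x ∈ Sr.O), x ∈ V ∧ IsFixed S x ∧ R.res ⟨x, hx⟩ = y}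
  zero_mem' := ⟨0, Sr.O.zero_mem, V.zero_mem, IsFixed.zero, map_zero _⟩
  add_mem' := by
    rintro _ _ ⟨x, hx, hxV, hxf, rfl⟩ ⟨y, hy, hyV, hyf, rfl⟩
    exact ⟨x + y, add_mem hx hy, V.add_mem hxV hyV, hxf.add hyf,
      map_add R.res ⟨x, hx⟩ ⟨y, hy⟩⟩
  smul_mem' := by
    rintro c _ ⟨x, hx, hxV, hxf, rfl⟩
    obtain ⟨a, hafix, rfl⟩ := hD.exists_fixed_coeff c
    exact ⟨(a : K) • x, ksmul_mem_O R a hx, V.smul_mem (a : K) hxV, IsFixed.smul hafix hxf,
      R.res_smul a hx⟩

theorem fixedRed_le (hD : FixData2 R S) (V : Submodule K F) : fixedRed hD V ≤ R.redLat V := by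
  rintro y ⟨x, hx, hxV, -, h⟩
  exact ⟨x, hx, hxV, h⟩

variable (R) in
/-- The reduction of `V ∩ O` is finite-dimensional, of dimension at most `dim V`. -/
theorem finiteDimensional_redLat (V : Submodule K F) [FiniteDimensional K V] :
    FiniteDimensional k (R.redLat V) := by
  classical
  have h : Module.rank k (R.redLat V) ≤ ((finrank K V : ℕ) : Cardinal) := by
    apply rank_le
    intro s hs
    have hlift : ∀ y : s, ∃ (x : F) (hx : x ∈ Sr.O), x ∈ V ∧
        R.res ⟨x, hx⟩ = (((y : R.redLat V)) : κ) := fun y => (y : R.redLat V).2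
    choose x hxO hxV hxres using hlift
    have hli : LinearIndependent k fun y : s => R.res ⟨x y, hxO y⟩ := by
      have h1 : LinearIndependent k (fun y : s => (((y : R.redLat V)) : κ)) :=
        hs.map' (R.redLat V).subtype (Submodule.ker_subtype _)
      have h2 : (fun y : s => R.res ⟨x y, hxO y⟩) = fun y : s => (((y : R.redLat V)) : κ) :=
        funext hxres
      rw [h2]
      exact h1
    have hK : LinearIndependent K x := linearIndependent_of_res_indep R hxO hli
    have hK' : LinearIndependent K (fun y : s => (⟨x y, hxV y⟩ : V)) := by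
      apply LinearIndependent.of_comp V.subtype
      exact hK
    have := hK'.fintype_card_le_finrank
    simpa using this
  exact Module.rank_lt_aleph0_iff.1 (lt_of_le_of_lt h (Cardinal.natCast_lt_aleph0))

/-- **Spanning**: if the reductions of the fixed family `e` span the reductions of all fixed
elements of `V ∩ O`, and `V ∩ O` is finitely generated, then every fixed element of `V` is a
`K`-combination of the `e i`. -/
theorem FixData2.fixed_mem_span (hD : FixData2 R S) {V : Submodule K F} (hfg : (R.lat V).FG)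
    {ι : Type*} [Fintype ι] {e : ι → F} (heV : ∀ i, e i ∈ V) (heO : ∀ i, e i ∈ Sr.O)
    (hefix : ∀ i, IsFixed S (e i))
    (hspan : ∀ (x : F) (hx : x ∈ Sr.O), x ∈ V → IsFixed S x →
      ∃ cbar : ι → k, R.res ⟨x, hx⟩ = ∑ i, cbar i • R.res ⟨e i, heO i⟩)
    {v : F} (hvV : v ∈ V) (hvfix : IsFixed S v) : v ∈ Submodule.span K (Set.range e) := by
  classical
  by_contra hv
  obtain ⟨φ, hφv, hφ⟩ := Submodule.exists_le_ker_of_notMem hv
  obtain ⟨c₀, hc₀, hbound⟩ := exists_bound_of_fg hfg φ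
  obtain ⟨ϖ, hϖm, hϖ0, hϖfix, hϖdvd⟩ := hD.unif
  have hϖK : (ϖ : K) ≠ 0 := fun h => hϖ0 (Subtype.ext h)
  have hv0 : v ≠ 0 := fun h => hv (h ▸ Submodule.zero_mem _)
  obtain ⟨c, hc0, hcfix, hv₁O, -⟩ := hD.scal_fixed v hv0 hvfix
  have hφe : ∀ i, φ (e i) = 0 := fun i => hφ (Submodule.subset_span ⟨i, rfl⟩)
  have key : ∀ N : ℕ, ∃ w : F, w ∈ V ∧ w ∈ Sr.O ∧ IsFixed S w ∧
      φ (c • v) = (ϖ : K) ^ N * φ w := by
    intro N
    induction N with
    | zero =>
      exact ⟨c • v, V.smul_mem c hvV, hv₁O, IsFixed.smul hcfix hvfix, by rw [pow_zero, one_mul]⟩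
    | succ N ih =>
      obtain ⟨w, hwV, hwO, hwfix, hw⟩ := ih
      obtain ⟨cbar, hcbar⟩ := hspan w hwO hwV hwfix
      choose a hafix haπ using fun i => hD.exists_fixed_coeff (cbar i)
      have hsO : ∑ i, (a i : K) • e i ∈ Sr.O := sum_ksmul_mem_O R _ a heO
      have hw'O : w - ∑ i, (a i : K) • e i ∈ Sr.O := sub_mem hwO hsO
      have hw'res : R.res ⟨w - ∑ i, (a i : K) • e i, hw'O⟩ = 0 := by
        have h1 : (⟨w - ∑ i, (a i : K) • e i, hw'O⟩ : Sr.O)
            = ⟨w, hwO⟩ - ⟨∑ i, (a i : K) • e i, hsO⟩ := rfl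
        rw [h1, map_sub, res_sum_ksmul R Finset.univ a heO, hcbar, sub_eq_zero]
        exact Finset.sum_congr rfl fun i _ => by rw [haπ i]
      have hw'fix : IsFixed S (w - ∑ i, (a i : K) • e i) :=
        hwfix.sub (IsFixed.sum _ fun i _ => IsFixed.smul (hafix i) (hefix i))
      obtain ⟨g, hgO, hgfix, hg⟩ :=
        hD.exists_eq_unif_smul hϖfix hϖ0 hϖdvd hw'O hw'fix hw'res
      have hgV : g ∈ V := by
        have h2 : g = (ϖ : K)⁻¹ • (w - ∑ i, (a i : K) • e i) := by
          rw [hg, smul_smul, inv_mul_cancel₀ hϖK, one_smul]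
        rw [h2]
        exact V.smul_mem _ (V.sub_mem hwV (V.sum_mem fun i _ => V.smul_mem _ (heV i)))
      refine ⟨g, hgV, hgO, hgfix, ?_⟩
      have hφw : φ w = (ϖ : K) * φ g := by
        have h3 : φ (w - ∑ i, (a i : K) • e i) = φ w := by
          rw [map_sub, map_sum]
          have h4 : ∀ i ∈ Finset.univ, φ ((a i : K) • e i) = 0 := fun i _ => by
            rw [map_smul, hφe i, smul_zero]
          rw [Finset.sum_eq_zero h4, sub_zero]
        rw [← h3, hg, map_smul, smul_eq_mul]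
      rw [hw, hφw, pow_succ, mul_assoc]
  have hφ1 : φ (c • v) ≠ 0 := by
    rw [map_smul, smul_eq_mul]
    exact mul_ne_zero hc0 hφv
  have hA : ∀ N : ℕ, ∃ aN : A, c₀⁻¹ * φ (c • v) = (ϖ : K) ^ N * (aN : K) := by
    intro N
    obtain ⟨w, hwV, hwO, -, hw⟩ := key N
    refine ⟨⟨c₀⁻¹ * φ w, hbound w ⟨hwV, hwO⟩⟩, ?_⟩
    rw [hw]
    show c₀⁻¹ * ((ϖ : K) ^ N * φ w) = (ϖ : K) ^ N * (c₀⁻¹ * φ w)
    ring
  obtain ⟨t, ht⟩ := hA 0
  rw [pow_zero, one_mul] at ht
  have ht0 : t ≠ 0 := by
    intro h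
    rw [h] at ht
    exact (mul_ne_zero (inv_ne_zero hc₀) hφ1) ht
  obtain ⟨j, hj⟩ := R.rank_one ϖ hϖm t ht0
  obtain ⟨b, hb⟩ := hA (j + 1)
  have htb : t = ϖ ^ (j + 1) * b := by
    apply Subtype.ext
    rw [← ht, hb]
    rfl
  have hdvd : ϖ ^ (j + 1) ∣ ϖ ^ j := Dvd.dvd.trans ⟨b, htb⟩ hj
  have hunit : IsUnit ϖ := by
    rw [pow_succ] at hdvd
    have h2 : ϖ ^ j * ϖ ∣ ϖ ^ j * 1 := by rwa [mul_one]
    exact isUnit_of_dvd_one ((mul_dvd_mul_iff_left (pow_ne_zero j hϖ0)).1 h2)
  exact (mem_nonunits_iff.1 ((mem_maximalIdeal ϖ).1 hϖm)) hunit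

/-! ### Consequences of a fixed frame -/

section Frame

variable {V : Submodule K F} {ι : Type*} [Fintype ι] {b : ι → F}

/-- a fixed frame is linearly independent over `K`. -/
theorem FixedFrame2.linearIndependent (hb : FixedFrame2 R S V b) : LinearIndependent K b :=
  linearIndependent_of_res_indep R hb.mem_O hb.res_indep

/-- the number of elements of a fixed frame is `dim_K V`. -/
theorem FixedFrame2.card_eq_finrank (hb : FixedFrame2 R S V b) :
    Fintype.card ι = finrank K V := by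
  have h := finrank_span_eq_card hb.linearIndependent
  rw [hb.span_eq] at h
  exact h.symm

/-- a fixed frame is an `A`-basis of `V ∩ O`: existence of integral coordinates. -/
theorem FixedFrame2.exists_coeff (hb : FixedFrame2 R S V b) {v : F} (hvV : v ∈ V) (hvO : v ∈ Sr.O) :
    ∃ c : ι → A, v = ∑ i, (c i : K) • b i := by
  have hv : v ∈ Submodule.span K (Set.range b) := by rw [hb.span_eq]; exact hvV
  obtain ⟨c, hc⟩ := (Submodule.mem_span_range_iff_exists_fun K).1 hv
  have hcA : ∀ i, c i ∈ A :=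
    coeff_mem_of_res_indep R hb.mem_O hb.res_indep c (hc ▸ hvO)
  exact ⟨fun i => ⟨c i, hcA i⟩, hc.symm⟩

/-- a fixed frame is an `A^S`-basis of `(V ∩ O)^S`: a fixed element has fixed integral
coordinates. -/
theorem FixedFrame2.exists_fixed_coeff (hb : FixedFrame2 R S V b) {v : F} (hvV : v ∈ V)
    (hvO : v ∈ Sr.O) (hvfix : IsFixed S v) :
    ∃ c : ι → A, (∀ i, IsFixedK S (c i : K)) ∧ v = ∑ i, (c i : K) • b i := by
  obtain ⟨c, hc⟩ := hb.exists_coeff hvV hvO
  refine ⟨c, fun i s hs => ?_, hc⟩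
  have h1 : s • v = ∑ i, SemilinearAut.baseAut s (c i : K) • b i := by
    rw [hc]
    exact smul_sum_fixed hb.fixed (fun i => (c i : K)) hs
  rw [hvfix s hs] at h1
  have h2 : ∑ i, (SemilinearAut.baseAut s (c i : K) - (c i : K)) • b i = 0 := by
    simp_rw [sub_smul]
    rw [Finset.sum_sub_distrib, ← h1, ← hc, sub_self]
  exact sub_eq_zero.1 ((Fintype.linearIndependent_iff.1 hb.linearIndependent) _ h2 i)

/-- the coordinates are unique. -/
theorem FixedFrame2.coeff_unique (hb : FixedFrame2 R S V b) {c d : ι → K}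
    (h : ∑ i, c i • b i = ∑ i, d i • b i) : c = d := by
  funext i
  have h2 : ∑ i, (c i - d i) • b i = 0 := by
    simp_rw [sub_smul]
    rw [Finset.sum_sub_distrib, h, sub_self]
  exact sub_eq_zero.1 ((Fintype.linearIndependent_iff.1 hb.linearIndependent) _ h2 i)

/-- the reductions of a fixed frame span the reduction of `V ∩ O`. -/
theorem FixedFrame2.exists_res_coeff (hb : FixedFrame2 R S V b) {y : κ} (hy : y ∈ R.redLat V) :
    ∃ cbar : ι → k, y = ∑ i, cbar i • R.res ⟨b i, hb.mem_O i⟩ := by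
  obtain ⟨x, hxO, hxV, rfl⟩ := hy
  obtain ⟨c, hc⟩ := hb.exists_coeff hxV hxO
  refine ⟨fun i => R.π (c i), ?_⟩
  rw [← res_sum_ksmul R Finset.univ c hb.mem_O]
  congr 1
  exact Subtype.ext hc

/-- the reductions of a fixed frame lie in the reduction of `V ∩ O`. -/
theorem FixedFrame2.res_mem_redLat (hb : FixedFrame2 R S V b) (i : ι) :
    R.res ⟨b i, hb.mem_O i⟩ ∈ R.redLat V :=
  ⟨b i, hb.mem_O i, hb.mem_V i, rfl⟩

/-- the reduction of `V ∩ O` is spanned by the reductions of a fixed frame. -/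
theorem FixedFrame2.span_res_eq (hb : FixedFrame2 R S V b) :
    Submodule.span k (Set.range fun i => R.res ⟨b i, hb.mem_O i⟩) = R.redLat V := by
  apply le_antisymm
  · refine Submodule.span_le.2 ?_
    rintro _ ⟨i, rfl⟩
    exact hb.res_mem_redLat i
  · intro y hy
    obtain ⟨cbar, rfl⟩ := hb.exists_res_coeff hy
    exact Submodule.sum_mem _ fun i _ =>
      Submodule.smul_mem _ _ (Submodule.subset_span ⟨i, rfl⟩)

/-- reduction preserves the dimension. -/
theorem FixedFrame2.finrank_redLat (hb : FixedFrame2 R S V b) :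
    finrank k (R.redLat V) = finrank K V := by
  have h := finrank_span_eq_card hb.res_indep
  rw [hb.span_res_eq] at h
  rw [h, hb.card_eq_finrank]

/-- linear combinations of a fixed frame with fixed integral coefficients. -/
theorem FixedFrame2.sum_mem (hb : FixedFrame2 R S V b) (a : ι → A)
    (ha : ∀ i, IsFixedK S (a i : K)) :
    ∑ i, (a i : K) • b i ∈ V ∧ ∑ i, (a i : K) • b i ∈ Sr.O ∧ IsFixed S (∑ i, (a i : K) • b i) :=
  ⟨V.sum_mem fun i _ => V.smul_mem _ (hb.mem_V i), sum_ksmul_mem_O R _ a hb.mem_O,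
    IsFixed.sum _ fun i _ => IsFixed.smul (ha i) (hb.fixed i)⟩

/-- **Lift lemma** (frame form): every element of the reduction of `V ∩ O` has a fixed lift. -/
theorem FixedFrame2.exists_fixed_lift (hD : FixData2 R S) (hb : FixedFrame2 R S V b) {y : κ}
    (hy : y ∈ R.redLat V) :
    ∃ (f : F) (hf : f ∈ Sr.O), f ∈ V ∧ IsFixed S f ∧ R.res ⟨f, hf⟩ = y := by
  obtain ⟨cbar, rfl⟩ := hb.exists_res_coeff hy
  choose a hafix haπ using fun i => hD.exists_fixed_coeff (cbar i)
  obtain ⟨h1, h2, h3⟩ := hb.sum_mem a hafix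
  refine ⟨_, h2, h1, h3, ?_⟩
  rw [res_sum_ksmul R Finset.univ a hb.mem_O]
  exact Finset.sum_congr rfl fun i _ => by rw [haπ i]

/-- a fixed element of `V ∩ O` with zero reduction is `ϖ` times a fixed element of `V ∩ O`
(for any fixed uniformiser `ϖ`). -/
theorem FixData2.exists_eq_unif_smul_mem (hD : FixData2 R S) {ϖ : A} (hϖfix : IsFixedK S (ϖ : K))
    (hϖ0 : ϖ ≠ 0) (hϖ : ∀ c : A, IsFixedK S (c : K) → c ∈ maximalIdeal A → ϖ ∣ c)
    (V : Submodule K F) {f : F} (hfV : f ∈ V) (hfO : f ∈ Sr.O) (hfix : IsFixed S f)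
    (hres : R.res ⟨f, hfO⟩ = 0) :
    ∃ g : F, g ∈ V ∧ g ∈ Sr.O ∧ IsFixed S g ∧ f = (ϖ : K) • g := by
  obtain ⟨g, hgO, hgfix, hg⟩ := hD.exists_eq_unif_smul hϖfix hϖ0 hϖ hfO hfix hres
  have hϖK : (ϖ : K) ≠ 0 := fun h => hϖ0 (Subtype.ext h)
  refine ⟨g, ?_, hgO, hgfix, hg⟩
  have h2 : g = (ϖ : K)⁻¹ • f := by
    rw [hg, smul_smul, inv_mul_cancel₀ hϖK, one_smul]
  rw [h2]
  exact V.smul_mem _ hfV

end Frame

/-! ### Existence of a fixed frame -/

/-- **Main theorem**: if `V` is finite-dimensional, `V ∩ O` is finitely generated over `A`, and `V`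
is spanned over `K` by its fixed elements, then `V` has a fixed orthonormal frame indexed by
`Fin (dim_K V)`. -/
theorem exists_fixedFrame2 (hD : FixData2 R S) (V : Submodule K F) [FiniteDimensional K V]
    (hfg : (R.lat V).FG) (hVfix : V ≤ Submodule.span K {f | f ∈ V ∧ IsFixed S f}) :
    ∃ b : Fin (finrank K V) → F, FixedFrame2 R S V b := by
  classical
  have : FiniteDimensional k (R.redLat V) := finiteDimensional_redLat R V
  have : FiniteDimensional k (fixedRed hD V) :=
    Submodule.finiteDimensional_of_le (fixedRed_le hD V)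
  obtain ⟨n, ⟨bb⟩⟩ : ∃ n : ℕ, Nonempty (Basis (Fin n) k (fixedRed hD V)) :=
    ⟨_, ⟨Module.finBasis k (fixedRed hD V)⟩⟩
  have hlift : ∀ i : Fin n, ∃ (x : F) (hx : x ∈ Sr.O), x ∈ V ∧ IsFixed S x ∧
      R.res ⟨x, hx⟩ = ((bb i : fixedRed hD V) : κ) := fun i => (bb i).2
  choose e heO heV hefix heres using hlift
  have hli : LinearIndependent k fun i => R.res ⟨e i, heO i⟩ := by
    have h1 : LinearIndependent k (fun i => ((bb i : fixedRed hD V) : κ)) :=
      bb.linearIndependent.map' (fixedRed hD V).subtype (Submodule.ker_subtype _)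
    have h2 : (fun i => R.res ⟨e i, heO i⟩) = fun i => ((bb i : fixedRed hD V) : κ) :=
      funext heres
    rw [h2]
    exact h1
  have hspan : ∀ (x : F) (hx : x ∈ Sr.O), x ∈ V → IsFixed S x →
      ∃ cbar : Fin n → k, R.res ⟨x, hx⟩ = ∑ i, cbar i • R.res ⟨e i, heO i⟩ := by
    intro x hx hxV hxfix
    have hmem : R.res ⟨x, hx⟩ ∈ fixedRed hD V := ⟨x, hx, hxV, hxfix, rfl⟩
    refine ⟨fun i => bb.repr ⟨_, hmem⟩ i, ?_⟩
    have h1 : ∑ i, (((bb.repr ⟨_, hmem⟩ i • bb i : fixedRed hD V)) : κ) = R.res ⟨x, hx⟩ := by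
      have h0 := congrArg Subtype.val (bb.sum_repr ⟨_, hmem⟩)
      rw [Submodule.coe_sum] at h0
      exact h0
    refine h1.symm.trans (Finset.sum_congr rfl fun i _ => ?_)
    rw [heres i]
    rfl
  have hVspan : Submodule.span K (Set.range e) = V := by
    apply le_antisymm
    · refine Submodule.span_le.2 ?_
      rintro _ ⟨i, rfl⟩
      exact heV i
    · refine hVfix.trans (Submodule.span_le.2 ?_)
      rintro f ⟨hfV, hffix⟩
      exact hD.fixed_mem_span hfg heV heO hefix hspan hfV hffix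
  have hframe : FixedFrame2 R S V e := ⟨heV, heO, hefix, hli, hVspan⟩
  have hn : n = finrank K V := by
    have := hframe.card_eq_finrank
    rwa [Fintype.card_fin] at this
  subst hn
  exact ⟨e, hframe⟩

/-- **Lift lemma**: under the hypotheses of `exists_fixedFrame2`, every element of the reduction of
`V ∩ O` has a fixed lift in `V ∩ O`. -/
theorem exists_fixed_lift2 (hD : FixData2 R S) (V : Submodule K F) [FiniteDimensional K V]
    (hfg : (R.lat V).FG) (hVfix : V ≤ Submodule.span K {f | f ∈ V ∧ IsFixed S f})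
    {y : κ} (hy : y ∈ R.redLat V) :
    ∃ (f : F) (hf : f ∈ Sr.O), f ∈ V ∧ IsFixed S f ∧ R.res ⟨f, hf⟩ = y := by
  obtain ⟨b, hb⟩ := exists_fixedFrame2 hD V hfg hVfix
  exact hb.exists_fixed_lift hD hy

/-- the hypotheses of `exists_fixedFrame2` for an `S`-stable subspace, when `F` itself is spanned by
its fixed elements. -/
theorem exists_fixedFrame2_of_stable (hD : FixData2 R S)
    (hF : Submodule.span K {f : F | IsFixed S f} = ⊤) (V : Submodule K F)
    [FiniteDimensional K V] (hfg : (R.lat V).FG) (hV : ∀ s ∈ S, ∀ f ∈ V, s • f ∈ V) :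
    ∃ b : Fin (finrank K V) → F, FixedFrame2 R S V b :=
  exists_fixedFrame2 hD V hfg (le_of_eq (span_fixed_of_stable hF V hV).symm)

end Main

end Fermat.Agent.S33x.W.LatticeFixed2

end
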