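import Fermat.Agent.S33x.W.LatticeFixed2
import Fermat.Agent.S33x.Cech.OfDirectSum

/-!
# P-S33, W-STRUCTURE (W3): the Cech decomposition over the fixed subring `Wf` (fixed Nakayama)

Setting: `R : RedSetup2 A Sr k κ`, `Γ` a set of semilinear automorphisms of `F / K` (inertia),
`hD : FixData2 R Γ`.  `Wf := fixedSubring A Γ = {c ∈ A | c fixed by Γ}`, a subring of `K` acting on
`F` through `K` (for us `Wf = O^ur ∩ Qbar`).

* `fixedSubring`, `isUnit_of_valuation_eq_one`, `unif_mem_jacobson` : `Wf`, its units, and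
  `ϖ ∈ rad Wf` for the uniformiser of `FixData2`;
* `fixedPart R Γ V : Submodule Wf F` : the fixed elements of `V ∩ O`; `fixedPart_fg`;
* `fixed_gen_level` : **fixed Nakayama at one level**: if `X ∩ O = U ∩ O + V ∩ O + Σ A aᵢ` over `A`
  (`U, V ≤ X`, the `aᵢ` fixed), then `(X ∩ O)^Γ = (U ∩ O)^Γ + (V ∩ O)^Γ + Σ Wf aᵢ`;
* `fixedSubalgebra Γ B : Subalgebra Wf F` : the fixed elements of an `A`-subalgebra `B` of `F`;
* `LevelSys` + `fixed_gen`, `fixed_uniq` : the decomposition `Bx^Γ = Boo^Γ + B0^Γ + Σ Wf aᵢ` and its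
  uniqueness, for subalgebras exhausted by levels: the five fields of
  `Cech.OfDirectSum.DirectSum (fixedSubalgebra Γ Bx) (fixedSubalgebra Γ Boo) (fixedSubalgebra Γ B0) a`
  (`fixed_directSum_fields`).
-/

set_option autoImplicit false
set_option linter.unusedSectionVars false

noncomputable section

namespace Fermat.Agent.S33x.W.CechFixed

open AlgebraicCurve IsLocalRing Module
open Fermat.Agent.S34x.C0two Fermat.Agent.S33x.W.LatticeFixed2
open Fermat.Agent.S19x.Geo.LatticeFixed (IsFixed IsFixedK smul_smul_semilinear)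

variable {K : Type*} [Field K] {A : ValuationSubring K} {F : Type*} [Field F] [Algebra K F]
  {Sr : SmallRing F} {k κ : Type*} [Field k] [CommRing κ] [Algebra k κ]

/-! ### The fixed subring -/

section Ring

variable (A) (Γ : Set (SemilinearAut K F))

/-- `Wf = {c ∈ A | c fixed by Γ}`, a subring of `K`. -/
def fixedSubring : Subring K where
  carrier := {c | c ∈ A ∧ IsFixedK Γ c}
  zero_mem' := ⟨A.zero_mem, IsFixedK.zero⟩
  one_mem' := ⟨A.one_mem, IsFixedK.one⟩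
  add_mem' := fun ha hb => ⟨A.add_mem _ _ ha.1 hb.1, ha.2.add hb.2⟩
  mul_mem' := fun ha hb => ⟨A.mul_mem _ _ ha.1 hb.1, ha.2.mul hb.2⟩
  neg_mem' := fun {c} ha => ⟨A.neg_mem _ ha.1, fun s hs => by rw [map_neg, ha.2 s hs]⟩

variable {A Γ}

theorem mem_fixedSubring {c : K} : c ∈ fixedSubring A Γ ↔ c ∈ A ∧ IsFixedK Γ c := Iff.rfl

theorem fixedSubring_smul_eq (w : fixedSubring A Γ) (x : F) : w • x = (w : K) • x := rfl

theorem fixedSubring_algebraMap (w : fixedSubring A Γ) :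
    algebraMap (fixedSubring A Γ) F w = algebraMap K F (w : K) := rfl

/-- an element of `Wf` of valuation one is a unit of `Wf`. -/
theorem isUnit_of_valuation_eq_one (w : fixedSubring A Γ) (h : A.valuation (w : K) = 1) :
    IsUnit w := by
  have hw0 : (w : K) ≠ 0 := by
    intro h0
    rw [h0, map_zero] at h
    exact zero_ne_one h
  have hinvA : (w : K)⁻¹ ∈ A := by
    rw [← A.valuation_le_one_iff, map_inv₀, h, inv_one]
  have hinv : (w : K)⁻¹ ∈ fixedSubring A Γ := ⟨hinvA, w.2.2.inv⟩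
  refine IsUnit.of_mul_eq_one (⟨(w : K)⁻¹, hinv⟩ : fixedSubring A Γ) ?_
  apply Subtype.ext
  show (w : K) * (w : K)⁻¹ = 1
  exact mul_inv_cancel₀ hw0

/-- an element of `Wf` lying in the maximal ideal of `A` lies in the Jacobson radical of `Wf`. -/
theorem mem_jacobson_of_valuation_lt_one (w : fixedSubring A Γ) (h : A.valuation (w : K) < 1) :
    w ∈ Ideal.jacobson (⊥ : Ideal (fixedSubring A Γ)) := by
  rw [Ideal.mem_jacobson_bot]
  intro y
  apply isUnit_of_valuation_eq_one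
  have hy : A.valuation ((y : K)) ≤ 1 := (A.valuation_le_one_iff _).2 y.2.1
  have h1 : A.valuation ((w : K) * (y : K)) < 1 := by
    rw [map_mul]
    calc A.valuation (w : K) * A.valuation (y : K) ≤ A.valuation (w : K) * 1 := by
          gcongr
      _ = A.valuation (w : K) := mul_one _
      _ < 1 := h
  show A.valuation ((w : K) * (y : K) + 1) = 1
  rw [add_comm]
  have h2 := Valuation.map_add_eq_of_lt_left A.valuation
    (show A.valuation ((w : K) * (y : K)) < A.valuation (1 : K) by rw [map_one]; exact h1)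
  rw [h2, map_one]

end Ring

/-! ### Fixed parts of lattices -/

section Lattice

variable (R : RedSetup2 A Sr k κ) (Γ : Set (SemilinearAut K F))

/-- the fixed elements of `V ∩ O`, a `Wf`-module. -/
def fixedPart (V : Submodule K F) : Submodule (fixedSubring A Γ) F where
  carrier := {x | x ∈ V ∧ x ∈ Sr.O ∧ IsFixed Γ x}
  zero_mem' := ⟨V.zero_mem, Sr.O.zero_mem, IsFixed.zero⟩
  add_mem' := fun hx hy => ⟨V.add_mem hx.1 hy.1, Sr.O.add_mem hx.2.1 hy.2.1, hx.2.2.add hy.2.2⟩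
  smul_mem' := fun w _ hx => ⟨V.smul_mem (w : K) hx.1,
    ksmul_mem_O R (⟨(w : K), w.2.1⟩ : A) hx.2.1, IsFixed.smul w.2.2 hx.2.2⟩

variable {R Γ}

theorem mem_fixedPart {V : Submodule K F} {x : F} :
    x ∈ fixedPart R Γ V ↔ x ∈ V ∧ x ∈ Sr.O ∧ IsFixed Γ x := Iff.rfl

theorem fixedPart_mono {V V' : Submodule K F} (h : V ≤ V') : fixedPart R Γ V ≤ fixedPart R Γ V' :=
  fun _ hx => ⟨h hx.1, hx.2.1, hx.2.2⟩

/-- the fixed part of `V ∩ O` is spanned over `Wf` by a fixed frame. -/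
theorem fixedPart_eq_span {V : Submodule K F} {ι : Type*} [Fintype ι] {b : ι → F}
    (hb : FixedFrame2 R Γ V b) :
    fixedPart R Γ V = Submodule.span (fixedSubring A Γ) (Set.range b) := by
  apply le_antisymm
  · intro x hx
    obtain ⟨c, hcfix, hc⟩ := hb.exists_fixed_coeff hx.1 hx.2.1 hx.2.2
    rw [hc]
    refine Submodule.sum_mem _ fun i _ => ?_
    have h1 : ((c i : A) : K) • b i
        = (⟨((c i : A) : K), (c i).2, hcfix i⟩ : fixedSubring A Γ) • b i := rfl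
    rw [h1]
    exact Submodule.smul_mem _ _ (Submodule.subset_span ⟨i, rfl⟩)
  · refine Submodule.span_le.2 ?_
    rintro _ ⟨i, rfl⟩
    exact ⟨hb.mem_V i, hb.mem_O i, hb.fixed i⟩

theorem fixedPart_fg {V : Submodule K F} {ι : Type*} [Fintype ι] {b : ι → F}
    (hb : FixedFrame2 R Γ V b) : (fixedPart R Γ V).FG := by
  rw [fixedPart_eq_span hb]
  exact Submodule.fg_span (Set.finite_range b)

/-- the `O`-element attached to a difference. -/
theorem res_sub' {x y : F} (hx : x ∈ Sr.O) (hy : y ∈ Sr.O) :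
    R.res ⟨x - y, Sr.O.sub_mem hx hy⟩ = R.res ⟨x, hx⟩ - R.res ⟨y, hy⟩ := by
  have : (⟨x - y, Sr.O.sub_mem hx hy⟩ : Sr.O) = ⟨x, hx⟩ - ⟨y, hy⟩ := rfl
  rw [this, map_sub]

theorem res_add' {x y : F} (hx : x ∈ Sr.O) (hy : y ∈ Sr.O) :
    R.res ⟨x + y, Sr.O.add_mem hx hy⟩ = R.res ⟨x, hx⟩ + R.res ⟨y, hy⟩ := by
  have : (⟨x + y, Sr.O.add_mem hx hy⟩ : Sr.O) = ⟨x, hx⟩ + ⟨y, hy⟩ := rfl
  rw [this, map_add]

theorem res_congr {x y : F} (h : x = y) (hx : x ∈ Sr.O) (hy : y ∈ Sr.O) :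
    R.res ⟨x, hx⟩ = R.res ⟨y, hy⟩ := by
  subst h; rfl

/-- **Fixed Nakayama at one level.**  If `X ∩ O = U ∩ O + V ∩ O + Σ A aᵢ` (with `U, V ≤ X` and fixed
`aᵢ ∈ X ∩ O`), then every FIXED element of `X ∩ O` is the sum of a fixed element of `U ∩ O`, a fixed
element of `V ∩ O` and a `Wf`-combination of the `aᵢ`. -/
theorem fixed_gen_level (hD : FixData2 R Γ)
    (hF : Submodule.span K {f : F | IsFixed Γ f} = ⊤)
    {X U V : Submodule K F} [FiniteDimensional K X] [FiniteDimensional K U]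
    [FiniteDimensional K V]
    (hXfg : (R.lat X).FG) (hUfg : (R.lat U).FG) (hVfg : (R.lat V).FG)
    (hXst : ∀ s ∈ Γ, ∀ f ∈ X, s • f ∈ X) (hUst : ∀ s ∈ Γ, ∀ f ∈ U, s • f ∈ U)
    (hVst : ∀ s ∈ Γ, ∀ f ∈ V, s • f ∈ V)
    (hUX : U ≤ X) (hVX : V ≤ X)
    {g : ℕ} {a : Fin g → F} (haX : ∀ i, a i ∈ X) (haO : ∀ i, a i ∈ Sr.O)
    (hafix : ∀ i, IsFixed Γ (a i))
    (hgen : ∀ x ∈ X, x ∈ Sr.O → ∃ f ∈ U, f ∈ Sr.O ∧ ∃ h ∈ V, h ∈ Sr.O ∧ ∃ s : Fin g → A,
      x = f + h + ∑ i, (s i : K) • a i)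
    {x : F} (hxX : x ∈ X) (hxO : x ∈ Sr.O) (hxfix : IsFixed Γ x) :
    ∃ f ∈ U, f ∈ Sr.O ∧ IsFixed Γ f ∧ ∃ h ∈ V, h ∈ Sr.O ∧ IsFixed Γ h ∧
      ∃ s : Fin g → fixedSubring A Γ, x = f + h + ∑ i, s i • a i := by
  classical
  obtain ⟨bX, hbX⟩ := exists_fixedFrame2_of_stable hD hF X hXfg hXst
  obtain ⟨bU, hbU⟩ := exists_fixedFrame2_of_stable hD hF U hUfg hUst
  obtain ⟨bV, hbV⟩ := exists_fixedFrame2_of_stable hD hF V hVfg hVst
  obtain ⟨ϖ, hϖm, hϖ0, hϖfix, hϖdvd⟩ := hD.unif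
  -- the uniformiser as an element of `Wf`
  set ϖW : fixedSubring A Γ := ⟨(ϖ : K), ϖ.2, hϖfix⟩ with hϖW
  have hϖlt : A.valuation ((ϖW : fixedSubring A Γ) : K) < 1 :=
    (A.valuation_lt_one_iff ϖ).1 hϖm
  set I : Ideal (fixedSubring A Γ) := Ideal.span {ϖW} with hI
  have hIjac : I ≤ Ideal.jacobson (⊥ : Ideal (fixedSubring A Γ)) := by
    rw [hI, Ideal.span_le, Set.singleton_subset_iff]
    exact mem_jacobson_of_valuation_lt_one ϖW hϖlt
  -- the three modules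
  set M : Submodule (fixedSubring A Γ) F := fixedPart R Γ X with hM
  set N : Submodule (fixedSubring A Γ) F :=
    fixedPart R Γ U ⊔ fixedPart R Γ V ⊔ Submodule.span (fixedSubring A Γ) (Set.range a) with hN
  have hMfg : M.FG := fixedPart_fg hbX
  have hstep : M ≤ N ⊔ I • M := by
    intro y hy
    obtain ⟨hyX, hyO, hyfix⟩ := hy
    obtain ⟨f, hfU, hfO, h, hhV, hhO, s, hys⟩ := hgen y hyX hyO
    -- fixed lifts
    obtain ⟨f₁, hf₁O, hf₁U, hf₁fix, hf₁res⟩ :=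
      hbU.exists_fixed_lift hD (y := R.res ⟨f, hfO⟩) ⟨f, hfO, hfU, rfl⟩
    obtain ⟨h₁, hh₁O, hh₁V, hh₁fix, hh₁res⟩ :=
      hbV.exists_fixed_lift hD (y := R.res ⟨h, hhO⟩) ⟨h, hhO, hhV, rfl⟩
    choose w hwfix hwπ using fun i => hD.exists_fixed_coeff (R.π (s i))
    -- the sums
    have hsO : ∑ i, ((s i : A) : K) • a i ∈ Sr.O := sum_ksmul_mem_O R _ s haO
    have hwO : ∑ i, ((w i : A) : K) • a i ∈ Sr.O := sum_ksmul_mem_O R _ w haO
    have hsw : R.res ⟨∑ i, ((s i : A) : K) • a i, hsO⟩ = R.res ⟨∑ i, ((w i : A) : K) • a i, hwO⟩ := by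
      rw [res_sum_ksmul R Finset.univ s haO, res_sum_ksmul R Finset.univ w haO]
      exact Finset.sum_congr rfl fun i _ => by rw [hwπ i]
    -- the approximation
    set n₁ : F := f₁ + h₁ + ∑ i, ((w i : A) : K) • a i with hn₁
    have hn₁O : n₁ ∈ Sr.O := Sr.O.add_mem (Sr.O.add_mem hf₁O hh₁O) hwO
    have hfhO : f + h ∈ Sr.O := Sr.O.add_mem hfO hhO
    have hysO : f + h + ∑ i, ((s i : A) : K) • a i ∈ Sr.O := Sr.O.add_mem hfhO hsO
    have hres_y : R.res ⟨y, hyO⟩ = R.res ⟨n₁, hn₁O⟩ := by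
      rw [res_congr hys hyO hysO, res_add' hfhO hsO, res_add' hfO hhO,
        res_congr hn₁ hn₁O (Sr.O.add_mem (Sr.O.add_mem hf₁O hh₁O) hwO),
        res_add' (Sr.O.add_mem hf₁O hh₁O) hwO, res_add' hf₁O hh₁O, hf₁res, hh₁res, hsw]
    have hzO : y - n₁ ∈ Sr.O := Sr.O.sub_mem hyO hn₁O
    have hzres : R.res ⟨y - n₁, hzO⟩ = 0 := by
      rw [res_sub' hyO hn₁O, hres_y, sub_self]
    have hn₁X : n₁ ∈ X :=
      X.add_mem (X.add_mem (hUX hf₁U) (hVX hh₁V)) (X.sum_mem fun i _ => X.smul_mem _ (haX i))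
    have hn₁fix : IsFixed Γ n₁ :=
      (hf₁fix.add hh₁fix).add (IsFixed.sum _ fun i _ => IsFixed.smul (hwfix i) (hafix i))
    have hzX : y - n₁ ∈ X := X.sub_mem hyX hn₁X
    have hzfix : IsFixed Γ (y - n₁) := hyfix.sub hn₁fix
    obtain ⟨z₁, hz₁X, hz₁O, hz₁fix, hz⟩ :=
      hD.exists_eq_unif_smul_mem hϖfix hϖ0 hϖdvd X hzX hzO hzfix hzres
    -- conclusion
    have hy' : y = n₁ + ϖW • z₁ := by
      have : ϖW • z₁ = (ϖ : K) • z₁ := rfl
      rw [this, ← hz]; ring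
    rw [hy']
    refine Submodule.add_mem _ (Submodule.mem_sup_left ?_) (Submodule.mem_sup_right ?_)
    · refine Submodule.add_mem _ (Submodule.mem_sup_left ?_) (Submodule.mem_sup_right ?_)
      · exact Submodule.add_mem _ (Submodule.mem_sup_left ⟨hf₁U, hf₁O, hf₁fix⟩)
          (Submodule.mem_sup_right ⟨hh₁V, hh₁O, hh₁fix⟩)
      · refine Submodule.sum_mem _ fun i _ => ?_
        have h1 : ((w i : A) : K) • a i
            = (⟨((w i : A) : K), (w i).2, hwfix i⟩ : fixedSubring A Γ) • a i := rfl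
        rw [h1]
        exact Submodule.smul_mem _ _ (Submodule.subset_span ⟨i, rfl⟩)
    · exact Submodule.smul_mem_smul (Ideal.mem_span_singleton_self ϖW) ⟨hz₁X, hz₁O, hz₁fix⟩
  have hMN : M ≤ N := Submodule.le_of_le_smul_of_le_jacobson_bot hMfg hIjac hstep
  have hxN : x ∈ N := hMN ⟨hxX, hxO, hxfix⟩
  obtain ⟨y₁, hy₁, z, hz, hxyz⟩ := Submodule.mem_sup.1 hxN
  obtain ⟨f, hf, h, hh, hfh⟩ := Submodule.mem_sup.1 hy₁
  obtain ⟨s, hs⟩ := (Submodule.mem_span_range_iff_exists_fun (fixedSubring A Γ)).1 hz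
  refine ⟨f, hf.1, hf.2.1, hf.2.2, h, hh.1, hh.2.1, hh.2.2, s, ?_⟩
  rw [hs, hfh, hxyz]

end Lattice

/-! ### Fixed subalgebras and the decomposition over `Wf` -/

section Algebra

variable (Γ : Set (SemilinearAut K F))

/-- the `Γ`-fixed elements of an `A`-subalgebra `B` of `F`, as a `Wf`-subalgebra. -/
def fixedSubalgebra (B : Subalgebra A F) : Subalgebra (fixedSubring A Γ) F where
  carrier := {x | x ∈ B ∧ IsFixed Γ x}
  mul_mem' := fun hx hy =>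
    ⟨B.mul_mem hx.1 hy.1, fun s hs => by rw [smul_mul', hx.2 s hs, hy.2 s hs]⟩
  add_mem' := fun hx hy => ⟨B.add_mem hx.1 hy.1, hx.2.add hy.2⟩
  algebraMap_mem' := fun w => ⟨B.algebraMap_mem (⟨(w : K), w.2.1⟩ : A), fun s hs => by
    show s • algebraMap K F (w : K) = algebraMap K F (w : K)
    rw [SemilinearAut.smul_algebraMap, w.2.2 s hs]⟩

variable {Γ}

theorem mem_fixedSubalgebra {B : Subalgebra A F} {x : F} :
    x ∈ fixedSubalgebra Γ B ↔ x ∈ B ∧ IsFixed Γ x := Iff.rfl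

theorem fixedSubalgebra_mono {B B' : Subalgebra A F} (h : B ≤ B') :
    fixedSubalgebra Γ B ≤ fixedSubalgebra Γ B' := fun _ hx => ⟨h hx.1, hx.2⟩

end Algebra

section Levels

variable (R : RedSetup2 A Sr k κ) (Γ : Set (SemilinearAut K F))

/-- **A level system**: the subalgebras `Bx`, `Boo`, `B0` are exhausted by the lattices of three
increasing families of `Γ`-stable finite-dimensional `K`-subspaces (`X n = L(n C_0 + n C_∞)`,
`U n = L(n C_∞)`, `V n = L(n C_0)`) with finitely generated lattices, the `aᵢ` are FIXED elements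
of `X n₁ ∩ O`, and for `n ≥ n₁`: `X n ∩ O = U n ∩ O + V n ∩ O + Σ A aᵢ`, with uniqueness of the
coordinates. -/
structure LevelSys (Bx Boo B0 : Subalgebra A F) (X U V : ℕ → Submodule K F) {g : ℕ}
    (a : Fin g → F) (n₁ : ℕ) : Prop where
  fin_X : ∀ n, FiniteDimensional K (X n)
  fin_U : ∀ n, FiniteDimensional K (U n)
  fin_V : ∀ n, FiniteDimensional K (V n)
  fg_X : ∀ n, (R.lat (X n)).FG
  fg_U : ∀ n, (R.lat (U n)).FG
  fg_V : ∀ n, (R.lat (V n)).FG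
  st_X : ∀ n, ∀ s ∈ Γ, ∀ f ∈ X n, s • f ∈ X n
  st_U : ∀ n, ∀ s ∈ Γ, ∀ f ∈ U n, s • f ∈ U n
  st_V : ∀ n, ∀ s ∈ Γ, ∀ f ∈ V n, s • f ∈ V n
  U_le : ∀ n, U n ≤ X n
  V_le : ∀ n, V n ≤ X n
  mono_X : Monotone X
  mem_Bx : ∀ x, x ∈ Bx → ∃ n, x ∈ X n ∧ x ∈ Sr.O
  mem_Boo : ∀ n x, x ∈ U n → x ∈ Sr.O → x ∈ Boo
  mem_B0 : ∀ n x, x ∈ V n → x ∈ Sr.O → x ∈ B0
  oo_le : Boo ≤ Bx
  zero_le : B0 ≤ Bx
  a_mem_Bx : ∀ i, a i ∈ Bx
  a_mem_X : ∀ i, a i ∈ X n₁
  a_mem_O : ∀ i, a i ∈ Sr.O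
  a_fixed : ∀ i, IsFixed Γ (a i)
  gen : ∀ n, n₁ ≤ n → ∀ x ∈ X n, x ∈ Sr.O → ∃ f ∈ U n, f ∈ Sr.O ∧ ∃ h ∈ V n, h ∈ Sr.O ∧
    ∃ s : Fin g → A, x = f + h + ∑ i, (s i : K) • a i
  uniq : ∀ f ∈ Boo, ∀ h ∈ B0, ∀ s : Fin g → A, f + h + ∑ i, s i • a i = 0 →
    s = 0 ∧ ∃ α : A, f = algebraMap A F α

variable {R Γ}
variable {Bx Boo B0 : Subalgebra A F} {X U V : ℕ → Submodule K F} {g : ℕ} {a : Fin g → F}
  {n₁ : ℕ}

/-- **generation over `Wf`**: `Bx^Γ = Boo^Γ + B0^Γ + Σ Wf aᵢ`. -/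
theorem LevelSys.fixed_gen (L : LevelSys R Γ Bx Boo B0 X U V a n₁) (hD : FixData2 R Γ)
    (hF : Submodule.span K {f : F | IsFixed Γ f} = ⊤) {x : F}
    (hx : x ∈ fixedSubalgebra Γ Bx) :
    ∃ f ∈ fixedSubalgebra Γ Boo, ∃ h ∈ fixedSubalgebra Γ B0,
      ∃ s : Fin g → fixedSubring A Γ, x = f + h + ∑ i, s i • a i := by
  obtain ⟨n, hxX, hxO⟩ := L.mem_Bx x hx.1
  set m := max n n₁ with hm
  have hxXm : x ∈ X m := L.mono_X (le_max_left n n₁) hxX
  have := L.fin_X m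
  have := L.fin_U m
  have := L.fin_V m
  obtain ⟨f, hfU, hfO, hffix, h, hhV, hhO, hhfix, s, hs⟩ :=
    fixed_gen_level hD hF (L.fg_X m) (L.fg_U m) (L.fg_V m) (L.st_X m) (L.st_U m) (L.st_V m)
      (L.U_le m) (L.V_le m) (fun i => L.mono_X (le_max_right n n₁) (L.a_mem_X i)) L.a_mem_O
      L.a_fixed (L.gen m (le_max_right n n₁)) hxXm hxO hx.2
  exact ⟨f, ⟨L.mem_Boo m f hfU hfO, hffix⟩, h, ⟨L.mem_B0 m h hhV hhO, hhfix⟩, s, hs⟩

/-- **uniqueness over `Wf`**. -/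
theorem LevelSys.fixed_uniq (L : LevelSys R Γ Bx Boo B0 X U V a n₁) {f : F}
    (hf : f ∈ fixedSubalgebra Γ Boo) {h : F} (hh : h ∈ fixedSubalgebra Γ B0)
    (s : Fin g → fixedSubring A Γ) (hsum : f + h + ∑ i, s i • a i = 0) :
    s = 0 ∧ ∃ α : fixedSubring A Γ, f = algebraMap (fixedSubring A Γ) F α := by
  obtain ⟨hs0, α, hα⟩ := L.uniq f hf.1 h hh.1 (fun i => (⟨((s i : fixedSubring A Γ) : K), (s i).2.1⟩ : A))
    hsum
  refine ⟨?_, ?_⟩
  · funext i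
    apply Subtype.ext
    have := congrArg (fun t : A => (t : K)) (congrFun hs0 i)
    exact this
  · have hαfix : IsFixedK Γ (α : K) := by
      intro t ht
      have h1 := hf.2 t ht
      rw [hα] at h1
      have h2 : t • algebraMap K F (α : K) = algebraMap K F (α : K) := h1
      rw [SemilinearAut.smul_algebraMap] at h2
      exact (algebraMap K F).injective h2
    exact ⟨⟨(α : K), α.2, hαfix⟩, hα⟩

/-- **FINAL EXPORT OF BLOCK W**: the direct-sum decomposition over `Wf` with the SAME `aᵢ`. -/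
theorem LevelSys.fixed_directSum (L : LevelSys R Γ Bx Boo B0 X U V a n₁) (hD : FixData2 R Γ)
    (hF : Submodule.span K {f : F | IsFixed Γ f} = ⊤) :
    Fermat.Agent.S33x.Cech.OfDirectSum.DirectSum (fixedSubalgebra Γ Bx) (fixedSubalgebra Γ Boo)
      (fixedSubalgebra Γ B0) a where
  oo_le := fixedSubalgebra_mono L.oo_le
  zero_le := fixedSubalgebra_mono L.zero_le
  a_mem := fun i => ⟨L.a_mem_Bx i, L.a_fixed i⟩
  gen := fun _ hx => L.fixed_gen hD hF hx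
  uniq := fun _ hf _ hh s hsum => L.fixed_uniq hf hh s hsum

/-- the `A`-level direct sum decomposition contained in a level system. -/
theorem LevelSys.directSum (L : LevelSys R Γ Bx Boo B0 X U V a n₁) :
    Fermat.Agent.S33x.Cech.OfDirectSum.DirectSum Bx Boo B0 a where
  oo_le := L.oo_le
  zero_le := L.zero_le
  a_mem := L.a_mem_Bx
  gen := by
    intro x hx
    obtain ⟨n, hxX, hxO⟩ := L.mem_Bx x hx
    obtain ⟨f, hfU, hfO, h, hhV, hhO, s, hs⟩ :=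
      L.gen (max n n₁) (le_max_right n n₁) x (L.mono_X (le_max_left n n₁) hxX) hxO
    exact ⟨f, L.mem_Boo _ f hfU hfO, h, L.mem_B0 _ h hhV hhO, s, hs⟩
  uniq := L.uniq

end Levels

end Fermat.Agent.S33x.W.CechFixed

end
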