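import Fermat.Agent.S33x.H1.CechFixedB
import Fermat.Agent.S33x.H1.InstC4
import Fermat.Agent.S33x.H1.InstBBasic
import Fermat.Agent.S33x.Cech.WAdapter
import Fermat.Agent.S33x.W.CechFixed
import Fermat.Agent.S56x.Flat.InertiaField

/-!
# P-S33, block W, glue (helper5): the W-export at the chart level and over `inertiaInt P`

Glue between block H1 (the `A`-level decomposition `DirectSum Bx Boo B0 a` with FIXED `aᵢ`, leaf
(B1)), block W (`H1/CechFixedB.directSum_fixed`, helper17) and LAYER 2 (`Cech/WAdapter`, helper91;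
consumer `Cech/CoordBQbar.hasApproxCharts`, helper3).

* `fixedAlg Γ B` : the `Γ`-fixed elements of an `A`-subalgebra `B ≤ F`, as a subalgebra over
  `W = FixedDecomp.fixedSubring Γ`; `fixedFamily` : the `FixedFamily` of `CechFixedB`;
* `familyC`, `familyB` : the `Family` of `CechFixedB` for `L a b = C.LN a b` and the chart rings of
  `H1/InstC4` (helper50), resp. of `H1/InstBBasic` (helper26);
* `directSum_fixed_of_family` : `directSum_fixed` with the `fixedAlg`s plugged in;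
  `directSum_fixedC`, `directSum_fixedB` : the same for the two families of chart rings;
* `exists_groupLaw_fixed'` : the universal group law over `W` (`WAdapter.exists_groupLaw_fixed`);
* `directSum_fixedSubalgebra` : converter to the vocabulary of `W/CechFixed` (`Wf` as a subring
  of `K`), the input of `Cech/GroupLawQbar` (helper91);
* for `K = Qbar`, `A = P`: `toInertiaInt : W →+* inertiaInt P` and
  `exists_groupLaw_inertiaInt` : the group law with coefficients in `inertiaInt P`, in the literal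
  shape of the hypothesis `hGL` of `Cech/CoordBQbar.hasApproxCharts`;
  `exists_groupLaw_inertiaIntC`, `exists_groupLaw_inertiaIntB` : the literal (B1) gives `hGL`.
-/

set_option autoImplicit false
set_option linter.unusedSectionVars false
set_option linter.style.haveILetI false

noncomputable section

namespace Fermat.Agent.S33x.W.InstW

open AlgebraicCurve IsLocalRing Module
open Fermat.Agent.S34x Fermat.Agent.S34x.C0two Fermat.Agent.S34x.Lattice2
open Fermat.Agent.S19x.Geo.LatticeFixed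
open Fermat.Agent.S33x.H1.LatticeFixed2 Fermat.Agent.S33x.H1.FixedDecomp
open Fermat.Agent.S33x.H1.CechFixedB
open Fermat.Agent.S33x.Cech Fermat.Agent.S33x.Cech.OfDirectSum

/-! ### The fixed subalgebras -/

section Abstract

variable {K : Type*} [Field K] {A : ValuationSubring K} {F : Type*} [Field F] [Algebra K F]
  {S : SmallRing F} {k κ : Type*} [Field k] [CommRing κ] [Algebra k κ]

variable (Γ : Set (SemilinearAut K F))

/-- the `Γ`-fixed elements of an `A`-subalgebra `B` of `F`, as a subalgebra over `W = A^Γ`. -/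
def fixedAlg (B : Subalgebra A F) : Subalgebra (fixedSubring (A := A) Γ) F where
  carrier := {x | x ∈ B ∧ IsFixed Γ x}
  mul_mem' := fun hx hy =>
    ⟨B.mul_mem hx.1 hy.1, fun s hs => by rw [smul_mul', hx.2 s hs, hy.2 s hs]⟩
  add_mem' := fun hx hy => ⟨B.add_mem hx.1 hy.1, hx.2.add hy.2⟩
  algebraMap_mem' := fun w => ⟨B.algebraMap_mem (w : A), fun s hs => by
    show s • algebraMap K F (((w : A) : K)) = algebraMap K F (((w : A) : K))
    rw [SemilinearAut.smul_algebraMap, w.2 s hs]⟩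

variable {Γ}

theorem mem_fixedAlg {B : Subalgebra A F} {x : F} :
    x ∈ fixedAlg Γ B ↔ x ∈ B ∧ IsFixed Γ x := Iff.rfl

theorem fixedAlg_le {B : Subalgebra A F} : ∀ x ∈ fixedAlg Γ B, x ∈ B := fun _ hx => hx.1

variable (Γ) in
/-- the `FixedFamily` of `CechFixedB` for the fixed subalgebras. -/
theorem fixedFamily (Bx Boo B0 : Subalgebra A F) :
    FixedFamily (Γ := Γ) Bx Boo B0 (fixedAlg Γ Bx) (fixedAlg Γ Boo) (fixedAlg Γ B0) :=
  ⟨fun _ => Iff.rfl, fun _ => Iff.rfl, fun _ => Iff.rfl⟩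

variable {R : RedSetup2 A S k κ} {L : ℕ → ℕ → Submodule K F} {Bx Boo B0 : Subalgebra A F}
  {g : ℕ} {a : Fin g → F}

/-- **The Cech decomposition over `W`** for the fixed subalgebras. -/
theorem directSum_fixed_of_family (hD : FixData2 R Γ)
    (hF : Submodule.span K {f : F | IsFixed Γ f} = ⊤)
    (hL : Family (S := S) L Bx Boo B0) [∀ p q, FiniteDimensional K (L p q)]
    (hcart : ∀ p q, (R.lat (L p q)).FG)
    (hstab : ∀ p q, ∀ s ∈ Γ, ∀ f ∈ L p q, s • f ∈ L p q)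
    (hafix : ∀ i, IsFixed Γ (a i)) {b₁ : ℕ} (ha : ∀ i, a i ∈ L b₁ b₁)
    (H : DirectSum Bx Boo B0 a) :
    DirectSum (fixedAlg Γ Bx) (fixedAlg Γ Boo) (fixedAlg Γ B0) a :=
  directSum_fixed hD hF hL hcart hstab (fixedFamily Γ Bx Boo B0) hafix ha H

/-- **The universal Cech group law with coefficients in `W = A^Γ`.** -/
theorem exists_groupLaw_fixed' (H : DirectSum Bx Boo B0 a)
    (HW : DirectSum (fixedAlg Γ Bx) (fixedAlg Γ Boo) (fixedAlg Γ B0) a) (n : ℕ) :
    ∃ Φ : Fin g → MvPolynomial (Fin g ⊕ Fin g) (fixedSubring (A := A) Γ),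
      (∀ j, MvPolynomial.constantCoeff (Φ j) = 0) ∧
      ∀ (π : A) (t t' : Fin g → A), (∀ i, π ∣ t i) → (∀ i, π ∣ t' i) →
        (∀ j, π ∣ MvPolynomial.aeval (Sum.elim t t') (Φ j)) ∧
        ∃ (voo : ooIn Bx Boo) (v0 : zeroIn Bx B0),
          algebraMap A (ooIn Bx Boo) π ∣ voo - 1 ∧ algebraMap A (zeroIn Bx B0) π ∣ v0 - 1 ∧
          algebraMap A Bx π ^ (n + 1) ∣
            (1 + comb (aIn H) t) * (1 + comb (aIn H) t') * voo * v0
              - (1 + comb (aIn H) (fun j => MvPolynomial.aeval (Sum.elim t t') (Φ j))) := by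
  obtain ⟨Φ, -, h0, hΦ⟩ := WAdapter.exists_groupLaw_fixed H HW fixedAlg_le fixedAlg_le fixedAlg_le n
  exact ⟨Φ, h0, hΦ⟩

/-- **Converter to the vocabulary of `W/CechFixed`** (`Wf = fixedSubring A Γ` as a subring of `K`,
`fixedSubalgebra Γ B`): the same decomposition, the same `aᵢ`. -/
theorem directSum_fixedSubalgebra
    (HW : DirectSum (fixedAlg Γ Bx) (fixedAlg Γ Boo) (fixedAlg Γ B0) a) :
    DirectSum (W.CechFixed.fixedSubalgebra Γ Bx) (W.CechFixed.fixedSubalgebra Γ Boo)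
      (W.CechFixed.fixedSubalgebra Γ B0) a where
  oo_le := fun _ hx => HW.oo_le hx
  zero_le := fun _ hx => HW.zero_le hx
  a_mem := HW.a_mem
  gen := fun x hx => by
    obtain ⟨f, hf, h, hh, s, hs⟩ := HW.gen x hx
    exact ⟨f, hf, h, hh, fun i => ⟨(((s i : fixedSubring (A := A) Γ) : A) : K),
      ((s i : fixedSubring (A := A) Γ) : A).2, (s i).2⟩, hs⟩
  uniq := fun f hf h hh s hrel => by
    obtain ⟨hs0, α, hα⟩ := HW.uniq f hf h hh
      (fun i => (⟨⟨((s i : W.CechFixed.fixedSubring A Γ) : K), (s i).2.1⟩, (s i).2.2⟩ :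
        fixedSubring (A := A) Γ)) hrel
    refine ⟨funext fun i => Subtype.ext ?_, ⟨(((α : A) : K)), (α : A).2, α.2⟩, hα⟩
    have h1 := congrArg (fun w : fixedSubring (A := A) Γ => (((w : A)) : K)) (congrFun hs0 i)
    exact h1

/-- **Converter back** from the vocabulary of `W/CechFixed`. -/
theorem directSum_fixedAlg
    (HW : DirectSum (W.CechFixed.fixedSubalgebra Γ Bx) (W.CechFixed.fixedSubalgebra Γ Boo)
      (W.CechFixed.fixedSubalgebra Γ B0) a) :
    DirectSum (fixedAlg Γ Bx) (fixedAlg Γ Boo) (fixedAlg Γ B0) a where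
  oo_le := fun _ hx => HW.oo_le hx
  zero_le := fun _ hx => HW.zero_le hx
  a_mem := HW.a_mem
  gen := fun x hx => by
    obtain ⟨f, hf, h, hh, s, hs⟩ := HW.gen x hx
    exact ⟨f, hf, h, hh, fun i => (⟨⟨((s i : W.CechFixed.fixedSubring A Γ) : K), (s i).2.1⟩,
      (s i).2.2⟩ : fixedSubring (A := A) Γ), hs⟩
  uniq := fun f hf h hh s hrel => by
    obtain ⟨hs0, α, hα⟩ := HW.uniq f hf h hh
      (fun i => ⟨(((s i : fixedSubring (A := A) Γ) : A) : K),
        ((s i : fixedSubring (A := A) Γ) : A).2, (s i).2⟩) hrel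
    refine ⟨funext fun i => Subtype.ext (Subtype.ext ?_),
      (⟨⟨((α : W.CechFixed.fixedSubring A Γ) : K), α.2.1⟩, α.2.2⟩ : fixedSubring (A := A) Γ), hα⟩
    have h1 := congrArg (fun w : W.CechFixed.fixedSubring A Γ => (w : K)) (congrFun hs0 i)
    exact h1

end Abstract

/-! ### The two families of chart rings -/

section Charts

variable {K : Type*} [Field K] {A : ValuationSubring K} {F : Type*} [Field F] [Algebra K F]
  {S : SmallRing F} {k κ : Type*} [Field k] [CommRing κ] [Algebra k κ]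
  {R : RedSetup2 A S k κ} (C : ChartCoord R) {Γ : Set (SemilinearAut K F)}
  {g : ℕ} {a : Fin g → F}

/-- the `Family` of `CechFixedB` for the chart rings of `H1/InstC4`. -/
theorem familyC : Family (S := S) (fun p q => C.LN p q)
    (H1.InstC4.BxAlg C) (H1.InstC4.BooAlg C) (H1.InstC4.BzeroAlg C) where
  mono := fun hp hq => C.LN_mono hp hq
  inf_le := fun _ _ _ _ _ hx => twoPole_inf _ _ hx.1 hx.2
  mem_Bx := fun x => by
    rw [H1.InstC4.mem_BxAlg']
    exact ⟨fun ⟨p, q, h⟩ => ⟨p, q, h.1, h.2⟩, fun ⟨p, q, h1, h2⟩ => ⟨p, q, h1, h2⟩⟩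
  mem_Boo := fun x => by
    rw [H1.InstC4.mem_BooAlg]
    exact ⟨fun ⟨q, h⟩ => ⟨q, h.1, h.2⟩, fun ⟨q, h1, h2⟩ => ⟨q, h1, h2⟩⟩
  mem_B0 := fun x => by
    rw [H1.InstC4.mem_BzeroAlg]
    exact ⟨fun ⟨p, h⟩ => ⟨p, h.1, h.2⟩, fun ⟨p, h1, h2⟩ => ⟨p, h1, h2⟩⟩

/-- the `Family` of `CechFixedB` for the chart rings of `H1/InstBBasic`. -/
theorem familyB : Family (S := S) (fun p q => C.LN p q)
    (H1.InstBBasic.BxAlg C) (H1.InstBBasic.BooAlg C) (H1.InstBBasic.BzeroAlg C) where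
  mono := fun hp hq => C.LN_mono hp hq
  inf_le := fun _ _ _ _ _ hx => twoPole_inf _ _ hx.1 hx.2
  mem_Bx := fun _ =>
    ⟨fun ⟨p, q, h⟩ => ⟨p, q, h.1, h.2⟩, fun ⟨p, q, h1, h2⟩ => ⟨p, q, h1, h2⟩⟩
  mem_Boo := fun _ =>
    ⟨fun ⟨q, h⟩ => ⟨q, h.1, h.2⟩, fun ⟨q, h1, h2⟩ => ⟨q, h1, h2⟩⟩
  mem_B0 := fun _ =>
    ⟨fun ⟨p, h⟩ => ⟨p, h.1, h.2⟩, fun ⟨p, h1, h2⟩ => ⟨p, h1, h2⟩⟩

/-- **W-export at the chart level** (chart rings of `H1/InstC4`): the literal (B1) gives the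
decomposition over `W` with the same `aᵢ`. -/
theorem directSum_fixedC (hD : FixData2 R Γ)
    (hF : Submodule.span K {f : F | IsFixed Γ f} = ⊤)
    [∀ p q, FiniteDimensional K (C.LN p q)]
    (hcart : ∀ p q, (R.lat (C.LN p q)).FG)
    (hstab : ∀ p q, ∀ s ∈ Γ, ∀ f ∈ C.LN p q, s • f ∈ C.LN p q)
    (hafix : ∀ i, IsFixed Γ (a i)) {b₁ : ℕ} (ha : ∀ i, a i ∈ H1.InstC1.Lam C b₁ b₁)
    (H : DirectSum (H1.InstC4.BxAlg C) (H1.InstC4.BooAlg C) (H1.InstC4.BzeroAlg C) a) :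
    DirectSum (fixedAlg Γ (H1.InstC4.BxAlg C)) (fixedAlg Γ (H1.InstC4.BooAlg C))
      (fixedAlg Γ (H1.InstC4.BzeroAlg C)) a :=
  directSum_fixed_of_family (L := fun p q => C.LN p q) hD hF (familyC C) hcart hstab hafix
    (fun i => (ha i).1) H

/-- **W-export at the chart level** (chart rings of `H1/InstBBasic`). -/
theorem directSum_fixedB (hD : FixData2 R Γ)
    (hF : Submodule.span K {f : F | IsFixed Γ f} = ⊤)
    [∀ p q, FiniteDimensional K (C.LN p q)]
    (hcart : ∀ p q, (R.lat (C.LN p q)).FG)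
    (hstab : ∀ p q, ∀ s ∈ Γ, ∀ f ∈ C.LN p q, s • f ∈ C.LN p q)
    (hafix : ∀ i, IsFixed Γ (a i)) {b₁ : ℕ} (ha : ∀ i, a i ∈ H1.InstC1.Lam C b₁ b₁)
    (H : DirectSum (H1.InstBBasic.BxAlg C) (H1.InstBBasic.BooAlg C)
      (H1.InstBBasic.BzeroAlg C) a) :
    DirectSum (fixedAlg Γ (H1.InstBBasic.BxAlg C)) (fixedAlg Γ (H1.InstBBasic.BooAlg C))
      (fixedAlg Γ (H1.InstBBasic.BzeroAlg C)) a :=
  directSum_fixed_of_family (L := fun p q => C.LN p q) hD hF (familyB C) hcart hstab hafix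
    (fun i => (ha i).1) H

end Charts

/-! ### Coefficients in `inertiaInt P` -/

section InertiaInt

open Fermat.Agent.S56x.Flat.InertiaField

local notation "Qbar" => AlgebraicClosure ℚ

variable {P : ValuationSubring Qbar} {F : Type*} [Field F] [Algebra Qbar F]
  {Γ : Set (SemilinearAut Qbar F)}

/-- `W = P^Γ` maps to `inertiaInt P` when every inertia automorphism is the base automorphism of
some element of `Γ`. -/
def toInertiaInt
    (hΓ' : ∀ σ ∈ P.inertiaSubgroupIn ℚ, ∃ s ∈ Γ, ∀ c : Qbar, SemilinearAut.baseAut s c = σ c) :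
    fixedSubring (A := P) Γ →+* inertiaInt P where
  toFun w := ⟨((w : P) : Qbar), (w : P).2, fun t ht => by
    obtain ⟨s, hs, h⟩ := hΓ' t ht
    rw [← h]
    exact w.2 s hs⟩
  map_one' := rfl
  map_mul' _ _ := rfl
  map_zero' := rfl
  map_add' _ _ := rfl

@[simp] theorem coe_toInertiaInt
    (hΓ' : ∀ σ ∈ P.inertiaSubgroupIn ℚ, ∃ s ∈ Γ, ∀ c : Qbar, SemilinearAut.baseAut s c = σ c)
    (w : fixedSubring (A := P) Γ) : ((toInertiaInt hΓ' w : inertiaInt P) : Qbar) = ((w : P) : Qbar) :=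
  rfl

/-- evaluation commutes with the change of coefficients `W → inertiaInt P`. -/
theorem coe_aeval_eq
    (hΓ' : ∀ σ ∈ P.inertiaSubgroupIn ℚ, ∃ s ∈ Γ, ∀ c : Qbar, SemilinearAut.baseAut s c = σ c)
    {ι : Type*} (f : ι → P) (φ : MvPolynomial ι (fixedSubring (A := P) Γ)) :
    ((MvPolynomial.aeval f φ : P) : Qbar) =
      MvPolynomial.aeval (fun i => (f i : Qbar)) (MvPolynomial.map (toInertiaInt hΓ') φ) := by
  rw [MvPolynomial.aeval_def, MvPolynomial.aeval_def, MvPolynomial.eval₂_map]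
  have h1 : ((MvPolynomial.eval₂ (algebraMap (fixedSubring (A := P) Γ) P) f φ : P) : Qbar) =
      P.subtype (MvPolynomial.eval₂ (algebraMap (fixedSubring (A := P) Γ) P) f φ) := rfl
  rw [h1, MvPolynomial.eval₂_comp_left]
  rfl

variable {Bx Boo B0 : Subalgebra P F} {g : ℕ} {a : Fin g → F}

/-- **The universal Cech group law with coefficients in `inertiaInt P`**, in the literal shape of
the hypothesis `hGL` of `Cech/CoordBQbar.hasApproxCharts` (for `B := ↥Bx`, `Boo := ooIn Bx Boo`,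
`B0 := zeroIn Bx B0`, `a := aIn H`). -/
theorem exists_groupLaw_inertiaInt
    (hΓ' : ∀ σ ∈ P.inertiaSubgroupIn ℚ, ∃ s ∈ Γ, ∀ c : Qbar, SemilinearAut.baseAut s c = σ c)
    (H : DirectSum Bx Boo B0 a)
    (HW : DirectSum (fixedAlg Γ Bx) (fixedAlg Γ Boo) (fixedAlg Γ B0) a) :
    ∀ n : ℕ, ∃ Φ : Fin g → MvPolynomial (Fin g ⊕ Fin g) (inertiaInt P),
      ∀ (π : P) (t t' : Fin g → P), (∀ i, π ∣ t i) → (∀ i, π ∣ t' i) →
        ∃ T : Fin g → P,
          (∀ j, (T j : Qbar) = MvPolynomial.aeval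
            (Sum.elim (fun i => (t i : Qbar)) (fun i => (t' i : Qbar))) (Φ j)) ∧
          (∀ j, π ∣ T j) ∧
          ∃ (voo : ooIn Bx Boo) (v0 : zeroIn Bx B0),
            algebraMap P (ooIn Bx Boo) π ∣ voo - 1 ∧ algebraMap P (zeroIn Bx B0) π ∣ v0 - 1 ∧
            algebraMap P Bx π ^ (n + 1) ∣
              (1 + comb (aIn H) t) * (1 + comb (aIn H) t') * voo * v0 - (1 + comb (aIn H) T) := by
  intro n
  obtain ⟨Φ, -, hΦ⟩ := exists_groupLaw_fixed' H HW n
  refine ⟨fun j => MvPolynomial.map (toInertiaInt hΓ') (Φ j), fun π t t' ht ht' => ?_⟩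
  obtain ⟨hdvd, voo, v0, hvoo, hv0, hmain⟩ := hΦ π t t' ht ht'
  refine ⟨fun j => MvPolynomial.aeval (Sum.elim t t') (Φ j), fun j => ?_, hdvd,
    voo, v0, hvoo, hv0, hmain⟩
  have hfun : (fun i => ((Sum.elim t t' i : P) : Qbar)) =
      Sum.elim (fun i => (t i : Qbar)) (fun i => (t' i : Qbar)) := by
    funext i
    cases i <;> rfl
  rw [coe_aeval_eq hΓ', hfun]

/-! ### From the literal (B1) to `hGL`, in one step -/

variable {S : SmallRing F} {k κ : Type*} [Field k] [CommRing κ] [Algebra k κ]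
  {R : RedSetup2 P S k κ} (C : ChartCoord R)

/-- **(B1) ⟹ `hGL`** for the chart rings of `H1/InstC4`. -/
theorem exists_groupLaw_inertiaIntC
    (hΓ' : ∀ σ ∈ P.inertiaSubgroupIn ℚ, ∃ s ∈ Γ, ∀ c : Qbar, SemilinearAut.baseAut s c = σ c)
    (hD : FixData2 R Γ) (hF : Submodule.span Qbar {f : F | IsFixed Γ f} = ⊤)
    [∀ p q, FiniteDimensional Qbar (C.LN p q)]
    (hcart : ∀ p q, (R.lat (C.LN p q)).FG)
    (hstab : ∀ p q, ∀ s ∈ Γ, ∀ f ∈ C.LN p q, s • f ∈ C.LN p q)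
    (hafix : ∀ i, IsFixed Γ (a i)) {b₁ : ℕ} (ha : ∀ i, a i ∈ H1.InstC1.Lam C b₁ b₁)
    (H : DirectSum (H1.InstC4.BxAlg C) (H1.InstC4.BooAlg C) (H1.InstC4.BzeroAlg C) a) :
    ∀ n : ℕ, ∃ Φ : Fin g → MvPolynomial (Fin g ⊕ Fin g) (inertiaInt P),
      ∀ (π : P) (t t' : Fin g → P), (∀ i, π ∣ t i) → (∀ i, π ∣ t' i) →
        ∃ T : Fin g → P,
          (∀ j, (T j : Qbar) = MvPolynomial.aeval
            (Sum.elim (fun i => (t i : Qbar)) (fun i => (t' i : Qbar))) (Φ j)) ∧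
          (∀ j, π ∣ T j) ∧
          ∃ (voo : ooIn (H1.InstC4.BxAlg C) (H1.InstC4.BooAlg C))
            (v0 : zeroIn (H1.InstC4.BxAlg C) (H1.InstC4.BzeroAlg C)),
            algebraMap P (ooIn (H1.InstC4.BxAlg C) (H1.InstC4.BooAlg C)) π ∣ voo - 1 ∧
            algebraMap P (zeroIn (H1.InstC4.BxAlg C) (H1.InstC4.BzeroAlg C)) π ∣ v0 - 1 ∧
            algebraMap P (H1.InstC4.BxAlg C) π ^ (n + 1) ∣
              (1 + comb (aIn H) t) * (1 + comb (aIn H) t') * voo * v0 - (1 + comb (aIn H) T) :=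
  exists_groupLaw_inertiaInt hΓ' H (directSum_fixedC C hD hF hcart hstab hafix ha H)

/-- **(B1) ⟹ `hGL`** for the chart rings of `H1/InstBBasic`. -/
theorem exists_groupLaw_inertiaIntB
    (hΓ' : ∀ σ ∈ P.inertiaSubgroupIn ℚ, ∃ s ∈ Γ, ∀ c : Qbar, SemilinearAut.baseAut s c = σ c)
    (hD : FixData2 R Γ) (hF : Submodule.span Qbar {f : F | IsFixed Γ f} = ⊤)
    [∀ p q, FiniteDimensional Qbar (C.LN p q)]
    (hcart : ∀ p q, (R.lat (C.LN p q)).FG)
    (hstab : ∀ p q, ∀ s ∈ Γ, ∀ f ∈ C.LN p q, s • f ∈ C.LN p q)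
    (hafix : ∀ i, IsFixed Γ (a i)) {b₁ : ℕ} (ha : ∀ i, a i ∈ H1.InstC1.Lam C b₁ b₁)
    (H : DirectSum (H1.InstBBasic.BxAlg C) (H1.InstBBasic.BooAlg C)
      (H1.InstBBasic.BzeroAlg C) a) :
    ∀ n : ℕ, ∃ Φ : Fin g → MvPolynomial (Fin g ⊕ Fin g) (inertiaInt P),
      ∀ (π : P) (t t' : Fin g → P), (∀ i, π ∣ t i) → (∀ i, π ∣ t' i) →
        ∃ T : Fin g → P,
          (∀ j, (T j : Qbar) = MvPolynomial.aeval
            (Sum.elim (fun i => (t i : Qbar)) (fun i => (t' i : Qbar))) (Φ j)) ∧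
          (∀ j, π ∣ T j) ∧
          ∃ (voo : ooIn (H1.InstBBasic.BxAlg C) (H1.InstBBasic.BooAlg C))
            (v0 : zeroIn (H1.InstBBasic.BxAlg C) (H1.InstBBasic.BzeroAlg C)),
            algebraMap P (ooIn (H1.InstBBasic.BxAlg C) (H1.InstBBasic.BooAlg C)) π ∣ voo - 1 ∧
            algebraMap P (zeroIn (H1.InstBBasic.BxAlg C) (H1.InstBBasic.BzeroAlg C)) π ∣ v0 - 1 ∧
            algebraMap P (H1.InstBBasic.BxAlg C) π ^ (n + 1) ∣
              (1 + comb (aIn H) t) * (1 + comb (aIn H) t') * voo * v0 - (1 + comb (aIn H) T) :=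
  exists_groupLaw_inertiaInt hΓ' H (directSum_fixedB C hD hF hcart hstab hafix ha H)

end InertiaInt

end Fermat.Agent.S33x.W.InstW

end
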