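/-
P-S33, W-STRUCTURE, leaf (W2b)  (owner: helper13).

`scal_fixed` AT THE BAD LEVEL `N ℓ` (`ℓ ∤ N` the residue characteristic), for BOTH Gauss valuations
`valInfty`, `valZero` of `F_{Nℓ}`: a nonzero function of level `N ℓ` fixed by a set `H` of Galois
automorphisms of `L` (acting coefficientwise on `q`-expansions, `arithmeticGalois`; for us `H` =
inertia at a place over `ℓ`) can be scaled by a nonzero `H`-FIXED constant to a function of
valuation `1`.

Proof: helper42's equivariant fundamental equality (`S33x/W/FundEqFixed`, note 2080) at helper60's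
instance `S34x/TwoVal/FundHyp.fundHyp` gives an `H`-fixed `e ≠ 0` of level `N` with
`v(f) = v(α e)`; helper6's good-level `S19x/Geo/ScalFixed.scal_fixed` at level `N` scales `e` by a
fixed constant to a Gauss unit; `α` preserves the valuation (`LiesOver`).

The data `s = w/(w+w')`, `1`, `(β j)^b` of the instance have RATIONAL `q`-expansions, hence are
fixed by every Galois automorphism.

Exports (vocabulary of `S19x/Geo/LatticeFixed`: `IsFixed Γ f`, `IsFixedK Γ c`,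
`Γ = galSL L (N ℓ) H := arithmeticGalois '' H`):
* `scal_fixed_infty`, `scal_fixed_zero` : Galois-set form (shape of `S19x/Geo/ScalFixed.scal_fixed`);
* `scal_fixed_infty_semilinear`, `scal_fixed_zero_semilinear` : `IsFixed` / `IsFixedK` form;
* `scal_fixed_both` : ONE fixed constant `c` with `v_∞(c • f) ≤ 1`, `v_0(c • f) ≤ 1` and one of the
  two equal to `1` (the field `scal_fixed` of `FixData2` for the small ring `O_∞ ∩ O_0`).
-/
import Mathlib
import Fermat.Agent.S33x.W.FundEqFixed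
import Fermat.Agent.S34x.TwoVal.FundHyp
import Fermat.Agent.S19x.Geo.ScalFixed
import Fermat.Agent.S19x.Geo.LatticeFixed
import Fermat.Agent.S34x.C0two.Pair

set_option autoImplicit false
set_option linter.style.haveILetI false
set_option linter.unusedSectionVars false
set_option linter.unusedVariables false

noncomputable section

namespace Fermat.Agent.S33x.W.ScalFixed2

open Polynomial ModularCurve AlgebraicCurve IntermediateField
open Fermat.Agent.S28 Fermat.Agent.S28.Tower Fermat.Agent.Gateway.Hecke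
open Fermat.Agent.Gateway.Red Fermat.Agent.Gateway.GoodRed Fermat.Agent.Gateway.ESC
open Fermat.Agent.S34x.TwoVal Fermat.Agent.S33x.W.FundEqFixed
open Fermat.Agent.S19x.Geo.LatticeFixed (IsFixed IsFixedK)

/-! ### The pairs `(σ at level N ℓ, σ at level N)` -/

section Pairs

variable {L : Type} [Field L] [Algebra ℚ L] (N ℓ : ℕ) [NeZero N] [NeZero ℓ]

/-- the coefficientwise action of `σ` at the levels `N ℓ` and `N`, as a pair of ring
endomorphisms. -/
def galPair (σ : L ≃ₐ[ℚ] L) :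
    (FL L (N * ℓ) →+* FL L (N * ℓ)) × (FL L N →+* FL L N) :=
  ((arithmeticRingAut (modularFunctionFieldFull (N * ℓ)) σ).toRingHom,
    (arithmeticRingAut (modularFunctionFieldFull N) σ).toRingHom)

/-- the set of pairs attached to a set `H` of Galois automorphisms. -/
def galSet (H : Set (L ≃ₐ[ℚ] L)) :
    Set ((FL L (N * ℓ) →+* FL L (N * ℓ)) × (FL L N →+* FL L N)) :=
  galPair N ℓ '' H

variable {N ℓ}

theorem coe_galPair_fst (σ : L ≃ₐ[ℚ] L) (x : FL L (N * ℓ)) :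
    (((galPair N ℓ σ).1 x : FL L (N * ℓ)) : LaurentSeries L) =
      coeffMap (σ : L →+* L) (x : LaurentSeries L) := rfl

theorem coe_galPair_snd (σ : L ≃ₐ[ℚ] L) (x : FL L N) :
    (((galPair N ℓ σ).2 x : FL L N) : LaurentSeries L) =
      coeffMap (σ : L →+* L) (x : LaurentSeries L) := rfl

theorem galPair_fst_eq_smul (σ : L ≃ₐ[ℚ] L) (x : FL L (N * ℓ)) :
    (galPair N ℓ σ).1 x = arithmeticGalois (modularFunctionFieldFull (N * ℓ)) σ • x := rfl

theorem galPair_snd_eq_smul (σ : L ≃ₐ[ℚ] L) (x : FL L N) :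
    (galPair N ℓ σ).2 x = arithmeticGalois (modularFunctionFieldFull N) σ • x := rfl

variable (N ℓ)

/-- `α` commutes with the coefficientwise Galois action. -/
theorem compat_galSet (H : Set (L ≃ₐ[ℚ] L)) :
    letI := algebraAlong (heckeAlphaBar L N ℓ)
    Compat (galSet N ℓ H) := by
  letI := algebraAlong (heckeAlphaBar L N ℓ)
  rintro _ ⟨σ, -, rfl⟩ e
  apply Subtype.ext
  show coeffMap (σ : L →+* L) ((heckeAlphaBar L N ℓ e : FL L (N * ℓ)) : LaurentSeries L) =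
    ((heckeAlphaBar L N ℓ ((galPair N ℓ σ).2 e) : FL L (N * ℓ)) : LaurentSeries L)
  rw [coe_heckeAlphaBar, coe_heckeAlphaBar, coe_galPair_snd]

/-- an element of level `N ℓ` with Galois-stable `q`-expansion is fixed. -/
theorem fixF_of_coeffMap (H : Set (L ≃ₐ[ℚ] L)) {x : FL L (N * ℓ)}
    (hx : ∀ σ : L ≃ₐ[ℚ] L, coeffMap (σ : L →+* L) (x : LaurentSeries L) = (x : LaurentSeries L)) :
    letI := algebraAlong (heckeAlphaBar L N ℓ)
    FixF (galSet N ℓ H) x := by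
  letI := algebraAlong (heckeAlphaBar L N ℓ)
  rintro _ ⟨σ, -, rfl⟩
  apply Subtype.ext
  rw [coe_galPair_fst]
  exact hx σ

theorem coeffMap_qExpand_jqModC (σ : L ≃ₐ[ℚ] L) :
    coeffMap (σ : L →+* L) (qExpand L ℓ (jqModC L)) = qExpand L ℓ (jqModC L) := by
  rw [ModularCurve.coeffMap_qExpand, coeffMap_jqModC]

theorem fixF_beta_jN (H : Set (L ≃ₐ[ℚ] L)) :
    letI := algebraAlong (heckeAlphaBar L N ℓ)
    FixF (galSet N ℓ H) (heckeBetaBar L N ℓ (jN L N)) := by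
  refine fixF_of_coeffMap N ℓ H fun σ => ?_
  rw [coe_heckeBetaBar, coe_jN]
  exact coeffMap_qExpand_jqModC ℓ σ

theorem fixF_wInf (H : Set (L ≃ₐ[ℚ] L)) :
    letI := algebraAlong (heckeAlphaBar L N ℓ)
    FixF (galSet N ℓ H) (wInf L N ℓ) := by
  refine fixF_of_coeffMap N ℓ H fun σ => ?_
  rw [coe_wInf, map_sub, map_pow, coeffMap_qExpand_jqModC, coeffMap_jqModC]

theorem fixF_wZero (H : Set (L ≃ₐ[ℚ] L)) :
    letI := algebraAlong (heckeAlphaBar L N ℓ)
    FixF (galSet N ℓ H) (wZero L N ℓ) := by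
  refine fixF_of_coeffMap N ℓ H fun σ => ?_
  rw [coe_wZero, map_sub, map_pow, coeffMap_qExpand_jqModC, coeffMap_jqModC]

theorem fixF_sepElt (H : Set (L ≃ₐ[ℚ] L)) :
    letI := algebraAlong (heckeAlphaBar L N ℓ)
    FixF (galSet N ℓ H) (sepElt L N ℓ) := by
  letI := algebraAlong (heckeAlphaBar L N ℓ)
  exact (fixF_wInf N ℓ H).div ((fixF_wInf N ℓ H).add (fixF_wZero N ℓ H))

end Pairs

/-! ### The fixed normalisation at level `N ℓ` -/

section Scal

variable {L : Type} [Field L] [Algebra ℚ L] [IsAlgClosed L] (A : ValuationSubring L)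
  {k : Type} [Field k] (π : A →+* k) [IsAlgClosed k]
variable (N ℓ : ℕ) [NeZero N] [Fact ℓ.Prime] [CharP k ℓ]
variable (hdeg : finrankAlong L (heckeAlphaBar L N ℓ) = ℓ + 1) (hℓ : ℓ.Prime) (hℓN : ¬ ℓ ∣ N)
variable (hrk : ∀ x ∈ IsLocalRing.maximalIdeal A, ∀ c : A, c ≠ 0 → ∃ j : ℕ, c ∣ x ^ j)
  (hπ : Function.Surjective π)

/-- the common core: a fixed `e ≠ 0` of level `N` can be scaled by a fixed constant `c` such that
`α (c • e)` has valuation `1` at any valuation ring `V` of `F_{Nℓ}` lying over `OvVal`. -/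
theorem exists_fixed_const_of_level (H : Set (L ≃ₐ[ℚ] L)) (V : ValuationSubring (FL L (N * ℓ)))
    (hV : letI := algebraAlong (heckeAlphaBar L N ℓ)
      FundEq.LiesOver (OvVal A π N ℓ hπ hℓN) V)
    (f : FL L (N * ℓ)) (e : FL L N) (he : e ≠ 0)
    (hefix : ∀ σ ∈ H, arithmeticGalois (modularFunctionFieldFull N) σ • e = e)
    (hval : V.valuation f = V.valuation (heckeAlphaBar L N ℓ e)) :
    ∃ c : L, c ≠ 0 ∧ (∀ σ ∈ H, σ c = c) ∧ V.valuation (c • f) = 1 := by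
  letI := algebraAlong (heckeAlphaBar L N ℓ)
  obtain ⟨c, hc, hcfix, hce⟩ :=
    Fermat.Agent.S19x.Geo.ScalFixed.scal_fixed A π ℓ N hπ hℓN H e he hefix
  refine ⟨c, hc, hcfix, ?_⟩
  have h1 : V.valuation (algebraMap (FL L N) (FL L (N * ℓ)) (c • e)) = 1 :=
    (hV.eq_one_iff (c • e)).mpr hce
  have h2 : algebraMap (FL L N) (FL L (N * ℓ)) (c • e) =
      algebraMap L (FL L (N * ℓ)) c * heckeAlphaBar L N ℓ e := by
    show heckeAlphaBar L N ℓ (c • e) = _
    rw [Algebra.smul_def, map_mul, AlgHom.commutes]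
  rw [h2, map_mul] at h1
  rw [Algebra.smul_def, map_mul, hval]
  exact h1

include hdeg hℓ in
/-- **`scal_fixed` at `∞`, level `N ℓ`.** -/
theorem scal_fixed_infty (H : Set (L ≃ₐ[ℚ] L)) (f : FL L (N * ℓ)) (hf : f ≠ 0)
    (hfix : ∀ σ ∈ H, arithmeticGalois (modularFunctionFieldFull (N * ℓ)) σ • f = f) :
    ∃ c : L, c ≠ 0 ∧ (∀ σ ∈ H, σ c = c) ∧
      (valInfty A π N ℓ hrk hπ hℓN).valuation (c • f) = 1 := by
  letI := algebraAlong (heckeAlphaBar L N ℓ)
  haveI : FiniteDimensional (FL L N) (FL L (N * ℓ)) := finiteDimensional_alpha N ℓ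
  have HH := fundHyp A π N ℓ hdeg hℓ hℓN hrk hπ
  have hzfix : FixF (galSet N ℓ H) f := by
    rintro _ ⟨σ, hσ, rfl⟩
    exact hfix σ hσ
  obtain ⟨e, he, hefix, hval⟩ := FundEqFixed.Hyp.exists_fixed_valuation_eq (Sg := galSet N ℓ H) HH
    (compat_galSet N ℓ H) (fixF_sepElt N ℓ H)
    (resIndep₁ A π N ℓ hℓN hrk hπ) (resIndep₂ A π N ℓ hdeg hℓ hℓN hrk hπ)
    (fun _ => FixF.one) (fun b => (fixF_beta_jN N ℓ H).pow _)
    (finrank_le_card N ℓ hdeg) hf hzfix
  exact exists_fixed_const_of_level A π N ℓ hℓN hπ H _ HH.liesOver₁ f e he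
    (fun σ hσ => hefix _ ⟨σ, hσ, rfl⟩) hval

/-- **`scal_fixed` at `0`, level `N ℓ`.** -/
theorem scal_fixed_zero (H : Set (L ≃ₐ[ℚ] L)) (f : FL L (N * ℓ)) (hf : f ≠ 0)
    (hfix : ∀ σ ∈ H, arithmeticGalois (modularFunctionFieldFull (N * ℓ)) σ • f = f) :
    ∃ c : L, c ≠ 0 ∧ (∀ σ ∈ H, σ c = c) ∧
      (valZero A π N ℓ hdeg hℓ hℓN hrk hπ).valuation (c • f) = 1 := by
  letI := algebraAlong (heckeAlphaBar L N ℓ)
  haveI : FiniteDimensional (FL L N) (FL L (N * ℓ)) := finiteDimensional_alpha N ℓ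
  have HH := fundHyp A π N ℓ hdeg hℓ hℓN hrk hπ
  have hzfix : FixF (galSet N ℓ H) f := by
    rintro _ ⟨σ, hσ, rfl⟩
    exact hfix σ hσ
  obtain ⟨e, he, hefix, hval⟩ := FundEqFixed.Hyp.exists_fixed_valuation_eq' (Sg := galSet N ℓ H) HH
    (compat_galSet N ℓ H) (fixF_sepElt N ℓ H)
    (resIndep₁ A π N ℓ hℓN hrk hπ) (resIndep₂ A π N ℓ hdeg hℓ hℓN hrk hπ)
    (fun _ => FixF.one) (fun b => (fixF_beta_jN N ℓ H).pow _)
    (finrank_le_card N ℓ hdeg) hf hzfix
  exact exists_fixed_const_of_level A π N ℓ hℓN hπ H _ HH.liesOver₂ f e he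
    (fun σ hσ => hefix _ ⟨σ, hσ, rfl⟩) hval

/-- constants of `A` are integral at every valuation ring of `F_{Nℓ}` over `OvVal`. -/
theorem algebraMap_mem_of_liesOver (V : ValuationSubring (FL L (N * ℓ)))
    (hV : letI := algebraAlong (heckeAlphaBar L N ℓ)
      FundEq.LiesOver (OvVal A π N ℓ hπ hℓN) V) {r : L} (hr : r ∈ A) :
    algebraMap L (FL L (N * ℓ)) r ∈ V := by
  letI := algebraAlong (heckeAlphaBar L N ℓ)
  have h1 : algebraMap L (FL L (N * ℓ)) r =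
      algebraMap (FL L N) (FL L (N * ℓ)) (algebraMap L (FL L N) r) := by
    show _ = heckeAlphaBar L N ℓ _
    rw [AlgHom.commutes]
  rw [h1, hV]
  exact (algebraMap_mem_Ov_iff A π N hπ r).mpr hr

include hdeg hℓ in
/-- **ONE fixed constant for both valuations**: `c • f` is integral at `∞` and at `0`, and a unit
at one of the two. -/
theorem scal_fixed_pair (H : Set (L ≃ₐ[ℚ] L)) (f : FL L (N * ℓ)) (hf : f ≠ 0)
    (hfix : ∀ σ ∈ H, arithmeticGalois (modularFunctionFieldFull (N * ℓ)) σ • f = f) :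
    ∃ c : L, c ≠ 0 ∧ (∀ σ ∈ H, σ c = c) ∧
      (valInfty A π N ℓ hrk hπ hℓN).valuation (c • f) ≤ 1 ∧
      (valZero A π N ℓ hdeg hℓ hℓN hrk hπ).valuation (c • f) ≤ 1 ∧
      ((valInfty A π N ℓ hrk hπ hℓN).valuation (c • f) = 1 ∨
        (valZero A π N ℓ hdeg hℓ hℓN hrk hπ).valuation (c • f) = 1) := by
  letI := algebraAlong (heckeAlphaBar L N ℓ)
  have HH := fundHyp A π N ℓ hdeg hℓ hℓN hrk hπ
  obtain ⟨c₁, hc₁, hc₁fix, h₁⟩ := scal_fixed_infty A π N ℓ hdeg hℓ hℓN hrk hπ H f hf hfix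
  obtain ⟨c₂, hc₂, hc₂fix, h₂⟩ := scal_fixed_zero A π N ℓ hdeg hℓ hℓN hrk hπ H f hf hfix
  rcases A.mem_or_inv_mem (c₁ / c₂) with hr | hr
  · refine ⟨c₁, hc₁, hc₁fix, h₁.le, ?_, Or.inl h₁⟩
    have h3 : c₁ • f = algebraMap L (FL L (N * ℓ)) (c₁ / c₂) * (c₂ • f) := by
      rw [Algebra.smul_def, Algebra.smul_def, ← mul_assoc, ← map_mul, div_mul_cancel₀ _ hc₂]
    rw [h3, map_mul, h₂, mul_one]
    exact (ValuationSubring.valuation_le_one_iff _ _).mpr
      (algebraMap_mem_of_liesOver A π N ℓ hℓN hπ _ HH.liesOver₂ hr)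
  · refine ⟨c₂, hc₂, hc₂fix, ?_, h₂.le, Or.inr h₂⟩
    have h3 : c₂ • f = algebraMap L (FL L (N * ℓ)) (c₁ / c₂)⁻¹ * (c₁ • f) := by
      rw [Algebra.smul_def, Algebra.smul_def, ← mul_assoc, ← map_mul, inv_div,
        div_mul_cancel₀ _ hc₁]
    rw [h3, map_mul, h₁, mul_one]
    exact (ValuationSubring.valuation_le_one_iff _ _).mpr
      (algebraMap_mem_of_liesOver A π N ℓ hℓN hπ _ HH.liesOver₁ hr)

end Scal

/-! ### The same, in the vocabulary of `S19x/Geo/LatticeFixed` (`IsFixed`, `IsFixedK`) -/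

section Semilinear

variable (L : Type) [Field L] [Algebra ℚ L]

/-- the set of semilinear automorphisms of `F_M` (coefficientwise action) attached to a set `H`
of Galois automorphisms of `L`. -/
def galSL (M : ℕ) [NeZero M] (H : Set (L ≃ₐ[ℚ] L)) : Set (SemilinearAut L (FL L M)) :=
  (arithmeticGalois (L := L) (modularFunctionFieldFull M)) '' H

variable {L}

theorem isFixed_galSL_iff {M : ℕ} [NeZero M] {H : Set (L ≃ₐ[ℚ] L)} {f : FL L M} :
    IsFixed (galSL L M H) f ↔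
      ∀ σ ∈ H, arithmeticGalois (modularFunctionFieldFull M) σ • f = f := by
  constructor
  · intro h σ hσ
    exact h _ ⟨σ, hσ, rfl⟩
  · rintro h _ ⟨σ, hσ, rfl⟩
    exact h σ hσ

theorem isFixedK_galSL_iff {M : ℕ} [NeZero M] {H : Set (L ≃ₐ[ℚ] L)} {c : L} :
    IsFixedK (galSL L M H) c ↔ ∀ σ ∈ H, σ c = c := by
  constructor
  · intro h σ hσ
    have := h _ ⟨σ, hσ, rfl⟩
    rwa [baseAut_arithmeticGalois] at this
  · rintro h _ ⟨σ, hσ, rfl⟩
    rw [baseAut_arithmeticGalois]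
    exact h σ hσ

variable [IsAlgClosed L] (A : ValuationSubring L)
  {k : Type} [Field k] (π : A →+* k) [IsAlgClosed k]
variable (N ℓ : ℕ) [NeZero N] [Fact ℓ.Prime] [CharP k ℓ]
variable (hdeg : finrankAlong L (heckeAlphaBar L N ℓ) = ℓ + 1) (hℓ : ℓ.Prime) (hℓN : ¬ ℓ ∣ N)
variable (hrk : ∀ x ∈ IsLocalRing.maximalIdeal A, ∀ c : A, c ≠ 0 → ∃ j : ℕ, c ∣ x ^ j)
  (hπ : Function.Surjective π)

include hdeg hℓ in
/-- `scal_fixed` at `∞`, level `N ℓ`, semilinear form. -/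
theorem scal_fixed_infty_semilinear (H : Set (L ≃ₐ[ℚ] L)) (f : FL L (N * ℓ)) (hf : f ≠ 0)
    (hfix : IsFixed (galSL L (N * ℓ) H) f) :
    ∃ c : L, c ≠ 0 ∧ IsFixedK (galSL L (N * ℓ) H) c ∧
      (valInfty A π N ℓ hrk hπ hℓN).valuation (c • f) = 1 := by
  obtain ⟨c, hc, hcfix, hval⟩ := scal_fixed_infty A π N ℓ hdeg hℓ hℓN hrk hπ H f hf
    (isFixed_galSL_iff.mp hfix)
  exact ⟨c, hc, isFixedK_galSL_iff.mpr hcfix, hval⟩

/-- `scal_fixed` at `0`, level `N ℓ`, semilinear form. -/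
theorem scal_fixed_zero_semilinear (H : Set (L ≃ₐ[ℚ] L)) (f : FL L (N * ℓ)) (hf : f ≠ 0)
    (hfix : IsFixed (galSL L (N * ℓ) H) f) :
    ∃ c : L, c ≠ 0 ∧ IsFixedK (galSL L (N * ℓ) H) c ∧
      (valZero A π N ℓ hdeg hℓ hℓN hrk hπ).valuation (c • f) = 1 := by
  obtain ⟨c, hc, hcfix, hval⟩ := scal_fixed_zero A π N ℓ hdeg hℓ hℓN hrk hπ H f hf
    (isFixed_galSL_iff.mp hfix)
  exact ⟨c, hc, isFixedK_galSL_iff.mpr hcfix, hval⟩

/-- **the field `scal_fixed` of `FixData2`** for the small ring `O_∞ ∩ O_0` of the two Gauss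
valuations at level `N ℓ` and `Γ = galSL L (N ℓ) H`. -/
theorem scal_fixed_twoVal (H : Set (L ≃ₐ[ℚ] L)) (f : FL L (N * ℓ)) (hf : f ≠ 0)
    (hfix : IsFixed (galSL L (N * ℓ) H) f) :
    ∃ c : L, c ≠ 0 ∧ IsFixedK (galSL L (N * ℓ) H) c ∧
      c • f ∈ (Fermat.Agent.S34x.C0two.twoVal (valInfty A π N ℓ hrk hπ hℓN)
        (valZero A π N ℓ hdeg hℓ hℓN hrk hπ)).O ∧
      ¬ Fermat.Agent.S34x.C0two.Small
        (Fermat.Agent.S34x.C0two.twoVal (valInfty A π N ℓ hrk hπ hℓN)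
          (valZero A π N ℓ hdeg hℓ hℓN hrk hπ)) (c • f) := by
  obtain ⟨c, hc, hcfix, h1, h2, hor⟩ := scal_fixed_pair A π N ℓ hdeg hℓ hℓN hrk hπ H f hf
    (isFixed_galSL_iff.mp hfix)
  refine ⟨c, hc, isFixedK_galSL_iff.mpr hcfix,
    ⟨(ValuationSubring.valuation_le_one_iff _ _).mp h1,
      (ValuationSubring.valuation_le_one_iff _ _).mp h2⟩, ?_⟩
  intro hs
  rw [Fermat.Agent.S34x.C0two.small_twoVal_iff] at hs
  rcases hor with h | h
  · exact absurd hs.1 (by rw [h]; exact lt_irrefl _)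
  · exact absurd hs.2 (by rw [h]; exact lt_irrefl _)

end Semilinear

end Fermat.Agent.S33x.W.ScalFixed2
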