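/-
P-S33, W-STRUCTURE, leaf (W2a)  (owner: helper42).

EQUIVARIANT FUNDAMENTAL EQUALITY.  Setting of `S34x/TwoVal/FundEq.lean` (helper10): two valuation
rings `V`, `W` of a finite extension `F / E` over the same valuation ring `O` of `E`, a separating
element `s`, residually independent families `x` (at `V`), `y` (at `W`) with
`[F : E] ≤ |x| + |y|`.  Let `Sg` be a set of pairs `(σF, σE)` of ring endomorphisms of `F`, `E`
compatible with `E → F`, fixing `s`, `x`, `y`.  Then for every `Sg`-FIXED `z ≠ 0` of `F` there is an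
`Sg`-FIXED `e ≠ 0` of `E` with `v(z) = v(e)` (resp. `w(z) = w(e)`): the element `e` of
`FundEq.Hyp.exists_valuation_eq` is a coordinate of `t z` in the adapted basis `x t₁, y t₂`, where
`t, t₁, t₂` are rational functions of `s`; coordinates of a fixed vector in a fixed basis are
fixed.

Use: `E = F_M`, `F = F_{Mp}`, `V, W` the two Gauss valuations at level `M p`, `Sg` = inertia acting
on `q`-expansion coefficients: the two Gauss valuations are unramified on inertia-fixed functions
(field `scal_fixed` of the `FixData2` instance).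
-/
import Mathlib
import Fermat.Agent.S34x.TwoVal.FundEq

set_option autoImplicit false
set_option linter.unusedVariables false
set_option linter.unusedSectionVars false

namespace Fermat.Agent.S33x.W.FundEqFixed

open Fermat.Agent.S34x.TwoVal.FundEq

variable {E F : Type*} [Field E] [Field F] [Algebra E F]

/-- Compatible pairs of endomorphisms of `F` and `E`. -/
def Compat (Sg : Set ((F →+* F) × (E →+* E))) : Prop :=
  ∀ σ ∈ Sg, ∀ e : E, σ.1 (algebraMap E F e) = algebraMap E F (σ.2 e)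

/-- `z : F` is fixed by `Sg`. -/
def FixF (Sg : Set ((F →+* F) × (E →+* E))) (z : F) : Prop := ∀ σ ∈ Sg, σ.1 z = z

/-- `e : E` is fixed by `Sg`. -/
def FixE (Sg : Set ((F →+* F) × (E →+* E))) (e : E) : Prop := ∀ σ ∈ Sg, σ.2 e = e

variable {Sg : Set ((F →+* F) × (E →+* E))}

theorem FixF.mul {a b : F} (ha : FixF Sg a) (hb : FixF Sg b) : FixF Sg (a * b) :=
  fun σ hσ => by rw [map_mul, ha σ hσ, hb σ hσ]

theorem FixF.pow {a : F} (ha : FixF Sg a) (n : ℕ) : FixF Sg (a ^ n) :=
  fun σ hσ => by rw [map_pow, ha σ hσ]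

theorem FixF.add {a b : F} (ha : FixF Sg a) (hb : FixF Sg b) : FixF Sg (a + b) :=
  fun σ hσ => by rw [map_add, ha σ hσ, hb σ hσ]

theorem FixF.sub {a b : F} (ha : FixF Sg a) (hb : FixF Sg b) : FixF Sg (a - b) :=
  fun σ hσ => by rw [map_sub, ha σ hσ, hb σ hσ]

theorem FixF.one : FixF Sg (1 : F) := fun σ _ => map_one σ.1

theorem FixF.div {a b : F} (ha : FixF Sg a) (hb : FixF Sg b) : FixF Sg (a / b) :=
  fun σ hσ => by rw [map_div₀, ha σ hσ, hb σ hσ]

theorem FixE.div {a b : E} (ha : FixE Sg a) (hb : FixE Sg b) : FixE Sg (a / b) :=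
  fun σ hσ => by rw [map_div₀, ha σ hσ, hb σ hσ]

theorem FixE.algebraMap (hSg : Compat Sg) {e : E} (he : FixE Sg e) :
    FixF Sg (algebraMap E F e) :=
  fun σ hσ => by rw [hSg σ hσ, he σ hσ]

section Approx

variable {O : ValuationSubring E} {V W : ValuationSubring F}

/-- `exists_approx_pow` with a fixed approximant. -/
theorem exists_fixed_approx_pow (hV : LiesOver O V) (hW : LiesOver O W) {ϖ : E} (hϖ0 : ϖ ≠ 0)
    (hϖ : O.valuation ϖ < 1) {s : F} (hs₁ : s * (algebraMap E F ϖ)⁻¹ ∈ V)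
    (hs₂ : (1 - s) * (algebraMap E F ϖ)⁻¹ ∈ W) (hsfix : FixF Sg s) (n : ℕ) :
    ∃ t : F, FixF Sg t ∧ V.valuation (1 - t) < 1 ∧
      W.valuation t ≤ W.valuation (algebraMap E F ϖ) ^ (n + 1) := by
  set ϖF := algebraMap E F ϖ with hϖF
  have hϖF0 : ϖF ≠ 0 := by rwa [hϖF, Ne, map_eq_zero_iff _ (algebraMap E F).injective]
  have hvϖ : V.valuation ϖF < 1 := (hV.lt_one_iff ϖ).mpr hϖ
  have hwϖ : W.valuation ϖF < 1 := (hW.lt_one_iff ϖ).mpr hϖ
  have hvϖ0 : V.valuation ϖF ≠ 0 := (Valuation.ne_zero_iff _).mpr hϖF0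
  have hwϖ0 : W.valuation ϖF ≠ 0 := (Valuation.ne_zero_iff _).mpr hϖF0
  have hvs : V.valuation s ≤ V.valuation ϖF := by
    have := (ValuationSubring.valuation_le_one_iff _ _).mpr hs₁
    rwa [map_mul, map_inv₀, mul_inv_le_iff₀ (zero_lt_iff.mpr hvϖ0), one_mul] at this
  have hwu : W.valuation (1 - s) ≤ W.valuation ϖF := by
    have := (ValuationSubring.valuation_le_one_iff _ _).mpr hs₂
    rwa [map_mul, map_inv₀, mul_inv_le_iff₀ (zero_lt_iff.mpr hwϖ0), one_mul] at this
  have hvs1 : V.valuation s < 1 := lt_of_le_of_lt hvs hvϖ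
  have hwu1 : W.valuation (1 - s) < 1 := lt_of_le_of_lt hwu hwϖ
  have hvu : V.valuation (1 - s) = 1 := Valuation.map_one_sub_of_lt _ hvs1
  have hws : W.valuation s = 1 := by
    have := Valuation.map_one_sub_of_lt _ hwu1
    rwa [sub_sub_cancel] at this
  set N := n + 1 with hN
  set u := 1 - s with hu
  have hufix : FixF Sg u := FixF.one.sub hsfix
  have hvsN : V.valuation (s ^ N) < 1 := by
    rw [map_pow]; exact pow_lt_one₀ zero_le hvs1 (by omega)
  have hwuN : W.valuation (u ^ N) ≤ W.valuation ϖF ^ N := by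
    rw [map_pow]; exact pow_le_pow_left₀ zero_le hwu N
  have hwuN1 : W.valuation (u ^ N) < 1 :=
    lt_of_le_of_lt hwuN (pow_lt_one₀ zero_le hwϖ (by omega))
  have hvden : V.valuation (u ^ N + s ^ N) = 1 := by
    have h1 : V.valuation (u ^ N) = 1 := by rw [map_pow, hvu, one_pow]
    rw [Valuation.map_add_eq_of_lt_left _ (by rw [h1]; exact hvsN), h1]
  have hwden : W.valuation (u ^ N + s ^ N) = 1 := by
    have h1 : W.valuation (s ^ N) = 1 := by rw [map_pow, hws, one_pow]
    rw [Valuation.map_add_eq_of_lt_right _ (by rw [h1]; exact hwuN1), h1]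
  have hden0 : u ^ N + s ^ N ≠ 0 := by
    intro h0
    rw [h0, map_zero] at hvden
    exact zero_ne_one hvden
  refine ⟨u ^ N / (u ^ N + s ^ N), (hufix.pow N).div ((hufix.pow N).add (hsfix.pow N)), ?_, ?_⟩
  · have h1 : 1 - u ^ N / (u ^ N + s ^ N) = s ^ N / (u ^ N + s ^ N) := by
      field_simp
      ring
    rw [h1, map_div₀, hvden, div_one]
    exact hvsN
  · rw [map_div₀, hwden, div_one]
    exact hwuN

/-- `exists_approx` with a fixed approximant. -/
theorem exists_fixed_approx (hV : LiesOver O V) (hW : LiesOver O W) [Algebra.IsAlgebraic E F]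
    {ϖ : E} (hϖ0 : ϖ ≠ 0) (hϖ : O.valuation ϖ < 1) (harch : ∀ a : E, ∃ n : ℕ, ϖ ^ n * a ∈ O)
    {s : F} (hs₁ : s * (algebraMap E F ϖ)⁻¹ ∈ V) (hs₂ : (1 - s) * (algebraMap E F ϖ)⁻¹ ∈ W)
    (hsfix : FixF Sg s) (gs : Finset F) :
    ∃ t : F, FixF Sg t ∧ V.valuation (1 - t) < 1 ∧ ∀ g ∈ gs, W.valuation (t * g) < 1 := by
  obtain ⟨n, hn⟩ := hW.exists_pow_mul_mem_finset hϖ harch gs
  obtain ⟨t, htfix, ht1, ht2⟩ := exists_fixed_approx_pow hV hW hϖ0 hϖ hs₁ hs₂ hsfix n
  refine ⟨t, htfix, ht1, fun g hg => ?_⟩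
  have hwϖ : W.valuation (algebraMap E F ϖ) < 1 := (hW.lt_one_iff ϖ).mpr hϖ
  have h1 : W.valuation (algebraMap E F ϖ ^ n * g) ≤ 1 :=
    (ValuationSubring.valuation_le_one_iff _ _).mpr (hn g hg)
  rw [map_mul, map_pow] at h1
  calc W.valuation (t * g) = W.valuation t * W.valuation g := map_mul _ _ _
    _ ≤ W.valuation (algebraMap E F ϖ) ^ (n + 1) * W.valuation g := mul_le_mul_left ht2 _
    _ = W.valuation (algebraMap E F ϖ) * (W.valuation (algebraMap E F ϖ) ^ n * W.valuation g) := by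
        rw [pow_succ, mul_comm (W.valuation (algebraMap E F ϖ) ^ n), mul_assoc]
    _ ≤ W.valuation (algebraMap E F ϖ) * 1 := mul_le_mul_right h1 _
    _ < 1 := by rw [mul_one]; exact hwϖ

end Approx

section Coord

variable {O : ValuationSubring E} {V W : ValuationSubring F}
variable {ι κ : Type*} [Fintype ι] [Fintype κ] {p : ι → F} {q : κ → F}

/-- **coordinates of a fixed vector in a fixed adapted family are fixed.** -/
theorem adapted_fixE_coeff (h : Adapted O V W p q) (hV : LiesOver O V) (hW : LiesOver O W)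
    (hSg : Compat Sg) (hp : ∀ a, FixF Sg (p a)) (hq : ∀ b, FixF Sg (q b)) {c : ι → E}
    {d : κ → E} {z : F} (hzfix : FixF Sg z)
    (hz : z = ∑ a, algebraMap E F (c a) * p a + ∑ b, algebraMap E F (d b) * q b) :
    (∀ a, FixE Sg (c a)) ∧ ∀ b, FixE Sg (d b) := by
  have key : ∀ σ ∈ Sg, (∀ a, σ.2 (c a) - c a = 0) ∧ ∀ b, σ.2 (d b) - d b = 0 := by
    intro σ hσ
    refine h.eq_zero_of_sum_eq_zero hV hW ?_
    have h1 : σ.1 z = ∑ a, algebraMap E F (σ.2 (c a)) * p a +
        ∑ b, algebraMap E F (σ.2 (d b)) * q b := by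
      rw [hz, map_add, map_sum, map_sum]
      congr 1
      · refine Finset.sum_congr rfl fun a _ => ?_
        rw [map_mul, hSg σ hσ, hp a σ hσ]
      · refine Finset.sum_congr rfl fun b _ => ?_
        rw [map_mul, hSg σ hσ, hq b σ hσ]
    have h2 : ∑ a, algebraMap E F (σ.2 (c a) - c a) * p a +
        ∑ b, algebraMap E F (σ.2 (d b) - d b) * q b = σ.1 z - z := by
      rw [h1, hz]
      simp only [map_sub, sub_mul, Finset.sum_sub_distrib]
      ring
    rw [h2, hzfix σ hσ, sub_self]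
  exact ⟨fun a σ hσ => sub_eq_zero.mp ((key σ hσ).1 a),
    fun b σ hσ => sub_eq_zero.mp ((key σ hσ).2 b)⟩

/-- `Adapted.exists_normalised` for a fixed element and a fixed adapted family: the normalising
element `e` (a coordinate of maximal valuation) is fixed. -/
theorem adapted_exists_fixed_normalised (h : Adapted O V W p q) (hV : LiesOver O V)
    (hW : LiesOver O W) [FiniteDimensional E F]
    (hcard : Module.finrank E F ≤ Fintype.card ι + Fintype.card κ)
    (hSg : Compat Sg) (hp : ∀ a, FixF Sg (p a)) (hq : ∀ b, FixF Sg (q b))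
    {z : F} (hz : z ≠ 0) (hzfix : FixF Sg z) :
    ∃ e : E, e ≠ 0 ∧ FixE Sg e ∧
      V.valuation z ≤ V.valuation (algebraMap E F e) ∧
      W.valuation z ≤ W.valuation (algebraMap E F e) ∧
      (V.valuation z = V.valuation (algebraMap E F e) ∨
        W.valuation z = W.valuation (algebraMap E F e)) := by
  obtain ⟨c, d, hcd⟩ := h.exists_repr hV hW hcard z
  obtain ⟨hcfix, hdfix⟩ := adapted_fixE_coeff h hV hW hSg hp hq hzfix hcd
  have hex : ∃ i : ι ⊕ κ, Sum.elim c d i ≠ 0 := by
    by_contra hall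
    push Not at hall
    apply hz
    rw [hcd]
    have h1 : ∀ a, c a = 0 := fun a => hall (Sum.inl a)
    have h2 : ∀ b, d b = 0 := fun b => hall (Sum.inr b)
    simp [h1, h2]
  obtain ⟨i₁, hi₁, hmax⟩ := exists_max_valuation O (Sum.elim c d) hex
  set e := Sum.elim c d i₁ with he
  have hefix : FixE Sg e := by
    rw [he]
    rcases i₁ with a | b
    · exact hcfix a
    · exact hdfix b
  have heF : algebraMap E F e ≠ 0 := by rwa [Ne, map_eq_zero_iff _ (algebraMap E F).injective]
  have hmem : ∀ i, Sum.elim c d i / e ∈ O := by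
    intro i
    rw [← ValuationSubring.valuation_le_one_iff, map_div₀]
    exact div_le_one_of_le₀ (hmax i) zero_le
  have hc : ∀ a, c a / e ∈ O := fun a => hmem (Sum.inl a)
  have hd : ∀ b, d b / e ∈ O := fun b => hmem (Sum.inr b)
  set z' := ∑ a, algebraMap E F (c a / e) * p a + ∑ b, algebraMap E F (d b / e) * q b with hz'
  have hzz' : z = algebraMap E F e * z' := by
    rw [hcd, hz', mul_add, Finset.mul_sum, Finset.mul_sum]
    congr 1 <;> refine Finset.sum_congr rfl fun a _ => ?_ <;> rw [map_div₀] <;> field_simp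
  have hz'V : z' ∈ V := h.sum_mem hV hc hd
  have hz'W : z' ∈ W := by
    have := h.symm.sum_mem hW hd hc
    rwa [add_comm] at this
  have hvz : V.valuation z = V.valuation (algebraMap E F e) * V.valuation z' := by
    rw [hzz', map_mul]
  have hwz : W.valuation z = W.valuation (algebraMap E F e) * W.valuation z' := by
    rw [hzz', map_mul]
  have hone : O.valuation (Sum.elim c d i₁ / e) = 1 := by
    rw [← he, div_self hi₁, map_one]
  refine ⟨e, hi₁, hefix, ?_, ?_, ?_⟩
  · rw [hvz]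
    exact mul_le_of_le_one_right zero_le ((ValuationSubring.valuation_le_one_iff _ _).mpr hz'V)
  · rw [hwz]
    exact mul_le_of_le_one_right zero_le ((ValuationSubring.valuation_le_one_iff _ _).mpr hz'W)
  · by_contra hcon
    push Not at hcon
    obtain ⟨hc1, hc2⟩ := hcon
    have hlt1 : V.valuation z' < 1 := by
      rcases lt_or_eq_of_le ((ValuationSubring.valuation_le_one_iff _ _).mpr hz'V) with h1 | h1
      · exact h1
      · exact absurd (by rw [hvz, h1, mul_one]) hc1
    have hlt2 : W.valuation z' < 1 := by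
      rcases lt_or_eq_of_le ((ValuationSubring.valuation_le_one_iff _ _).mpr hz'W) with h1 | h1
      · exact h1
      · exact absurd (by rw [hwz, h1, mul_one]) hc2
    have h1 := h.coeff_lt_of_lt hV hc hd hlt1
    have h2 := h.symm.coeff_lt_of_lt hW hd hc (by rwa [add_comm])
    rcases i₁ with a | b
    · exact absurd (h1 a) (by rw [Sum.elim_inl] at hone; rw [hone]; exact lt_irrefl _)
    · exact absurd (h2 b) (by rw [Sum.elim_inr] at hone; rw [hone]; exact lt_irrefl _)

/-- `Adapted.exists_valuation_eq` with fixed data: the value of a fixed `z ≠ 0` at `V` is the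
value of a FIXED element of `E`. -/
theorem adapted_exists_fixed_valuation_eq (h : Adapted O V W p q) (hV : LiesOver O V)
    (hW : LiesOver O W) [FiniteDimensional E F]
    (hcard : Module.finrank E F ≤ Fintype.card ι + Fintype.card κ)
    (hSg : Compat Sg) (hp : ∀ a, FixF Sg (p a)) (hq : ∀ b, FixF Sg (q b))
    (happrox : ∀ g : F, ∃ t : F, FixF Sg t ∧ V.valuation (1 - t) < 1 ∧ W.valuation (t * g) < 1)
    {z : F} (hz : z ≠ 0) (hzfix : FixF Sg z) :
    ∃ e : E, e ≠ 0 ∧ FixE Sg e ∧ V.valuation z = V.valuation (algebraMap E F e) := by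
  obtain ⟨e₀, he₀, -, he₀z⟩ := hV.exists_mul_mem z⁻¹
  have he₀F : algebraMap E F e₀ ≠ 0 := by rwa [Ne, map_eq_zero_iff _ (algebraMap E F).injective]
  have hvz0 : V.valuation z ≠ 0 := (Valuation.ne_zero_iff _).mpr hz
  have hlow : V.valuation (algebraMap E F e₀) ≤ V.valuation z := by
    have := (ValuationSubring.valuation_le_one_iff _ _).mpr he₀z
    rwa [map_mul, map_inv₀, mul_inv_le_iff₀ (zero_lt_iff.mpr hvz0), one_mul] at this
  obtain ⟨t, htfix, ht1, ht2⟩ := happrox (z * (algebraMap E F e₀)⁻¹)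
  have hvt : V.valuation t = 1 := valuation_eq_one_of_sub_lt ht1
  have ht0 : t ≠ 0 := by
    rintro rfl
    rw [map_zero] at hvt
    exact zero_ne_one hvt
  have hz'0 : t * z ≠ 0 := mul_ne_zero ht0 hz
  have hz'fix : FixF Sg (t * z) := htfix.mul hzfix
  have hvz' : V.valuation (t * z) = V.valuation z := by rw [map_mul, hvt, one_mul]
  have hwz' : W.valuation (t * z) < W.valuation (algebraMap E F e₀) := by
    have hw0 : W.valuation (algebraMap E F e₀) ≠ 0 := (Valuation.ne_zero_iff _).mpr he₀F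
    have := ht2
    rwa [← mul_assoc, map_mul, map_inv₀, mul_inv_lt_iff₀ (zero_lt_iff.mpr hw0), one_mul] at this
  obtain ⟨e, he, hefix, hle1, hle2, hor⟩ :=
    adapted_exists_fixed_normalised h hV hW hcard hSg hp hq hz'0 hz'fix
  rcases hor with h1 | h2
  · exact ⟨e, he, hefix, by rw [← hvz', h1]⟩
  · exfalso
    rw [h2] at hwz'
    have h3 : O.valuation e < O.valuation e₀ := (hW.lt_iff e e₀).mp hwz'
    have h4 : V.valuation (algebraMap E F e) < V.valuation (algebraMap E F e₀) :=
      (hV.lt_iff e e₀).mpr h3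
    have h5 : V.valuation (algebraMap E F e₀) ≤ V.valuation (algebraMap E F e) := by
      calc V.valuation (algebraMap E F e₀) ≤ V.valuation z := hlow
        _ = V.valuation (t * z) := hvz'.symm
        _ ≤ V.valuation (algebraMap E F e) := hle1
    exact absurd h4 (not_lt.mpr h5)

end Coord

section Final

variable {O : ValuationSubring E} {V W : ValuationSubring F} {ϖ : E} {s : F}

/-- **strong approximation with a fixed approximant** -/
theorem Hyp.exists_fixed_approx (H : Hyp O V W ϖ s) [Algebra.IsAlgebraic E F]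
    (hsfix : FixF Sg s) (gs : Finset F) :
    ∃ t : F, FixF Sg t ∧ V.valuation (1 - t) < 1 ∧ ∀ g ∈ gs, W.valuation (t * g) < 1 :=
  FundEqFixed.exists_fixed_approx H.liesOver₁ H.liesOver₂ H.ϖ_ne H.ϖ_lt H.arch H.s_mem₁ H.s_mem₂
    hsfix gs

theorem Hyp.exists_fixed_approx_one (H : Hyp O V W ϖ s) [Algebra.IsAlgebraic E F]
    (hsfix : FixF Sg s) (g : F) :
    ∃ t : F, FixF Sg t ∧ V.valuation (1 - t) < 1 ∧ W.valuation (t * g) < 1 := by
  classical
  obtain ⟨t, h0, h1, h2⟩ := Hyp.exists_fixed_approx H hsfix {g}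
  exact ⟨t, h0, h1, h2 g (Finset.mem_singleton_self g)⟩

variable {ι κ : Type*} [Fintype ι] [Fintype κ] {x : ι → F} {y : κ → F}

/-- fixed residually independent families can be made adapted by multiplication with FIXED
approximants of `1`. -/
theorem Hyp.exists_fixed_adapted (H : Hyp O V W ϖ s) [Algebra.IsAlgebraic E F]
    (hsfix : FixF Sg s) (hx : ResIndep O V x) (hy : ResIndep O W y) :
    ∃ t₁ t₂ : F, FixF Sg t₁ ∧ FixF Sg t₂ ∧ V.valuation (1 - t₁) < 1 ∧
      W.valuation (1 - t₂) < 1 ∧ Adapted O V W (fun a => x a * t₁) (fun b => y b * t₂) := by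
  classical
  obtain ⟨t₁, h1f, h1, h1'⟩ := Hyp.exists_fixed_approx H hsfix (Finset.univ.image x)
  obtain ⟨t₂, h2f, h2, h2'⟩ := Hyp.exists_fixed_approx H.symm (FixF.one.sub hsfix)
    (Finset.univ.image y)
  refine ⟨t₁, t₂, h1f, h2f, h1, h2, hx.mul_right H.liesOver₁ h1, fun a => ?_,
    hy.mul_right H.liesOver₂ h2, fun b => ?_⟩
  · rw [mul_comm]
    exact h1' _ (Finset.mem_image_of_mem x (Finset.mem_univ a))
  · rw [mul_comm]
    exact h2' _ (Finset.mem_image_of_mem y (Finset.mem_univ b))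

/-- **EQUIVARIANT FUNDAMENTAL EQUALITY at `V`**: the value at `V` of a fixed `z ≠ 0` of `F` is
the value of a FIXED nonzero element of `E`. -/
theorem Hyp.exists_fixed_valuation_eq (H : Hyp O V W ϖ s) [FiniteDimensional E F]
    (hSg : Compat Sg) (hsfix : FixF Sg s) (hx : ResIndep O V x) (hy : ResIndep O W y)
    (hxfix : ∀ a, FixF Sg (x a)) (hyfix : ∀ b, FixF Sg (y b))
    (hcard : Module.finrank E F ≤ Fintype.card ι + Fintype.card κ) {z : F} (hz : z ≠ 0)
    (hzfix : FixF Sg z) :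
    ∃ e : E, e ≠ 0 ∧ FixE Sg e ∧ V.valuation z = V.valuation (algebraMap E F e) := by
  obtain ⟨t₁, t₂, ht₁, ht₂, -, -, had⟩ := Hyp.exists_fixed_adapted H hsfix hx hy
  exact adapted_exists_fixed_valuation_eq had H.liesOver₁ H.liesOver₂ hcard hSg
    (fun a => (hxfix a).mul ht₁) (fun b => (hyfix b).mul ht₂)
    (Hyp.exists_fixed_approx_one H hsfix) hz hzfix

/-- **EQUIVARIANT FUNDAMENTAL EQUALITY at `W`** -/
theorem Hyp.exists_fixed_valuation_eq' (H : Hyp O V W ϖ s) [FiniteDimensional E F]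
    (hSg : Compat Sg) (hsfix : FixF Sg s) (hx : ResIndep O V x) (hy : ResIndep O W y)
    (hxfix : ∀ a, FixF Sg (x a)) (hyfix : ∀ b, FixF Sg (y b))
    (hcard : Module.finrank E F ≤ Fintype.card ι + Fintype.card κ) {z : F} (hz : z ≠ 0)
    (hzfix : FixF Sg z) :
    ∃ e : E, e ≠ 0 ∧ FixE Sg e ∧ W.valuation z = W.valuation (algebraMap E F e) :=
  Hyp.exists_fixed_valuation_eq H.symm hSg (FixF.one.sub hsfix) hy hx hyfix hxfix
    (by rw [add_comm]; exact hcard) hz hzfix

end Final

end Fermat.Agent.S33x.W.FundEqFixed
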