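/-
P-S33, W-STRUCTURE, leaf (W2b), version of helper42 (file ScalFixedTwo; helper13's independent
version lives in another file).

THE TWO GAUSS VALUATIONS OF LEVEL `N l` ARE UNRAMIFIED ON GALOIS-FIXED FUNCTIONS.

Setting of `S34x/TwoVal/FundHyp.lean`: `l` a prime not dividing `N`, `A` a rank-one valuation
subring of the algebraically closed field `L` with residue field `k` of characteristic `l`,
`valInfty`, `valZero` the two Gauss valuation rings of `F_{N l} = FL L (N * l)`.  Let `S` be ANY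
set of automorphisms of `L` over the rationals acting on `q`-expansion coefficients
(`arithmeticGalois`).  Then for every `S`-fixed `f != 0` of `F_{N l}` there is an `S`-FIXED
constant `c != 0` of `L` with `valInfty (c f) = 1`; the same for `valZero`.

Proof: the equivariant fundamental equality (`S33x/W/FundEqFixed.lean`) at `FundHyp.fundHyp`
gives an `S`-fixed `e` of the good level `F_N` with the same value; helper6's
`S19x/Geo/ScalFixed.scal_fixed` at the good level `N` gives the fixed constant.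
-/
import Mathlib
import Fermat.Agent.S33x.W.FundEqFixed
import Fermat.Agent.S34x.TwoVal.FundHyp
import Fermat.Agent.S19x.Geo.ScalFixed
import Fermat.Agent.Gateway.Hecke.Galois

set_option autoImplicit false
set_option linter.style.haveILetI false
set_option linter.unusedSectionVars false
set_option linter.unusedVariables false

noncomputable section

namespace Fermat.Agent.S33x.W.ScalFixedTwo

open Polynomial ModularCurve AlgebraicCurve IntermediateField
open Fermat.Agent.S28 Fermat.Agent.S28.Tower Fermat.Agent.Gateway.Hecke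
open Fermat.Agent.Gateway.Red Fermat.Agent.Gateway.GoodRed Fermat.Agent.Gateway.ESC
open Fermat.Agent.S34x.TwoVal Fermat.Agent.S33x.W.FundEqFixed

section Pairs

variable (L : Type) [Field L] [Algebra ℚ L] (N ℓ : ℕ) [NeZero N] [NeZero ℓ]

/-- the pairs (action at level `N l`, action at level `N`) of the automorphisms in `S` -/
def galPairs (S : Set (L ≃ₐ[ℚ] L)) :
    Set ((FL L (N * ℓ) →+* FL L (N * ℓ)) × (FL L N →+* FL L N)) :=
  (fun σ : L ≃ₐ[ℚ] L =>
    (((arithmeticRingAut (modularFunctionFieldFull (N * ℓ)) σ :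
        FL L (N * ℓ) ≃+* FL L (N * ℓ)) : FL L (N * ℓ) →+* FL L (N * ℓ)),
      ((arithmeticRingAut (modularFunctionFieldFull N) σ : FL L N ≃+* FL L N) :
        FL L N →+* FL L N))) '' S

variable {L N ℓ}

theorem fixF_galPairs_iff (S : Set (L ≃ₐ[ℚ] L)) (z : FL L (N * ℓ)) :
    letI := algebraAlong (heckeAlphaBar L N ℓ)
    FixF (galPairs L N ℓ S) z ↔
      ∀ σ ∈ S, arithmeticGalois (modularFunctionFieldFull (N * ℓ)) σ • z = z := by
  constructor
  · intro h σ hσ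
    exact h _ ⟨σ, hσ, rfl⟩
  · rintro h _ ⟨σ, hσ, rfl⟩
    exact h σ hσ

theorem fixE_galPairs_iff (S : Set (L ≃ₐ[ℚ] L)) (e : FL L N) :
    letI := algebraAlong (heckeAlphaBar L N ℓ)
    FixE (galPairs L N ℓ S) e ↔
      ∀ σ ∈ S, arithmeticGalois (modularFunctionFieldFull N) σ • e = e := by
  constructor
  · intro h σ hσ
    exact h _ ⟨σ, hσ, rfl⟩
  · rintro h _ ⟨σ, hσ, rfl⟩
    exact h σ hσ

theorem compat_galPairs (S : Set (L ≃ₐ[ℚ] L)) :
    letI := algebraAlong (heckeAlphaBar L N ℓ)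
    Compat (galPairs L N ℓ S) := by
  letI := algebraAlong (heckeAlphaBar L N ℓ)
  rintro _ ⟨σ, -, rfl⟩ e
  exact intertwines_alpha L N ℓ σ e

/-- `j` at level `N` is fixed. -/
theorem smul_jN (σ : L ≃ₐ[ℚ] L) :
    arithmeticGalois (modularFunctionFieldFull N) σ • jN L N = jN L N := by
  apply Subtype.ext
  rw [coe_arithmeticGalois_smul, coe_jN, coeffMap_jqModC]

theorem smul_alpha_jN (σ : L ≃ₐ[ℚ] L) :
    arithmeticGalois (modularFunctionFieldFull (N * ℓ)) σ • heckeAlphaBar L N ℓ (jN L N) =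
      heckeAlphaBar L N ℓ (jN L N) := by
  rw [intertwines_alpha L N ℓ σ (jN L N), smul_jN]

theorem smul_beta_jN (σ : L ≃ₐ[ℚ] L) :
    arithmeticGalois (modularFunctionFieldFull (N * ℓ)) σ • heckeBetaBar L N ℓ (jN L N) =
      heckeBetaBar L N ℓ (jN L N) := by
  rw [intertwines_beta L N ℓ σ (jN L N), smul_jN]

theorem fixF_alpha_jN (S : Set (L ≃ₐ[ℚ] L)) :
    letI := algebraAlong (heckeAlphaBar L N ℓ)
    FixF (galPairs L N ℓ S) (heckeAlphaBar L N ℓ (jN L N)) := by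
  letI := algebraAlong (heckeAlphaBar L N ℓ)
  exact (fixF_galPairs_iff S _).mpr fun σ _ => smul_alpha_jN σ

theorem fixF_beta_jN (S : Set (L ≃ₐ[ℚ] L)) :
    letI := algebraAlong (heckeAlphaBar L N ℓ)
    FixF (galPairs L N ℓ S) (heckeBetaBar L N ℓ (jN L N)) := by
  letI := algebraAlong (heckeAlphaBar L N ℓ)
  exact (fixF_galPairs_iff S _).mpr fun σ _ => smul_beta_jN σ

theorem fixF_wInf (S : Set (L ≃ₐ[ℚ] L)) :
    letI := algebraAlong (heckeAlphaBar L N ℓ)
    FixF (galPairs L N ℓ S) (wInf L N ℓ) := by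
  letI := algebraAlong (heckeAlphaBar L N ℓ)
  show FixF (galPairs L N ℓ S)
    (heckeBetaBar L N ℓ (jN L N) - (heckeAlphaBar L N ℓ (jN L N)) ^ ℓ)
  exact (fixF_beta_jN S).sub ((fixF_alpha_jN S).pow ℓ)

theorem fixF_wZero (S : Set (L ≃ₐ[ℚ] L)) :
    letI := algebraAlong (heckeAlphaBar L N ℓ)
    FixF (galPairs L N ℓ S) (wZero L N ℓ) := by
  letI := algebraAlong (heckeAlphaBar L N ℓ)
  show FixF (galPairs L N ℓ S)
    (heckeAlphaBar L N ℓ (jN L N) - (heckeBetaBar L N ℓ (jN L N)) ^ ℓ)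
  exact (fixF_alpha_jN S).sub ((fixF_beta_jN S).pow ℓ)

theorem fixF_sepElt (S : Set (L ≃ₐ[ℚ] L)) :
    letI := algebraAlong (heckeAlphaBar L N ℓ)
    FixF (galPairs L N ℓ S) (sepElt L N ℓ) := by
  letI := algebraAlong (heckeAlphaBar L N ℓ)
  show FixF (galPairs L N ℓ S) (wInf L N ℓ / (wInf L N ℓ + wZero L N ℓ))
  exact (fixF_wInf S).div ((fixF_wInf S).add (fixF_wZero S))

end Pairs

section Main

variable {L : Type} [Field L] [Algebra ℚ L] [IsAlgClosed L] (A : ValuationSubring L)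
  {k : Type} [Field k] (π : A →+* k) [IsAlgClosed k]
variable (N ℓ : ℕ) [NeZero N] [Fact ℓ.Prime] [CharP k ℓ]
variable (hdeg : finrankAlong L (heckeAlphaBar L N ℓ) = ℓ + 1) (hℓ : ℓ.Prime) (hℓN : ¬ ℓ ∣ N)
variable (hrk : ∀ x ∈ IsLocalRing.maximalIdeal A, ∀ c : A, c ≠ 0 → ∃ j : ℕ, c ∣ x ^ j)
  (hπ : Function.Surjective π)

/-- a fixed good-level element has a fixed normalising constant; transported along `α` -/
theorem exists_fixed_const_of_good (S : Set (L ≃ₐ[ℚ] L)) (V : ValuationSubring (FL L (N * ℓ)))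
    (hV : letI := algebraAlong (heckeAlphaBar L N ℓ)
      FundEq.LiesOver (OvVal A π N ℓ hπ hℓN) V)
    (e : FL L N) (he : e ≠ 0)
    (hefix : ∀ σ ∈ S, arithmeticGalois (modularFunctionFieldFull N) σ • e = e) :
    ∃ c : L, c ≠ 0 ∧ (∀ σ ∈ S, σ c = c) ∧
      V.valuation (algebraMap L (FL L (N * ℓ)) c * heckeAlphaBar L N ℓ e) = 1 := by
  letI := algebraAlong (heckeAlphaBar L N ℓ)
  obtain ⟨c, hc, hcfix, hval⟩ :=
    Fermat.Agent.S19x.Geo.ScalFixed.scal_fixed A π ℓ N hπ hℓN S e he hefix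
  refine ⟨c, hc, hcfix, ?_⟩
  have h1 : algebraMap L (FL L (N * ℓ)) c * heckeAlphaBar L N ℓ e =
      algebraMap (FL L N) (FL L (N * ℓ)) (c • e) := by
    show _ = heckeAlphaBar L N ℓ (c • e)
    rw [Algebra.smul_def, map_mul, AlgHom.commutes]
  rw [h1]
  exact (hV.eq_one_iff (c • e)).mpr hval

include hdeg hℓ in
/-- **`scal_fixed` at `∞`**: `valInfty` is unramified on `S`-fixed functions. -/
theorem scal_fixed_infty (S : Set (L ≃ₐ[ℚ] L)) (f : FL L (N * ℓ)) (hf : f ≠ 0)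
    (hfix : ∀ σ ∈ S, arithmeticGalois (modularFunctionFieldFull (N * ℓ)) σ • f = f) :
    ∃ c : L, c ≠ 0 ∧ (∀ σ ∈ S, σ c = c) ∧
      (valInfty A π N ℓ hrk hπ hℓN).valuation (algebraMap L (FL L (N * ℓ)) c * f) = 1 := by
  letI := algebraAlong (heckeAlphaBar L N ℓ)
  haveI : FiniteDimensional (FL L N) (FL L (N * ℓ)) := finiteDimensional_alpha N ℓ
  have H := fundHyp A π N ℓ hdeg hℓ hℓN hrk hπ
  obtain ⟨e, he, hefix, hval⟩ := Hyp.exists_fixed_valuation_eq (Sg := galPairs L N ℓ S) H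
    (compat_galPairs S) (fixF_sepElt S)
    (resIndep₁ A π N ℓ hℓN hrk hπ) (resIndep₂ A π N ℓ hdeg hℓ hℓN hrk hπ)
    (fun _ => FixF.one) (fun b => (fixF_beta_jN S).pow (b : ℕ))
    (finrank_le_card N ℓ hdeg) hf ((fixF_galPairs_iff S f).mpr hfix)
  obtain ⟨c, hc, hcfix, hone⟩ := exists_fixed_const_of_good A π N ℓ hℓN hπ S
    (valInfty A π N ℓ hrk hπ hℓN) H.liesOver₁ e he ((fixE_galPairs_iff S e).mp hefix)
  refine ⟨c, hc, hcfix, ?_⟩
  rw [map_mul, hval, ← map_mul]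
  exact hone

include hdeg hℓ in
/-- **`scal_fixed` at `0`**: `valZero` is unramified on `S`-fixed functions. -/
theorem scal_fixed_zero (S : Set (L ≃ₐ[ℚ] L)) (f : FL L (N * ℓ)) (hf : f ≠ 0)
    (hfix : ∀ σ ∈ S, arithmeticGalois (modularFunctionFieldFull (N * ℓ)) σ • f = f) :
    ∃ c : L, c ≠ 0 ∧ (∀ σ ∈ S, σ c = c) ∧
      (valZero A π N ℓ hdeg hℓ hℓN hrk hπ).valuation
        (algebraMap L (FL L (N * ℓ)) c * f) = 1 := by
  letI := algebraAlong (heckeAlphaBar L N ℓ)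
  haveI : FiniteDimensional (FL L N) (FL L (N * ℓ)) := finiteDimensional_alpha N ℓ
  have H := fundHyp A π N ℓ hdeg hℓ hℓN hrk hπ
  obtain ⟨e, he, hefix, hval⟩ := Hyp.exists_fixed_valuation_eq' (Sg := galPairs L N ℓ S) H
    (compat_galPairs S) (fixF_sepElt S)
    (resIndep₁ A π N ℓ hℓN hrk hπ) (resIndep₂ A π N ℓ hdeg hℓ hℓN hrk hπ)
    (fun _ => FixF.one) (fun b => (fixF_beta_jN S).pow (b : ℕ))
    (finrank_le_card N ℓ hdeg) hf ((fixF_galPairs_iff S f).mpr hfix)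
  obtain ⟨c, hc, hcfix, hone⟩ := exists_fixed_const_of_good A π N ℓ hℓN hπ S
    (valZero A π N ℓ hdeg hℓ hℓN hrk hπ) H.liesOver₂ e he ((fixE_galPairs_iff S e).mp hefix)
  refine ⟨c, hc, hcfix, ?_⟩
  rw [map_mul, hval, ← map_mul]
  exact hone

include hdeg hℓ in
/-- `scal_fixed_infty` phrased with the set `arithmeticGalois '' S` of semilinear automorphisms
and `SemilinearAut.baseAut` (vocabulary of `S19x/Geo/LatticeFixed.IsFixed / IsFixedK`). -/
theorem scal_fixed_infty_semilinear (S : Set (L ≃ₐ[ℚ] L)) (f : FL L (N * ℓ)) (hf : f ≠ 0)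
    (hfix : ∀ s ∈ (arithmeticGalois (L := L) (modularFunctionFieldFull (N * ℓ))) '' S,
      s • f = f) :
    ∃ c : L, c ≠ 0 ∧
      (∀ s ∈ (arithmeticGalois (L := L) (modularFunctionFieldFull (N * ℓ))) '' S,
        SemilinearAut.baseAut s c = c) ∧
      (valInfty A π N ℓ hrk hπ hℓN).valuation (c • f) = 1 := by
  obtain ⟨c, hc, hcfix, hval⟩ := scal_fixed_infty A π N ℓ hdeg hℓ hℓN hrk hπ S f hf
    (fun σ hσ => hfix _ ⟨σ, hσ, rfl⟩)
  refine ⟨c, hc, ?_, by rw [Algebra.smul_def]; exact hval⟩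
  rintro _ ⟨σ, hσ, rfl⟩
  rw [baseAut_arithmeticGalois]
  exact hcfix σ hσ

include hdeg hℓ in
/-- `scal_fixed_zero` phrased with semilinear automorphisms. -/
theorem scal_fixed_zero_semilinear (S : Set (L ≃ₐ[ℚ] L)) (f : FL L (N * ℓ)) (hf : f ≠ 0)
    (hfix : ∀ s ∈ (arithmeticGalois (L := L) (modularFunctionFieldFull (N * ℓ))) '' S,
      s • f = f) :
    ∃ c : L, c ≠ 0 ∧
      (∀ s ∈ (arithmeticGalois (L := L) (modularFunctionFieldFull (N * ℓ))) '' S,
        SemilinearAut.baseAut s c = c) ∧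
      (valZero A π N ℓ hdeg hℓ hℓN hrk hπ).valuation (c • f) = 1 := by
  obtain ⟨c, hc, hcfix, hval⟩ := scal_fixed_zero A π N ℓ hdeg hℓ hℓN hrk hπ S f hf
    (fun σ hσ => hfix _ ⟨σ, hσ, rfl⟩)
  refine ⟨c, hc, ?_, by rw [Algebra.smul_def]; exact hval⟩
  rintro _ ⟨σ, hσ, rfl⟩
  rw [baseAut_arithmeticGalois]
  exact hcfix σ hσ

include hdeg hℓ in
/-- **sup-norm form** (shape of `FixData2.scal_fixed` for the two-valuation small ring): ONE
fixed constant `c` with `c f` integral at both Gauss valuations and a unit at one of them. -/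
theorem scal_fixed_two (S : Set (L ≃ₐ[ℚ] L)) (f : FL L (N * ℓ)) (hf : f ≠ 0)
    (hfix : ∀ σ ∈ S, arithmeticGalois (modularFunctionFieldFull (N * ℓ)) σ • f = f) :
    ∃ c : L, c ≠ 0 ∧ (∀ σ ∈ S, σ c = c) ∧
      (valInfty A π N ℓ hrk hπ hℓN).valuation (algebraMap L (FL L (N * ℓ)) c * f) ≤ 1 ∧
      (valZero A π N ℓ hdeg hℓ hℓN hrk hπ).valuation
        (algebraMap L (FL L (N * ℓ)) c * f) ≤ 1 ∧
      ((valInfty A π N ℓ hrk hπ hℓN).valuation (algebraMap L (FL L (N * ℓ)) c * f) = 1 ∨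
        (valZero A π N ℓ hdeg hℓ hℓN hrk hπ).valuation
          (algebraMap L (FL L (N * ℓ)) c * f) = 1) := by
  obtain ⟨c₁, hc₁, hc₁fix, h₁⟩ := scal_fixed_infty A π N ℓ hdeg hℓ hℓN hrk hπ S f hf hfix
  obtain ⟨c₂, hc₂, hc₂fix, h₂⟩ := scal_fixed_zero A π N ℓ hdeg hℓ hℓN hrk hπ S f hf hfix
  -- compare the two constants in `A`
  have hcomp : ∀ (V : ValuationSubring (FL L (N * ℓ))) (a b : L), b ≠ 0 → a / b ∈ A →
      (∀ x : L, x ∈ A → algebraMap L (FL L (N * ℓ)) x ∈ V) →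
      V.valuation (algebraMap L (FL L (N * ℓ)) b * f) = 1 →
      V.valuation (algebraMap L (FL L (N * ℓ)) a * f) ≤ 1 := by
    intro V a b hb hab hAV hbf
    have h1 : algebraMap L (FL L (N * ℓ)) a * f =
        algebraMap L (FL L (N * ℓ)) (a / b) * (algebraMap L (FL L (N * ℓ)) b * f) := by
      rw [← mul_assoc, ← map_mul, div_mul_cancel₀ a hb]
    rw [h1, map_mul, hbf, mul_one]
    exact (ValuationSubring.valuation_le_one_iff _ _).mpr (hAV _ hab)
  -- constants of `A` are integral at both valuations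
  have hA₁ : ∀ x : L, x ∈ A → algebraMap L (FL L (N * ℓ)) x ∈ valInfty A π N ℓ hrk hπ hℓN := by
    intro x hx
    have h1 : algebraMap L (FL L (N * ℓ)) x =
        heckeAlphaBar L N ℓ (algebraMap L (FL L N) x) :=
      ((heckeAlphaBar L N ℓ).commutes x).symm
    rw [h1, alpha_mem_valInfty_iff A π N ℓ hrk hπ hℓN, mem_OvVal_iff]
    exact (algebraMap_mem_Ov_iff A π N hπ x).mpr hx
  have hA₂ : ∀ x : L, x ∈ A →
      algebraMap L (FL L (N * ℓ)) x ∈ valZero A π N ℓ hdeg hℓ hℓN hrk hπ := by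
    intro x hx
    have h1 : algebraMap L (FL L (N * ℓ)) x =
        heckeAlphaBar L N ℓ (algebraMap L (FL L N) x) :=
      ((heckeAlphaBar L N ℓ).commutes x).symm
    rw [h1, alpha_mem_valZero_iff A π N ℓ hdeg hℓ hℓN hrk hπ, mem_OvVal_iff]
    exact (algebraMap_mem_Ov_iff A π N hπ x).mpr hx
  rcases A.mem_or_inv_mem (c₁ / c₂) with h | h
  · -- `|c₁| ≤ |c₂|`: take `c₁`
    exact ⟨c₁, hc₁, hc₁fix, h₁.le, hcomp _ c₁ c₂ hc₂ h hA₂ h₂, Or.inl h₁⟩
  · -- `|c₂| ≤ |c₁|`: take `c₂`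
    rw [inv_div] at h
    exact ⟨c₂, hc₂, hc₂fix, hcomp _ c₂ c₁ hc₁ h hA₁ h₁, h₂.le, Or.inr h₂⟩

end Main

end Fermat.Agent.S33x.W.ScalFixedTwo
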