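/-
P-S33, W-STRUCTURE: THE CLOSING PLUG OF (W2)  (helper42, W lead).

`FixData2` (both copies: `S33x/H1/LatticeFixed2` of helper17 and `S33x/W/LatticeFixed2` of
helper5) for the two-valuation reduction setup `redSetup2 H hA` of level `M q` and the
coefficientwise action `inertiaAct P (M q)` of the inertia group, UNCONDITIONALLY:
helper9's `H1/FixData2Inst.fixData2_redSetup2` (residue_surj, unif, sup-norm combination)
fed with the two one-valuation statements of (W2b) `W/ScalFixedTwo` (equivariant fundamental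
equality `W/FundEqFixed` + good-level `S19x/Geo/ScalFixed`).
-/
import Mathlib
import Fermat.Agent.S33x.H1.FixData2Inst
import Fermat.Agent.S33x.W.ScalFixedTwo

set_option autoImplicit false
set_option linter.unusedSectionVars false
set_option linter.unusedVariables false

noncomputable section

namespace Fermat.Agent.S33x.W.FixData2Done

open AlgebraicCurve IsLocalRing ModularCurve
open Fermat.Agent.S34x.C0two
open Fermat.Agent.Gateway.Hecke Fermat.Agent.S34x.TwoVal Fermat.Agent.S34x.Inst.RedSetupInst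
open Fermat.Agent.S19x.Geo.LatticeFixed (IsFixed IsFixedK)
open Fermat.Agent.S33x.H1.FixData2Inst

local notation "Qbar" => AlgebraicClosure ℚ

variable (P : ValuationSubring Qbar) {k : Type} [Field k] (π : P →+* k) [IsAlgClosed k]
variable (M q : ℕ) [NeZero M] [Fact q.Prime] [CharP k q]
variable (hdeg : finrankAlong Qbar (heckeAlphaBar Qbar M q) = q + 1) (hq : q.Prime)
  (hqM : ¬ q ∣ M)
variable (hrk : ∀ x ∈ maximalIdeal P, ∀ c : P, c ≠ 0 → ∃ j : ℕ, c ∣ x ^ j)
  (hπ : Function.Surjective π)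

include hdeg hq in
/-- (W2b) at `∞` in the vocabulary of `FixData2Inst`. -/
theorem hscal_infty (f : FL Qbar (M * q)) (hf : f ≠ 0)
    (hfix : IsFixed (inertiaAct P (M * q)) f) :
    ∃ c : Qbar, c ≠ 0 ∧ IsFixedK (inertiaAct P (M * q)) c ∧
      (valInfty P π M q hrk hπ hqM).valuation (c • f) = 1 :=
  Fermat.Agent.S33x.W.ScalFixedTwo.scal_fixed_infty_semilinear P π M q hdeg hq hqM hrk hπ
    (P.inertiaSubgroupIn ℚ : Set (Qbar ≃ₐ[ℚ] Qbar)) f hf hfix

/-- (W2b) at `0` in the vocabulary of `FixData2Inst`. -/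
theorem hscal_zero (f : FL Qbar (M * q)) (hf : f ≠ 0)
    (hfix : IsFixed (inertiaAct P (M * q)) f) :
    ∃ c : Qbar, c ≠ 0 ∧ IsFixedK (inertiaAct P (M * q)) c ∧
      (valZero P π M q hdeg hq hqM hrk hπ).valuation (c • f) = 1 :=
  Fermat.Agent.S33x.W.ScalFixedTwo.scal_fixed_zero_semilinear P π M q hdeg hq hqM hrk hπ
    (P.inertiaSubgroupIn ℚ : Set (Qbar ≃ₐ[ℚ] Qbar)) f hf hfix

variable {P π M q hdeg hq hqM hrk hπ}

/-- **`FixData2` (helper17's copy) at level `M q`, unconditional.** -/
theorem fixData2_done (H : ResidueFacts P π M q hdeg hq hqM hrk hπ) (hA : P.LiesOverPrime q) :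
    Fermat.Agent.S33x.H1.LatticeFixed2.FixData2 (redSetup2 H hA) (inertiaAct P (M * q)) :=
  fixData2_redSetup2 H hA (hscal_infty P π M q hdeg hq hqM hrk hπ)
    (hscal_zero P π M q hdeg hq hqM hrk hπ)

/-- **`FixData2` (helper5's copy) at level `M q`, unconditional.** -/
theorem fixData2W_done (H : ResidueFacts P π M q hdeg hq hqM hrk hπ) (hA : P.LiesOverPrime q) :
    Fermat.Agent.S33x.W.LatticeFixed2.FixData2 (redSetup2 H hA) (inertiaAct P (M * q)) :=
  fixData2W_redSetup2 H hA (hscal_infty P π M q hdeg hq hqM hrk hπ)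
    (hscal_zero P π M q hdeg hq hqM hrk hπ)

end Fermat.Agent.S33x.W.FixData2Done
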