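/-
P-S33, blocks H1/W, leaf (MQ-W), INDEPENDENT SECOND (helper9): BOTH Cech direct sums at the
concrete level `M q`.

Route (differs from the primary `H1/InstMqFixed`): everything is done inside the context bundle
`Cech.CtxMq.Ctx R C p q x Dt` + `Cech.CtxMq.CtxGal R C Gam` (helper43).

* `exists_directSum_both` (generic bundle): from `hD : FixData2 R Gam` and `hF` there are
  `b1`, `g`, `a : Fin g -> F` with `a i` in `Lam C b1 b1`, all `a i` fixed by `Gam`, the `A`-level
  decomposition `DirectSum (BxAlg C) (BooAlg C) (BzeroAlg C) a` of `H1/InstC4` AND the decomposition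
  over `W = fixedSubring Gam` of the fixed subalgebras `InstW.fixedAlg Gam _`, with the SAME `a i`
  (`H1/InstCtxFixed.exists_directSum_fixed` + `W/InstW.directSum_fixedC`).
* `exists_directSum_both_W` : the same from `hD : W.LatticeFixed2.FixData2 R Gam` for the first
  half (the second half uses `H1.LatticeFixed2.FixData2`, so both are asked).
* `exists_directSum_fixed_Mq` : the CONCRETE statement, `L := Qbar`, `A := P`, level `M q`,
  `Gam := {g | exists tau in P.inertiaSubgroupIn Q, g = arithmeticGalois (mFFF (M q)) tau}`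
  (the set of `CtxMq.ctxGal_inertia`): no hypothesis on fixed points left
  (`H1/FixData2Final.fixData2_setOf`, `span_fixed_setOf`).
* `exists_groupLaw_Mq` : the consequence `hGL` (group law with coefficients in `inertiaInt P`) in
  the literal shape of `W/InstW.exists_groupLaw_inertiaInt`, together with the fixed `a i`.
-/
import Fermat.Agent.S33x.H1.InstCtxFixed
import Fermat.Agent.S33x.H1.FixData2Final
import Fermat.Agent.S33x.W.InstW

set_option autoImplicit false
set_option linter.style.haveILetI false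
set_option linter.unusedSectionVars false
set_option linter.unusedVariables false

noncomputable section

namespace Fermat.Agent.S33x.W.InstMqFixedB

open AlgebraicCurve Module IntermediateField IsLocalRing
open Fermat.Agent.Gateway.C0 Fermat.Agent.S34x.C0two Fermat.Agent.S34x.Lattice2
open Fermat.Agent.S33x.Cech.CtxMq Fermat.Agent.S33x.H1.InstC1
open Fermat.Agent.S33x.Cech Fermat.Agent.S33x.Cech.OfDirectSum
open Fermat.Agent.S19x.Geo.LatticeFixed (IsFixed)
open Fermat.Agent.S33x.W.InstW (fixedAlg)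

/-! ### The generic bundle -/

section Bundle

variable {K : Type*} [Field K] [IsAlgClosed K] [CharZero K] {A : ValuationSubring K}
  {F : Type*} [Field F] [Algebra K F] {S : SmallRing F}
  {k : Type*} [Field k] [IsAlgClosed k] {E : Type*} [Field E] [Algebra k E]
  {R : RedSetup2 A S k (E × E)} {C : ChartCoord R} {p q : ℕ} {x : E} {Dt : Divisor K F}
  (h : Ctx R C p q x Dt) {Γ : Set (SemilinearAut K F)} (hG : CtxGal R C Γ)

include h in
/-- the spaces `L(a C_0 + b C_oo)` are finite-dimensional -/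
theorem finiteDimensional_LN (a b : ℕ) : FiniteDimensional K (C.LN a b) := by
  haveI := h.fin_t
  haveI : ∀ b, FiniteDimensional k (C.Pk 0 b) := fun b => h.finite_Pk 0 b
  exact Fermat.Agent.S33x.H1.InstFixed.finiteDimensional_LN C h.ht h.hDt a b

include h hG in
/-- the decomposition over `W` from the decomposition over `A` with fixed `a i` -/
theorem directSum_fixed_of_directSum
    (hD : Fermat.Agent.S33x.H1.LatticeFixed2.FixData2 R Γ)
    (hF : Submodule.span K {f : F | IsFixed Γ f} = ⊤) {g b₁ : ℕ} {a : Fin g → F}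
    (ha : ∀ i, a i ∈ Lam C b₁ b₁) (hafix : ∀ i, IsFixed Γ (a i))
    (H : DirectSum (Fermat.Agent.S33x.H1.InstC4.BxAlg C) (Fermat.Agent.S33x.H1.InstC4.BooAlg C)
      (Fermat.Agent.S33x.H1.InstC4.BzeroAlg C) a) :
    DirectSum (fixedAlg Γ (Fermat.Agent.S33x.H1.InstC4.BxAlg C))
      (fixedAlg Γ (Fermat.Agent.S33x.H1.InstC4.BooAlg C))
      (fixedAlg Γ (Fermat.Agent.S33x.H1.InstC4.BzeroAlg C)) a := by
  haveI : ∀ p q, FiniteDimensional K (C.LN p q) := fun p q => finiteDimensional_LN h p q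
  exact Fermat.Agent.S33x.W.InstW.directSum_fixedC C hD hF
    (fun p q => h.hcart _ (finiteDimensional_LN h p q))
    (fun p q => Fermat.Agent.S33x.H1.StableLN.stable_LN C hG.smul_t p q) hafix ha H

include h hG in
/-- **(MQ-W), generic bundle**: both Cech direct sums, with the same inertia-fixed `a i`. -/
theorem exists_directSum_both
    (hD : Fermat.Agent.S33x.H1.LatticeFixed2.FixData2 R Γ)
    (hF : Submodule.span K {f : F | IsFixed Γ f} = ⊤) :
    ∃ (b₁ g : ℕ) (a : Fin g → F), (∀ i, a i ∈ Lam C b₁ b₁) ∧ (∀ i, IsFixed Γ (a i)) ∧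
      DirectSum (Fermat.Agent.S33x.H1.InstC4.BxAlg C) (Fermat.Agent.S33x.H1.InstC4.BooAlg C)
        (Fermat.Agent.S33x.H1.InstC4.BzeroAlg C) a ∧
      DirectSum (fixedAlg Γ (Fermat.Agent.S33x.H1.InstC4.BxAlg C))
        (fixedAlg Γ (Fermat.Agent.S33x.H1.InstC4.BooAlg C))
        (fixedAlg Γ (Fermat.Agent.S33x.H1.InstC4.BzeroAlg C)) a := by
  obtain ⟨b₁, g, a, ha, hafix, H⟩ :=
    Fermat.Agent.S33x.H1.InstCtxFixed.exists_directSum_fixed h hG hD hF
  exact ⟨b₁, g, a, ha, hafix, H, directSum_fixed_of_directSum h hG hD hF ha hafix H⟩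

include h hG in
/-- **(MQ-W), generic bundle**, first half from the `FixData2` of `W/LatticeFixed2`. -/
theorem exists_directSum_both_W
    (hDW : Fermat.Agent.S33x.W.LatticeFixed2.FixData2 R Γ)
    (hD : Fermat.Agent.S33x.H1.LatticeFixed2.FixData2 R Γ)
    (hF : Submodule.span K {f : F | IsFixed Γ f} = ⊤) :
    ∃ (b₁ g : ℕ) (a : Fin g → F), (∀ i, a i ∈ Lam C b₁ b₁) ∧ (∀ i, IsFixed Γ (a i)) ∧
      DirectSum (Fermat.Agent.S33x.H1.InstC4.BxAlg C) (Fermat.Agent.S33x.H1.InstC4.BooAlg C)
        (Fermat.Agent.S33x.H1.InstC4.BzeroAlg C) a ∧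
      DirectSum (fixedAlg Γ (Fermat.Agent.S33x.H1.InstC4.BxAlg C))
        (fixedAlg Γ (Fermat.Agent.S33x.H1.InstC4.BooAlg C))
        (fixedAlg Γ (Fermat.Agent.S33x.H1.InstC4.BzeroAlg C)) a := by
  obtain ⟨b₁, g, a, ha, hafix, H⟩ :=
    Fermat.Agent.S33x.H1.InstCtxFixed.exists_directSum_fixed_W h hG hDW hF
  exact ⟨b₁, g, a, ha, hafix, H, directSum_fixed_of_directSum h hG hD hF ha hafix H⟩

end Bundle

/-! ### The concrete level `M q` over `Qbar` -/

section Concrete

open ModularCurve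
open Fermat.Agent.Gateway.Hecke Fermat.Agent.Gateway.ESC
open Fermat.Agent.Gateway.Red Fermat.Agent.Gateway.GoodRed
open Fermat.Agent.Gateway.GoodRed.ConjFamily
open Fermat.Agent.S34x.TwoVal
open Fermat.Agent.S34x.Inst.L2 Fermat.Agent.S34x.Inst.IsL2Inst
open Fermat.Agent.S34x.Inst.RedSetupInst Fermat.Agent.S34x.Inst.ElementYRed
open Fermat.Agent.S34x.Inst.ElementYInt Fermat.Agent.S34x.Inst.Charts
open Fermat.Agent.S34x.Inst Fermat.Agent.S34x.Inst.TheoremBMq
open Fermat.Agent.S56x.Flat.InertiaField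
open Fermat.Agent.S33x.H1.FixData2Final

attribute [-instance] IsScalarTower.of_algHom

local notation "Qbar" => AlgebraicClosure ℚ

variable {P : ValuationSubring Qbar} {k : Type} [Field k] {π : P →+* k} [IsAlgClosed k]
variable {M q : ℕ} [NeZero M] [NeZero q] [Fact q.Prime] [CharP k q]
variable {hdeg : finrankAlong Qbar (heckeAlphaBar Qbar M q) = q + 1} {hq : q.Prime}
  {hqM : ¬ q ∣ M}
variable {hrk : ∀ x ∈ maximalIdeal P, ∀ c : P, c ≠ 0 → ∃ j : ℕ, c ∣ x ^ j}
  {hπ : Function.Surjective π}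
variable (H : ResidueFacts P π M q hdeg hq hqM hrk hπ) (hA : P.LiesOverPrime q)
  (x : LaurentSeries ℤ) (hx : coeffMap (Int.castRingHom Qbar) x ∈ FBar Qbar M)
  (Hx : GoodLevelFactsT P π M q hπ hqM (tInt M x hx))

/-- the inertia group of `P` acting coefficientwise on the function field of level `M q`
(set-builder form of `CtxMq.ctxGal_inertia`). -/
abbrev GamMq (P : ValuationSubring Qbar) (M q : ℕ) :
    Set (SemilinearAut Qbar (laurentBaseChange Qbar (modularFunctionFieldFull (M * q)))) :=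
  {g | ∃ τ ∈ P.inertiaSubgroupIn ℚ, g = arithmeticGalois (modularFunctionFieldFull (M * q)) τ}

/-- every inertia automorphism is the base automorphism of an element of `GamMq`. -/
theorem baseAut_GamMq (P : ValuationSubring Qbar) (M q : ℕ) :
    ∀ σ ∈ P.inertiaSubgroupIn ℚ, ∃ s ∈ GamMq P M q,
      ∀ c : Qbar, SemilinearAut.baseAut s c = σ c :=
  fun σ hσ => ⟨_, ⟨σ, hσ, rfl⟩, fun _ => rfl⟩

include Hx hA in
/-- **(MQ-W) at the concrete level `M q`, `L = Qbar`**: both Cech direct sums for the chart rings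
of `H1/InstC4`, with the same inertia-fixed `a i`; no hypothesis on fixed points left. -/
theorem exists_directSum_fixed_Mq [PerfectRing k q] (C : ChartCoord (redSetup2 H hA))
    (hCt : C.t = tA M q x hx) (hxk : tbar k x ≠ 0) (hY : YFacts M q x hx) :
    ∃ (b₁ g : ℕ) (a : Fin g → FL Qbar (M * q)), (∀ i, a i ∈ Lam C b₁ b₁) ∧
      (∀ i, IsFixed (GamMq P M q) (a i)) ∧
      DirectSum (Fermat.Agent.S33x.H1.InstC4.BxAlg C) (Fermat.Agent.S33x.H1.InstC4.BooAlg C)
        (Fermat.Agent.S33x.H1.InstC4.BzeroAlg C) a ∧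
      DirectSum (fixedAlg (GamMq P M q) (Fermat.Agent.S33x.H1.InstC4.BxAlg C))
        (fixedAlg (GamMq P M q) (Fermat.Agent.S33x.H1.InstC4.BooAlg C))
        (fixedAlg (GamMq P M q) (Fermat.Agent.S33x.H1.InstC4.BzeroAlg C)) a := by
  haveI : Algebra.IsAlgebraic ℚ Qbar := AlgebraicClosure.isAlgebraic ℚ
  haveI : CharZero Qbar := algebraRat.charZero Qbar
  have ht : Transcendental Qbar C.t := by
    rw [hCt]
    exact Charts.transcendental_tα Qbar M q Hx.trans
  haveI hfin : FiniteDimensional Qbar⟮C.t⟯ (FL Qbar (M * q)) := by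
    rw [hCt]
    exact finiteDimensional_tA x hx Hx
  have hctx := ctx_of_chart H hA x hx Hx C hCt hxk hY (Dt := Charts.divT ht) (Charts.divT_apply ht)
  have hgal := ctxGal_inertia H hA x hx Hx C hCt
  have hD := fixData2_setOf H hA
  have hF := span_fixed_setOf P (M * q)
  exact exists_directSum_both hctx hgal hD hF

include Hx hA in
/-- **`hGL` at the concrete level `M q`**: the fixed `a i`, the `A`-level decomposition and the
universal group law with coefficients in `inertiaInt P`
(`W/InstW.exists_groupLaw_inertiaInt`). -/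
theorem exists_groupLaw_Mq [PerfectRing k q] (C : ChartCoord (redSetup2 H hA))
    (hCt : C.t = tA M q x hx) (hxk : tbar k x ≠ 0) (hY : YFacts M q x hx) :
    ∃ (b₁ g : ℕ) (a : Fin g → FL Qbar (M * q)), (∀ i, a i ∈ Lam C b₁ b₁) ∧
      (∀ i, IsFixed (GamMq P M q) (a i)) ∧
      ∃ Hd : DirectSum (Fermat.Agent.S33x.H1.InstC4.BxAlg C)
          (Fermat.Agent.S33x.H1.InstC4.BooAlg C) (Fermat.Agent.S33x.H1.InstC4.BzeroAlg C) a,
        ∀ n : ℕ, ∃ Φ : Fin g → MvPolynomial (Fin g ⊕ Fin g) (inertiaInt P),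
          ∀ (ϖ : P) (t t' : Fin g → P), (∀ i, ϖ ∣ t i) → (∀ i, ϖ ∣ t' i) →
            ∃ T : Fin g → P,
              (∀ j, (T j : Qbar) = MvPolynomial.aeval
                (Sum.elim (fun i => (t i : Qbar)) (fun i => (t' i : Qbar))) (Φ j)) ∧
              (∀ j, ϖ ∣ T j) ∧
              ∃ (voo : ooIn (Fermat.Agent.S33x.H1.InstC4.BxAlg C)
                    (Fermat.Agent.S33x.H1.InstC4.BooAlg C))
                (v0 : zeroIn (Fermat.Agent.S33x.H1.InstC4.BxAlg C)
                    (Fermat.Agent.S33x.H1.InstC4.BzeroAlg C)),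
                algebraMap P (ooIn (Fermat.Agent.S33x.H1.InstC4.BxAlg C)
                    (Fermat.Agent.S33x.H1.InstC4.BooAlg C)) ϖ ∣ voo - 1 ∧
                algebraMap P (zeroIn (Fermat.Agent.S33x.H1.InstC4.BxAlg C)
                    (Fermat.Agent.S33x.H1.InstC4.BzeroAlg C)) ϖ ∣ v0 - 1 ∧
                algebraMap P (Fermat.Agent.S33x.H1.InstC4.BxAlg C) ϖ ^ (n + 1) ∣
                  (1 + comb (aIn Hd) t) * (1 + comb (aIn Hd) t') * voo * v0
                    - (1 + comb (aIn Hd) T) := by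
  obtain ⟨b₁, g, a, ha, hafix, Hd, HW⟩ := exists_directSum_fixed_Mq H hA x hx Hx C hCt hxk hY
  exact ⟨b₁, g, a, ha, hafix, Hd,
    Fermat.Agent.S33x.W.InstW.exists_groupLaw_inertiaInt (baseAut_GamMq P M q) Hd HW⟩

end Concrete

end Fermat.Agent.S33x.W.InstMqFixedB
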