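import Fermat.Agent.S33x.W.InstW
import Fermat.Agent.S33x.H1.InstCtxFixed
import Fermat.Agent.S33x.Cech.Coord

/-!
# P-S33, block H1/W, glue (helper5): the COMPLETE export of blocks H1 + W inside the context bundle

Inside helper43's bundle `Cech.CtxMq.Ctx R C p q x Dt` + `CtxGal R C Γ`, with the two inputs
`hD : FixData2 R Γ` and `hF : span K {f | IsFixed Γ f} = ⊤` (both unconditional at `L = Qbar`,
`H1/FixData2Final`), for the chart rings of `H1/InstC4`:

* `finite_LN`, `fg_lat_LN'` : the subspaces `C.LN a b` are finite dimensional with finitely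
  generated lattices;
* `isLaw_fixed` : the hypothesis `hG` of `Coord.exists_charts_of_cyc` (the group law over
  `W = FixedDecomp.fixedSubring Γ`, ANY set `sm` of small elements) from the two direct sums;
* `coe_fixed_of_inertia` : the hypothesis `hW` of `InstConv.chartsMq_of_charts` for this `W`;
* `exists_export` : ONE statement with everything which the assembly (I6) consumes from blocks
  H1 and W: `b₁`, `g`, the FIXED `aᵢ ∈ Lam(b₁,b₁)`, the decomposition over `A`, the decomposition
  over `W` with the same `aᵢ`, and the group law over `W` at every precision.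
-/

set_option autoImplicit false
set_option linter.unusedSectionVars false
set_option linter.style.haveILetI false

noncomputable section

namespace Fermat.Agent.S33x.W.InstWCtx

open AlgebraicCurve Module IntermediateField IsLocalRing
open Fermat.Agent.Gateway.C0 Fermat.Agent.S34x.C0two Fermat.Agent.S34x.Lattice2
open Fermat.Agent.S33x.Cech.CtxMq Fermat.Agent.S33x.H1.InstC1
open Fermat.Agent.S33x.H1.FixedDecomp
open Fermat.Agent.S33x.Cech Fermat.Agent.S33x.Cech.OfDirectSum
open Fermat.Agent.S19x.Geo.LatticeFixed (IsFixed IsFixedK)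
open Fermat.Agent.S33x.W.InstW

/-! ### The group law in the shape of `Coord.IsLaw` -/

section Law

variable {K : Type*} [Field K] {A : ValuationSubring K} {F : Type*} [Field F] [Algebra K F]
  {Γ : Set (SemilinearAut K F)} {Bx Boo B0 : Subalgebra A F} {g : ℕ} {a : Fin g → F}

/-- **The hypothesis `hG` of `Coord.exists_charts_of_cyc`** over `W = A^Γ`, for every set `sm`. -/
theorem isLaw_fixed (H : DirectSum Bx Boo B0 a)
    (HW : DirectSum (fixedAlg Γ Bx) (fixedAlg Γ Boo) (fixedAlg Γ B0) a) (sm : Set A) (N : ℕ) :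
    ∃ Φ : Fin g → MvPolynomial (Fin g ⊕ Fin g) (fixedSubring (A := A) Γ),
      Coord.IsLaw (ooIn Bx Boo) (zeroIn Bx B0) (aIn H) sm Φ N := by
  obtain ⟨Φ, -, hΦ⟩ := exists_groupLaw_fixed' H HW N
  exact ⟨Φ, fun π _ t t' ht ht' => hΦ π t t' ht ht'⟩

/-- the constants of `W = A^Γ` are fixed by every automorphism of `K` which is the base
automorphism of an element of `Γ`. -/
theorem coe_fixed_of_mem (w : fixedSubring (A := A) Γ) {s : SemilinearAut K F} (hs : s ∈ Γ) :
    SemilinearAut.baseAut s (((algebraMap (fixedSubring (A := A) Γ) A w : A) : K)) =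
      ((algebraMap (fixedSubring (A := A) Γ) A w : A) : K) :=
  w.2 s hs

end Law

/-! ### The hypothesis `hW` of `InstConv.chartsMq_of_charts` -/

section Inertia

variable {L : Type*} [Field L] [Algebra ℚ L] {A : ValuationSubring L}
  {F : Type*} [Field F] [Algebra L F] {Γ : Set (SemilinearAut L F)}

/-- **The hypothesis `hW`** : the constants of `W = A^Γ` are fixed by the inertia group of `A`, as
soon as every inertia automorphism is the base automorphism of some element of `Γ`. -/
theorem coe_fixed_of_inertia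
    (hΓ' : ∀ τ ∈ A.inertiaSubgroupIn ℚ, ∃ s ∈ Γ, ∀ c : L, SemilinearAut.baseAut s c = τ c)
    (w : fixedSubring (A := A) Γ) : ∀ τ ∈ A.inertiaSubgroupIn ℚ,
      τ (((algebraMap (fixedSubring (A := A) Γ) A w : A) : L)) =
        ((algebraMap (fixedSubring (A := A) Γ) A w : A) : L) := by
  intro τ hτ
  obtain ⟨s, hs, h⟩ := hΓ' τ hτ
  rw [← h]
  exact w.2 s hs

end Inertia

/-! ### The export inside the context bundle -/

section Ctx

variable {K : Type*} [Field K] [IsAlgClosed K] [CharZero K] {A : ValuationSubring K}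
  {F : Type*} [Field F] [Algebra K F] {S : SmallRing F}
  {k : Type*} [Field k] [IsAlgClosed k] {E : Type*} [Field E] [Algebra k E]
  {R : RedSetup2 A S k (E × E)} {C : ChartCoord R} {p q : ℕ} {x : E} {Dt : Divisor K F}
  (h : Ctx R C p q x Dt) {Γ : Set (SemilinearAut K F)} (hG : CtxGal R C Γ)

include h in
/-- the subspaces `L(a C₀ + b C∞)` are finite dimensional. -/
theorem finite_LN (a b : ℕ) : FiniteDimensional K (C.LN a b) := by
  haveI := h.fin_t
  haveI := h.isSeparable_t
  rw [← LN_eq C h.ht h.hDt]
  exact (TwoCharts.ofDivisor Dt).LN_finite h.ht a b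

include h in
/-- their lattices are finitely generated. -/
theorem fg_lat_LN' (a b : ℕ) : (R.lat (C.LN a b)).FG :=
  h.hcart _ (finite_LN h a b)

include h hG in
/-- **The complete export of blocks H1 and W inside the context bundle**: fixed `aᵢ`, the
decomposition over `A`, the decomposition over `W = A^Γ` with the same `aᵢ`, and the universal
group law over `W` at every precision (for every set `sm` of small elements). -/
theorem exists_export (hD : H1.LatticeFixed2.FixData2 R Γ)
    (hF : Submodule.span K {f : F | IsFixed Γ f} = ⊤) :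
    ∃ (b₁ g : ℕ) (a : Fin g → F)
      (H : DirectSum (H1.InstC4.BxAlg C) (H1.InstC4.BooAlg C) (H1.InstC4.BzeroAlg C) a),
      (∀ i, a i ∈ Lam C b₁ b₁) ∧ (∀ i, IsFixed Γ (a i)) ∧
      DirectSum (fixedAlg Γ (H1.InstC4.BxAlg C)) (fixedAlg Γ (H1.InstC4.BooAlg C))
        (fixedAlg Γ (H1.InstC4.BzeroAlg C)) a ∧
      ∀ (sm : Set A) (N : ℕ),
        ∃ Φ : Fin g → MvPolynomial (Fin g ⊕ Fin g) (fixedSubring (A := A) Γ),
          Coord.IsLaw (ooIn (H1.InstC4.BxAlg C) (H1.InstC4.BooAlg C))
            (zeroIn (H1.InstC4.BxAlg C) (H1.InstC4.BzeroAlg C)) (aIn H) sm Φ N := by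
  obtain ⟨b₁, g, a, ha, hafix, H⟩ := H1.InstCtxFixed.exists_directSum_fixed h hG hD hF
  haveI : ∀ p q, FiniteDimensional K (C.LN p q) := fun p q => finite_LN h p q
  have HW := directSum_fixedC C hD hF (fun p q => fg_lat_LN' h p q)
    (H1.StableLN.stable_LN C hG.smul_t) hafix ha H
  exact ⟨b₁, g, a, H, ha, hafix, HW, fun sm N => isLaw_fixed H HW sm N⟩

end Ctx

end Fermat.Agent.S33x.W.InstWCtx

end
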