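/-
P-S33, W-STRUCTURE, leaf (W2b), INDEPENDENT SECOND (helper6; primary: helper13, `ScalFixed2`).

The two Gauss valuations `valInfty`, `valZero` of `F_{Nℓ}` (`ℓ ∤ N` the residue characteristic) are
UNRAMIFIED ON GALOIS-FIXED FUNCTIONS: a nonzero `u ∈ F_{Nℓ}` fixed by a set `S` of automorphisms of
`L` (acting on the coefficients of `q`-expansions) has a nonzero `S`-FIXED constant multiple of
valuation one, at each of the two valuations.

Proof: the equivariant fundamental equality (`W/FundEqFixed`, helper42) at the instance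
`S34x/TwoVal/FundHyp.fundHyp` with the pairs `(σ at level Nℓ, σ at level N)`, `σ ∈ S` (the
separating element `w / (w + w')`, the families `1` and `(β j)^b` have rational `q`-expansions,
`α` intertwines the actions), followed by the good-level `S19x/Geo/ScalFixed.scal_fixed`.
-/
import Mathlib
import Fermat.Agent.S33x.W.FundEqFixed
import Fermat.Agent.S34x.TwoVal.Normalise2
import Fermat.Agent.S19x.Geo.ScalFixed
import Fermat.Agent.S19x.Geo.LatticeFixed
import Fermat.Agent.Gateway.Hecke.Galois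

set_option autoImplicit false
set_option linter.style.haveILetI false
set_option linter.unusedSectionVars false
set_option linter.unusedVariables false

noncomputable section

namespace Fermat.Agent.S33x.W.ScalFixed2B

open Polynomial ModularCurve AlgebraicCurve IntermediateField
open Fermat.Agent.S28 Fermat.Agent.S28.Tower Fermat.Agent.Gateway.Hecke
open Fermat.Agent.Gateway.Red Fermat.Agent.Gateway.GoodRed Fermat.Agent.Gateway.ESC
open Fermat.Agent.S34x.TwoVal Fermat.Agent.S33x.W.FundEqFixed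

/-! ### The pairs `(σ at level Nℓ, σ at level N)` -/

section Pairs

variable (L : Type) [Field L] [Algebra ℚ L] (N ℓ : ℕ) [NeZero N] [NeZero ℓ]

/-- the pair of ring endomorphisms of `(F_{Nℓ}, F_N)` attached to `σ` -/
def galPair (σ : L ≃ₐ[ℚ] L) :
    (FL L (N * ℓ) →+* FL L (N * ℓ)) × (FL L N →+* FL L N) :=
  ((SemilinearAut.toRingAut (arithmeticGalois (L := L) (modularFunctionFieldFull (N * ℓ)) σ)).toRingHom,
    (SemilinearAut.toRingAut (arithmeticGalois (L := L) (modularFunctionFieldFull N) σ)).toRingHom)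

theorem galPair_fst_apply (σ : L ≃ₐ[ℚ] L) (z : FL L (N * ℓ)) :
    (galPair L N ℓ σ).1 z = arithmeticGalois (modularFunctionFieldFull (N * ℓ)) σ • z := rfl

theorem galPair_snd_apply (σ : L ≃ₐ[ℚ] L) (e : FL L N) :
    (galPair L N ℓ σ).2 e = arithmeticGalois (modularFunctionFieldFull N) σ • e := rfl

/-- the set of pairs attached to a set `S` of automorphisms of `L` -/
def galPairs (S : Set (L ≃ₐ[ℚ] L)) :
    Set ((FL L (N * ℓ) →+* FL L (N * ℓ)) × (FL L N →+* FL L N)) :=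
  galPair L N ℓ '' S

variable {L N ℓ}

theorem fixF_galPairs_iff {S : Set (L ≃ₐ[ℚ] L)} {z : FL L (N * ℓ)} :
    letI := algebraAlong (heckeAlphaBar L N ℓ)
    FixF (galPairs L N ℓ S) z ↔
      ∀ σ ∈ S, arithmeticGalois (modularFunctionFieldFull (N * ℓ)) σ • z = z := by
  letI := algebraAlong (heckeAlphaBar L N ℓ)
  constructor
  · intro h σ hσ
    exact h _ ⟨σ, hσ, rfl⟩
  · rintro h _ ⟨σ, hσ, rfl⟩
    exact h σ hσ

theorem fixE_galPairs_iff {S : Set (L ≃ₐ[ℚ] L)} {e : FL L N} :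
    letI := algebraAlong (heckeAlphaBar L N ℓ)
    FixE (galPairs L N ℓ S) e ↔
      ∀ σ ∈ S, arithmeticGalois (modularFunctionFieldFull N) σ • e = e := by
  letI := algebraAlong (heckeAlphaBar L N ℓ)
  constructor
  · intro h σ hσ
    exact h _ ⟨σ, hσ, rfl⟩
  · rintro h _ ⟨σ, hσ, rfl⟩
    exact h σ hσ

variable (L N ℓ)

/-- `α` intertwines the two actions: the pairs are compatible with `F_N → F_{Nℓ}`. -/
theorem compat_galPairs (S : Set (L ≃ₐ[ℚ] L)) :
    letI := algebraAlong (heckeAlphaBar L N ℓ)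
    Compat (galPairs L N ℓ S) := by
  letI := algebraAlong (heckeAlphaBar L N ℓ)
  rintro _ ⟨σ, -, rfl⟩ e
  exact intertwines_alpha L N ℓ σ e

/-- `j` has a rational `q`-expansion. -/
theorem smul_jN (σ : L ≃ₐ[ℚ] L) :
    arithmeticGalois (modularFunctionFieldFull N) σ • jN L N = jN L N :=
  Subtype.ext (by rw [coe_arithmeticGalois_smul, coe_jN, coeffMap_jqModC])

theorem smul_alpha_jN (σ : L ≃ₐ[ℚ] L) :
    arithmeticGalois (modularFunctionFieldFull (N * ℓ)) σ • heckeAlphaBar L N ℓ (jN L N) =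
      heckeAlphaBar L N ℓ (jN L N) := by
  rw [intertwines_alpha L N ℓ σ (jN L N), smul_jN]

theorem smul_beta_jN (σ : L ≃ₐ[ℚ] L) :
    arithmeticGalois (modularFunctionFieldFull (N * ℓ)) σ • heckeBetaBar L N ℓ (jN L N) =
      heckeBetaBar L N ℓ (jN L N) := by
  rw [intertwines_beta L N ℓ σ (jN L N), smul_jN]

theorem smul_wInf (σ : L ≃ₐ[ℚ] L) :
    arithmeticGalois (modularFunctionFieldFull (N * ℓ)) σ • wInf L N ℓ = wInf L N ℓ := by
  show arithmeticGalois (modularFunctionFieldFull (N * ℓ)) σ •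
    (heckeBetaBar L N ℓ (jN L N) - (heckeAlphaBar L N ℓ (jN L N)) ^ ℓ) = _
  rw [smul_sub, smul_pow', smul_alpha_jN, smul_beta_jN]
  rfl

theorem smul_wZero (σ : L ≃ₐ[ℚ] L) :
    arithmeticGalois (modularFunctionFieldFull (N * ℓ)) σ • wZero L N ℓ = wZero L N ℓ := by
  show arithmeticGalois (modularFunctionFieldFull (N * ℓ)) σ •
    (heckeAlphaBar L N ℓ (jN L N) - (heckeBetaBar L N ℓ (jN L N)) ^ ℓ) = _
  rw [smul_sub, smul_pow', smul_alpha_jN, smul_beta_jN]
  rfl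

theorem fixF_sepElt (S : Set (L ≃ₐ[ℚ] L)) :
    letI := algebraAlong (heckeAlphaBar L N ℓ)
    FixF (galPairs L N ℓ S) (sepElt L N ℓ) := by
  letI := algebraAlong (heckeAlphaBar L N ℓ)
  have h1 : FixF (galPairs L N ℓ S) (wInf L N ℓ) :=
    fixF_galPairs_iff.mpr fun σ _ => smul_wInf L N ℓ σ
  have h2 : FixF (galPairs L N ℓ S) (wZero L N ℓ) :=
    fixF_galPairs_iff.mpr fun σ _ => smul_wZero L N ℓ σ
  exact h1.div (h1.add h2)

theorem fixF_beta_pow (S : Set (L ≃ₐ[ℚ] L)) (b : ℕ) :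
    letI := algebraAlong (heckeAlphaBar L N ℓ)
    FixF (galPairs L N ℓ S) ((heckeBetaBar L N ℓ (jN L N)) ^ b) := by
  letI := algebraAlong (heckeAlphaBar L N ℓ)
  have h1 : FixF (galPairs L N ℓ S) (heckeBetaBar L N ℓ (jN L N)) :=
    fixF_galPairs_iff.mpr fun σ _ => smul_beta_jN L N ℓ σ
  exact h1.pow b

end Pairs

/-! ### The fixed normalisation at the bad level -/

section Scal

variable {L : Type} [Field L] [Algebra ℚ L] [IsAlgClosed L] (A : ValuationSubring L)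
  {k : Type} [Field k] (π : A →+* k) [IsAlgClosed k]
variable (N ℓ : ℕ) [NeZero N] [Fact ℓ.Prime] [CharP k ℓ]
variable (hdeg : finrankAlong L (heckeAlphaBar L N ℓ) = ℓ + 1) (hℓ : ℓ.Prime) (hℓN : ¬ ℓ ∣ N)
variable (hrk : ∀ x ∈ IsLocalRing.maximalIdeal A, ∀ c : A, c ≠ 0 → ∃ j : ℕ, c ∣ x ^ j)
  (hπ : Function.Surjective π)

include hdeg hℓ in
/-- **Fixed normalisation at `∞`**: `valInfty` is unramified on `S`-fixed functions. -/
theorem exists_fixed_smul_valInfty_eq_one (S : Set (L ≃ₐ[ℚ] L)) (u : FL L (N * ℓ)) (hu : u ≠ 0)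
    (hfix : ∀ σ ∈ S, arithmeticGalois (modularFunctionFieldFull (N * ℓ)) σ • u = u) :
    ∃ c : L, c ≠ 0 ∧ (∀ σ ∈ S, σ c = c) ∧
      (valInfty A π N ℓ hrk hπ hℓN).valuation (c • u) = 1 := by
  letI := algebraAlong (heckeAlphaBar L N ℓ)
  haveI : FiniteDimensional (FL L N) (FL L (N * ℓ)) := finiteDimensional_alpha N ℓ
  have H := fundHyp A π N ℓ hdeg hℓ hℓN hrk hπ
  obtain ⟨e, he, hefix, hval⟩ := Fermat.Agent.S33x.W.FundEqFixed.Hyp.exists_fixed_valuation_eq H (Sg := galPairs L N ℓ S)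
    (compat_galPairs L N ℓ S) (fixF_sepElt L N ℓ S)
    (resIndep₁ A π N ℓ hℓN hrk hπ) (resIndep₂ A π N ℓ hdeg hℓ hℓN hrk hπ)
    (fun _ => FixF.one) (fun b => fixF_beta_pow L N ℓ S (b : ℕ))
    (finrank_le_card N ℓ hdeg) hu (fixF_galPairs_iff.mpr hfix)
  obtain ⟨c, hc, hcfix, hcval⟩ := Fermat.Agent.S19x.Geo.ScalFixed.scal_fixed A π ℓ N hπ hℓN S e he
    (fixE_galPairs_iff.mp hefix)
  refine ⟨c, hc, hcfix, ?_⟩
  have h1 : (valInfty A π N ℓ hrk hπ hℓN).valuation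
      (algebraMap (FL L N) (FL L (N * ℓ)) (c • e)) = 1 :=
    (H.liesOver₁.eq_one_iff (c • e)).mpr hcval
  have h2 : algebraMap (FL L N) (FL L (N * ℓ)) (c • e) =
      algebraMap L (FL L (N * ℓ)) c * algebraMap (FL L N) (FL L (N * ℓ)) e := by
    show heckeAlphaBar L N ℓ (c • e) = algebraMap L (FL L (N * ℓ)) c * heckeAlphaBar L N ℓ e
    rw [map_smul, Algebra.smul_def]
  rw [Algebra.smul_def, map_mul, hval, ← map_mul, ← h2]
  exact h1

/-- **Fixed normalisation at `0`**: `valZero` is unramified on `S`-fixed functions. -/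
theorem exists_fixed_smul_valZero_eq_one (S : Set (L ≃ₐ[ℚ] L)) (u : FL L (N * ℓ)) (hu : u ≠ 0)
    (hfix : ∀ σ ∈ S, arithmeticGalois (modularFunctionFieldFull (N * ℓ)) σ • u = u) :
    ∃ c : L, c ≠ 0 ∧ (∀ σ ∈ S, σ c = c) ∧
      (valZero A π N ℓ hdeg hℓ hℓN hrk hπ).valuation (c • u) = 1 := by
  letI := algebraAlong (heckeAlphaBar L N ℓ)
  haveI : FiniteDimensional (FL L N) (FL L (N * ℓ)) := finiteDimensional_alpha N ℓ
  have H := fundHyp A π N ℓ hdeg hℓ hℓN hrk hπ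
  obtain ⟨e, he, hefix, hval⟩ := Fermat.Agent.S33x.W.FundEqFixed.Hyp.exists_fixed_valuation_eq' H (Sg := galPairs L N ℓ S)
    (compat_galPairs L N ℓ S) (fixF_sepElt L N ℓ S)
    (resIndep₁ A π N ℓ hℓN hrk hπ) (resIndep₂ A π N ℓ hdeg hℓ hℓN hrk hπ)
    (fun _ => FixF.one) (fun b => fixF_beta_pow L N ℓ S (b : ℕ))
    (finrank_le_card N ℓ hdeg) hu (fixF_galPairs_iff.mpr hfix)
  obtain ⟨c, hc, hcfix, hcval⟩ := Fermat.Agent.S19x.Geo.ScalFixed.scal_fixed A π ℓ N hπ hℓN S e he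
    (fixE_galPairs_iff.mp hefix)
  refine ⟨c, hc, hcfix, ?_⟩
  have h1 : (valZero A π N ℓ hdeg hℓ hℓN hrk hπ).valuation
      (algebraMap (FL L N) (FL L (N * ℓ)) (c • e)) = 1 :=
    (H.liesOver₂.eq_one_iff (c • e)).mpr hcval
  have h2 : algebraMap (FL L N) (FL L (N * ℓ)) (c • e) =
      algebraMap L (FL L (N * ℓ)) c * algebraMap (FL L N) (FL L (N * ℓ)) e := by
    show heckeAlphaBar L N ℓ (c • e) = algebraMap L (FL L (N * ℓ)) c * heckeAlphaBar L N ℓ e
    rw [map_smul, Algebra.smul_def]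
  rw [Algebra.smul_def, map_mul, hval, ← map_mul, ← h2]
  exact h1

/-! ### The same in the vocabulary of `LatticeFixed` (`Γ` = the semilinear automorphisms) -/

open Fermat.Agent.S19x.Geo.LatticeFixed in
include hdeg hℓ in
/-- `scal_fixed` at `∞` for `Γ = arithmeticGalois '' S`. -/
theorem scal_fixed_infty (S : Set (L ≃ₐ[ℚ] L)) (f : FL L (N * ℓ)) (hf : f ≠ 0)
    (hfix : IsFixed ((arithmeticGalois (L := L) (modularFunctionFieldFull (N * ℓ))) '' S) f) :
    ∃ c : L, c ≠ 0 ∧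
      IsFixedK ((arithmeticGalois (L := L) (modularFunctionFieldFull (N * ℓ))) '' S) c ∧
      (valInfty A π N ℓ hrk hπ hℓN).valuation (c • f) = 1 := by
  obtain ⟨c, hc, hcfix, hval⟩ := exists_fixed_smul_valInfty_eq_one A π N ℓ hdeg hℓ hℓN hrk hπ S f hf
    (fun σ hσ => hfix _ ⟨σ, hσ, rfl⟩)
  refine ⟨c, hc, ?_, hval⟩
  rintro _ ⟨σ, hσ, rfl⟩
  exact hcfix σ hσ

open Fermat.Agent.S19x.Geo.LatticeFixed in
/-- `scal_fixed` at `0` for `Γ = arithmeticGalois '' S`. -/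
theorem scal_fixed_zero (S : Set (L ≃ₐ[ℚ] L)) (f : FL L (N * ℓ)) (hf : f ≠ 0)
    (hfix : IsFixed ((arithmeticGalois (L := L) (modularFunctionFieldFull (N * ℓ))) '' S) f) :
    ∃ c : L, c ≠ 0 ∧
      IsFixedK ((arithmeticGalois (L := L) (modularFunctionFieldFull (N * ℓ))) '' S) c ∧
      (valZero A π N ℓ hdeg hℓ hℓN hrk hπ).valuation (c • f) = 1 := by
  obtain ⟨c, hc, hcfix, hval⟩ := exists_fixed_smul_valZero_eq_one A π N ℓ hdeg hℓ hℓN hrk hπ S f hf
    (fun σ hσ => hfix _ ⟨σ, hσ, rfl⟩)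
  refine ⟨c, hc, ?_, hval⟩
  rintro _ ⟨σ, hσ, rfl⟩
  exact hcfix σ hσ

end Scal

end Fermat.Agent.S33x.W.ScalFixed2B
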